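import Fermat.Agent.S28.Defs

set_option autoImplicit false
noncomputable section
open Polynomial ModularCurve

namespace Fermat.Agent.S28

section generic

variable {R : Type*} [CommRing R]

theorem algebraMap_laurent_eq_C (r : R) :
    algebraMap R (LaurentSeries R) r = HahnSeries.C r := by
  have h1 : algebraMap R (PowerSeries R) r = PowerSeries.C r := by simp
  rw [HahnSeries.algebraMap_apply', h1, HahnSeries.ofPowerSeries_C]

theorem coeff_algebraMap_mul (r : R) (x : LaurentSeries R) (k : ℤ) :
    (algebraMap R (LaurentSeries R) r * x).coeff k = r * x.coeff k := by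
  rw [algebraMap_laurent_eq_C, HahnSeries.C_mul_eq_smul, HahnSeries.coeff_smul, smul_eq_mul]

/-- `coeffMap` commutes with evaluation of polynomials. -/
theorem coeffMap_aeval {S : Type*} [CommRing S] (f : R →+* S) (J : LaurentSeries R) (P : R[X]) :
    coeffMap f (aeval J P) = aeval (coeffMap f J) (P.map f) := by
  rw [aeval_def, aeval_def, hom_eval₂, eval₂_map]
  congr 1
  refine RingHom.ext fun r => ?_
  simp only [RingHom.comp_apply, algebraMap_laurent_eq_C]
  exact coeffMap_single f 0 r

/-- A Laurent series all of whose coefficients lie in a subring comes from that subring. -/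
theorem exists_coeffMap_subtype (O : Subring R) (x : LaurentSeries R) (h : ∀ k, x.coeff k ∈ O) :
    ∃ y : LaurentSeries O, coeffMap O.subtype y = x := by
  refine ⟨⟨fun k => ⟨x.coeff k, h k⟩, ?_⟩, ?_⟩
  · have : Function.support (fun k => (⟨x.coeff k, h k⟩ : O)) = x.support := by
      ext k
      simp [Subtype.ext_iff]
    rw [this]
    exact x.isPWO_support
  · ext k
    rfl

theorem mem_range_coeffMap_subtype (O : Subring R) (x : LaurentSeries R) :
    x ∈ (coeffMap O.subtype).range ↔ ∀ k, x.coeff k ∈ O := by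
  constructor
  · rintro ⟨y, rfl⟩ k
    exact (y.coeff k).2
  · intro h
    exact exists_coeffMap_subtype O x h

theorem coeffMap_injective {S : Type*} [CommRing S] (f : R →+* S) (hf : Function.Injective f) :
    Function.Injective (coeffMap f) := by
  intro x y hxy
  ext k
  apply hf
  have := congrArg (fun z => HahnSeries.coeff z k) hxy
  simpa using this

/-- `J` is "monic of order `-m`", stated for all powers. -/
structure IsMonicPole (J : LaurentSeries R) (m : ℕ) : Prop where
  pos : 0 < m
  low : ∀ (b : ℕ) (k : ℤ), k < -((m : ℤ) * b) → (J ^ b).coeff k = 0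
  lead : ∀ b : ℕ, (J ^ b).coeff (-((m : ℤ) * b)) = 1

theorem IsMonicPole.coeff_aeval {J : LaurentSeries R} {m : ℕ} (hJ : IsMonicPole J m) (P : R[X]) :
    (aeval J P).coeff (-((m : ℤ) * P.natDegree)) = P.leadingCoeff := by
  rw [aeval_def, eval₂_eq_sum_range, HahnSeries.coeff_sum, Finset.sum_eq_single P.natDegree]
  · rw [coeff_algebraMap_mul, hJ.lead, mul_one]
    rfl
  · intro i hi hne
    rw [coeff_algebraMap_mul, hJ.low, mul_zero]
    have hlt : i < P.natDegree := lt_of_le_of_ne (Nat.lt_succ_iff.1 (Finset.mem_range.1 hi)) hne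
    have hm : (0 : ℤ) < m := by exact_mod_cast hJ.pos
    have : (i : ℤ) < P.natDegree := by exact_mod_cast hlt
    nlinarith
  · intro h
    exact absurd (Finset.mem_range.2 (Nat.lt_succ_self _)) h

theorem IsMonicPole.aeval_injective {J : LaurentSeries R} {m : ℕ} (hJ : IsMonicPole J m) :
    Function.Injective (aeval J : R[X] → LaurentSeries R) := by
  rw [injective_iff_map_eq_zero]
  intro P hP
  have := hJ.coeff_aeval P
  rw [hP, HahnSeries.coeff_zero] at this
  exact leadingCoeff_eq_zero.1 this.symm

/-- The triangular argument: if `P(J)` has coefficients in the subring `O`, so has `P`. -/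
theorem IsMonicPole.coeff_mem {J : LaurentSeries R} {m : ℕ} (hJ : IsMonicPole J m) (O : Subring R)
    (hJO : ∀ k, J.coeff k ∈ O) (P : R[X]) (hP : ∀ k, (aeval J P).coeff k ∈ O) :
    ∀ i, P.coeff i ∈ O := by
  suffices H : ∀ (n : ℕ) (P : R[X]), P.natDegree < n → (∀ k, (aeval J P).coeff k ∈ O) →
      ∀ i, P.coeff i ∈ O from H (P.natDegree + 1) P (Nat.lt_succ_self _) hP
  intro n
  induction n with
  | zero => intro P h; exact absurd h (Nat.not_lt_zero _)
  | succ n ih =>
    intro P hdeg hP i
    have hlead : P.leadingCoeff ∈ O := by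
      rw [← hJ.coeff_aeval P]; exact hP _
    have hJ' : J ∈ (coeffMap O.subtype).range := (mem_range_coeffMap_subtype O J).2 hJO
    have herase : ∀ k, (aeval J P.eraseLead).coeff k ∈ O := by
      rw [← mem_range_coeffMap_subtype]
      have h1 : aeval J P.eraseLead = aeval J P - HahnSeries.C P.leadingCoeff * J ^ P.natDegree := by
        conv_rhs => rw [← eraseLead_add_C_mul_X_pow P]
        rw [map_add, map_mul, aeval_C, map_pow, aeval_X, algebraMap_laurent_eq_C]
        simp
      rw [h1]
      refine sub_mem ((mem_range_coeffMap_subtype O _).2 hP) (mul_mem ?_ (pow_mem hJ' _))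
      rw [mem_range_coeffMap_subtype]
      intro k
      rw [HahnSeries.C_apply, HahnSeries.coeff_single]
      split_ifs
      · exact hlead
      · exact O.zero_mem
    have hrec : ∀ i, P.eraseLead.coeff i ∈ O := by
      rcases eraseLead_natDegree_lt_or_eraseLead_eq_zero P with h | h
      · exact ih P.eraseLead (by omega) herase
      · intro i; rw [h, coeff_zero]; exact O.zero_mem
    by_cases hi : i = P.natDegree
    · rw [hi]; exact hlead
    · rw [← eraseLead_coeff_of_ne i hi]; exact hrec i

/-- Lifting form of the triangular argument. -/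
theorem IsMonicPole.exists_lift {J : LaurentSeries R} {m : ℕ} (hJ : IsMonicPole J m)
    (O : Subring R) (hJO : ∀ k, J.coeff k ∈ O) (P : R[X])
    (hP : ∀ k, (aeval J P).coeff k ∈ O) : ∃ P' : O[X], P'.map O.subtype = P := by
  have : P ∈ lifts O.subtype := (lifts_iff_coeff_lifts _).2 (fun i =>
    ⟨⟨P.coeff i, hJ.coeff_mem O hJO P hP i⟩, rfl⟩)
  exact (mem_lifts _).1 this

end generic

section jN

variable (R : Type*) [CommRing R] (N : ℕ) [NeZero N]

/-- `j(t^N)` is monic of order `-N` over every commutative ring. -/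
theorem isMonicPole_qExpand_jqModC : IsMonicPole (qExpand R N (jqModC R)) N where
  pos := Nat.pos_of_ne_zero (NeZero.ne N)
  low b k hk := by
    rw [← map_pow]
    by_cases hdvd : (N : ℤ) ∣ k
    · obtain ⟨k', rfl⟩ := hdvd
      rw [qExpand_coeff_mul]
      apply coeff_jqModC_pow_of_lt
      have hN : (0 : ℤ) < N := by exact_mod_cast Nat.pos_of_ne_zero (NeZero.ne N)
      nlinarith
    · exact qExpand_coeff_of_not_dvd N _ hdvd
  lead b := by
    rw [← map_pow, show -((N : ℤ) * b) = (N : ℤ) * (-(b : ℤ)) by ring, qExpand_coeff_mul]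
    exact coeff_jqModC_pow_self R b

theorem coeff_qExpand_jqModC_mem (O : Subring R) (k : ℤ) :
    (qExpand R N (jqModC R)).coeff k ∈ O := by
  by_cases hdvd : (N : ℤ) ∣ k
  · obtain ⟨k', rfl⟩ := hdvd
    rw [qExpand_coeff_mul, coeff_jqModC_eq_intCast]
    exact intCast_mem O _
  · rw [qExpand_coeff_of_not_dvd N _ hdvd]
    exact O.zero_mem

theorem isMonicPole_jN : IsMonicPole (jN N) N := isMonicPole_qExpand_jqModC ℂ N

/-- [Tri] for `jN`. -/
theorem coeff_mem_of_aeval_jN (O : Subring ℂ) (P : ℂ[X])
    (hP : ∀ k, (aeval (jN N) P).coeff k ∈ O) : ∀ i, P.coeff i ∈ O :=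
  (isMonicPole_jN N).coeff_mem O (coeff_qExpand_jqModC_mem ℂ N O) P hP

theorem exists_lift_of_aeval_jN (O : Subring ℂ) (P : ℂ[X])
    (hP : ∀ k, (aeval (jN N) P).coeff k ∈ O) : ∃ P' : O[X], P'.map O.subtype = P :=
  (isMonicPole_jN N).exists_lift O (coeff_qExpand_jqModC_mem ℂ N O) P hP

end jN

end Fermat.Agent.S28
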