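import Mathlib

set_option autoImplicit false

open Polynomial

namespace Fermat.Agent.S28

/-- A polynomial of smaller degree sharing a root with a monic irreducible polynomial over an
integrally closed domain vanishes. -/
theorem eq_zero_of_irreducible {A L : Type*} [CommRing A] [IsDomain A] [IsIntegrallyClosed A]
    [Field L] (φ : A →+* L) (hφ : Function.Injective φ) (Ψ g : A[X]) (hΨ : Ψ.Monic)
    (hirr : Irreducible Ψ) (x : L) (hx : eval₂ φ x Ψ = 0) (hg : eval₂ φ x g = 0)
    (hdeg : g.degree < Ψ.degree) : g = 0 := by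
  have hirrK : Irreducible (Ψ.map (algebraMap A (FractionRing A))) :=
    (hΨ.irreducible_iff_irreducible_map_fraction_map (K := FractionRing A)).1 hirr
  have hφK : (IsFractionRing.lift hφ : FractionRing A →+* L).comp
      (algebraMap A (FractionRing A)) = φ := by
    refine RingHom.ext fun x => ?_
    exact IsFractionRing.lift_algebraMap hφ x
  by_contra hgne
  have hinjK : Function.Injective (algebraMap A (FractionRing A)) := IsFractionRing.injective _ _
  have hgK : g.map (algebraMap A (FractionRing A)) ≠ 0 := by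
    rwa [Ne, Polynomial.map_eq_zero_iff hinjK]
  have hndvd : ¬ Ψ.map (algebraMap A (FractionRing A)) ∣ g.map (algebraMap A (FractionRing A)) := by
    intro hdvd
    have h1 := degree_le_of_dvd hdvd hgK
    rw [degree_map_eq_of_injective hinjK, degree_map_eq_of_injective hinjK] at h1
    exact absurd hdeg (not_lt.2 h1)
  obtain ⟨a, b, hab⟩ := (hirrK.isCoprime_or_dvd _).resolve_right hndvd
  have h2 := congrArg (eval₂ (IsFractionRing.lift hφ : FractionRing A →+* L) x) hab
  rw [eval₂_add, eval₂_mul, eval₂_mul, eval₂_map, eval₂_map, hφK, hx, hg, eval₂_one] at h2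
  simp at h2

section abstractIrr

variable {k : Type*} [Field k]

/-- A product of nonzero Laurent series of negative order has order `≤ -card`. -/
theorem order_multiset_prod_le (s : Multiset (LaurentSeries k))
    (hs : ∀ r ∈ s, r ≠ 0 ∧ r.order < 0) :
    s.prod ≠ 0 ∧ s.prod.order ≤ -(Multiset.card s : ℤ) := by
  induction s using Multiset.induction_on with
  | empty => simp
  | cons a s ih =>
    have h1 := hs a (Multiset.mem_cons_self a s)
    have h2 := ih (fun r hr => hs r (Multiset.mem_cons_of_mem hr))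
    rw [Multiset.prod_cons]
    refine ⟨mul_ne_zero h1.1 h2.1, ?_⟩
    rw [HahnSeries.order_mul h1.1 h2.1, Multiset.card_cons]
    push_cast
    linarith [h1.2, h2.2]

theorem order_aeval_of_isUnit (J : LaurentSeries k) {p : k[X]} (hp : IsUnit p) :
    aeval J p ≠ 0 ∧ (aeval J p).order = 0 := by
  obtain ⟨r, hr, rfl⟩ := Polynomial.isUnit_iff.1 hp
  rw [aeval_C]
  have h : algebraMap k (LaurentSeries k) r = HahnSeries.C r := by
    have h1 : algebraMap k (PowerSeries k) r = PowerSeries.C r := by simp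
    rw [HahnSeries.algebraMap_apply', h1, HahnSeries.ofPowerSeries_C]
  rw [h]
  refine ⟨?_, HahnSeries.order_C⟩
  simpa using hr.ne_zero

variable {ι : Type*} [Fintype ι]

theorem prod_X_sub_C_eq_multiset (U : ι → LaurentSeries k) :
    ∏ c, (X - C (U c)) = ((Finset.univ.val.map U).map (fun a => X - C a)).prod := by
  rw [Multiset.map_map]
  rfl

variable [DecidableEq ι]

/-- The key step: in a factorisation `D * E` over `k[J]` of `∏ (X - U c)`, if the unique root
of non-negative order is a root of `D` then `E` is a unit. -/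
theorem isUnit_of_mul_eq (J : LaurentSeries k) (hJ : Function.Injective (aeval J : k[X] → _))
    (c₀ : ι) (U : ι → LaurentSeries k) (hU : ∀ c, U c ≠ 0)
    (hneg : ∀ c, c ≠ c₀ → (U c).order < 0) (Ψ D E : k[X][X])
    (hΨ : Ψ.map (aeval J : k[X] →ₐ[k] LaurentSeries k).toRingHom = ∏ c, (X - C (U c)))
    (hunit : IsUnit (Ψ.coeff 0)) (hDE : D * E = Ψ)
    (hroot : eval₂ (aeval J : k[X] →ₐ[k] LaurentSeries k).toRingHom (U c₀) D = 0) :
    IsUnit E := by
  set φ : k[X] →+* LaurentSeries k := (aeval J : k[X] →ₐ[k] LaurentSeries k).toRingHom with hφdef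
  have hφ : Function.Injective φ := hJ
  set ΨL : (LaurentSeries k)[X] := ∏ c, (X - C (U c)) with hΨL
  have hΨLmonic : ΨL.Monic := monic_prod_of_monic _ _ (fun c _ => monic_X_sub_C _)
  have hΨmonic : Ψ.Monic := monic_of_injective hφ (by rw [hΨ]; exact hΨLmonic)
  have hmul : D.map φ * E.map φ = ΨL := by rw [← Polynomial.map_mul, hDE, hΨ]
  have hne : D.map φ * E.map φ ≠ 0 := by rw [hmul]; exact hΨLmonic.ne_zero
  have hDne : D.map φ ≠ 0 := left_ne_zero_of_mul hne
  have hEne : E.map φ ≠ 0 := right_ne_zero_of_mul hne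
  have hroots : (D.map φ).roots + (E.map φ).roots = Finset.univ.val.map U := by
    rw [← roots_mul hne, hmul, hΨL, prod_X_sub_C_eq_multiset, roots_multiset_prod_X_sub_C]
  -- cardinalities
  have hdeg : (D.map φ).natDegree + (E.map φ).natDegree = Fintype.card ι := by
    rw [← natDegree_mul hDne hEne, hmul, hΨL, prod_X_sub_C_eq_multiset,
      natDegree_multiset_prod_X_sub_C_eq_card]
    simp
  have hcard : Multiset.card (D.map φ).roots + Multiset.card (E.map φ).roots
      = Fintype.card ι := by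
    rw [← Multiset.card_add, hroots]
    simp
  have hcE : Multiset.card (E.map φ).roots = (E.map φ).natDegree := by
    have h1 := card_roots' (D.map φ)
    have h2 := card_roots' (E.map φ)
    omega
  -- the roots of `E` have negative order
  have hmem : U c₀ ∈ (D.map φ).roots := by
    rw [mem_roots hDne, IsRoot.def, eval_map]
    exact hroot
  obtain ⟨t, ht⟩ := Multiset.exists_cons_of_mem hmem
  have huniv : Finset.univ.val.map U = U c₀ ::ₘ (Finset.univ.erase c₀).val.map U := by
    rw [← Multiset.map_cons, Finset.erase_val, Multiset.cons_erase (Finset.mem_univ_val c₀)]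
  have hsub : t + (E.map φ).roots = (Finset.univ.erase c₀).val.map U := by
    rw [ht, huniv, Multiset.cons_add] at hroots
    exact (Multiset.cons_inj_right _).1 hroots
  have hEroots : ∀ r ∈ (E.map φ).roots, r ≠ 0 ∧ r.order < 0 := by
    intro r hr
    have : r ∈ (Finset.univ.erase c₀).val.map U := by
      rw [← hsub]; exact Multiset.mem_add.2 (Or.inr hr)
    obtain ⟨c, hc, rfl⟩ := Multiset.mem_map.1 this
    exact ⟨hU c, hneg c (Finset.ne_of_mem_erase hc)⟩
  -- units
  have hE0 : IsUnit (E.coeff 0) := by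
    have : D.coeff 0 * E.coeff 0 = Ψ.coeff 0 := by rw [← mul_coeff_zero, hDE]
    exact isUnit_of_mul_isUnit_right (this ▸ hunit)
  have hElc : IsUnit E.leadingCoeff := by
    have : D.leadingCoeff * E.leadingCoeff = 1 := by
      rw [← leadingCoeff_mul, hDE, hΨmonic.leadingCoeff]
    exact IsUnit.of_mul_eq_one_right _ this
  have hfac := C_leadingCoeff_mul_prod_multiset_X_sub_C hcE
  have hcoeff0 : φ (E.coeff 0) = φ E.leadingCoeff *
      ((E.map φ).roots.map (fun a => -a)).prod := by
    have h1 : (E.map φ).coeff 0 = φ (E.coeff 0) := coeff_map _ _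
    rw [← h1, coeff_zero_eq_eval_zero, ← hfac, eval_mul, eval_C, eval_multiset_prod,
      Multiset.map_map, hfac, leadingCoeff_map_of_injective hφ]
    congr 2
    refine Multiset.map_congr rfl fun a _ => ?_
    simp
  have hdeg0 : (E.map φ).natDegree = 0 := by
    by_contra hpos
    have hpos' : 0 < Multiset.card (E.map φ).roots := by rw [hcE]; exact Nat.pos_of_ne_zero hpos
    have h2 := order_multiset_prod_le ((E.map φ).roots.map (fun a => -a)) (by
      intro r hr
      obtain ⟨a, ha, rfl⟩ := Multiset.mem_map.1 hr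
      have := hEroots a ha
      exact ⟨neg_ne_zero.2 this.1, by rw [HahnSeries.order_neg]; exact this.2⟩)
    have h3 : φ (E.coeff 0) ≠ 0 ∧ (φ (E.coeff 0)).order = 0 := order_aeval_of_isUnit J hE0
    have h4 : φ E.leadingCoeff ≠ 0 ∧ (φ E.leadingCoeff).order = 0 :=
      order_aeval_of_isUnit J hElc
    have h5 := congrArg HahnSeries.order hcoeff0
    rw [HahnSeries.order_mul h4.1 h2.1, h3.2, h4.2] at h5
    have h6 := h2.2
    rw [Multiset.card_map] at h6
    have : (0 : ℤ) < (Multiset.card (E.map φ).roots : ℤ) := by exact_mod_cast hpos'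
    linarith
  rw [natDegree_map_eq_of_injective hφ] at hdeg0
  rw [eq_C_of_natDegree_eq_zero hdeg0]
  exact isUnit_C.2 hE0

/-- Abstract irreducibility: `1, U c₀, …, U c₀ ^ (n-1)` are linearly independent over `k[J]`. -/
theorem indep_of_roots (J : LaurentSeries k) (hJ : Function.Injective (aeval J : k[X] → _))
    (c₀ : ι) (U : ι → LaurentSeries k) (hU : ∀ c, U c ≠ 0)
    (hneg : ∀ c, c ≠ c₀ → (U c).order < 0)
    (hchar : ∀ i, ∃ P : k[X], (∏ c, (X - C (U c))).coeff i = aeval J P)
    (hinv : ∃ P : k[X], ∏ c, (U c)⁻¹ = aeval J P)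
    (f : Fin (Fintype.card ι) → k[X])
    (hf : ∑ i, aeval J (f i) * U c₀ ^ (i : ℕ) = 0) : ∀ i, f i = 0 := by
  set φ : k[X] →+* LaurentSeries k := (aeval J : k[X] →ₐ[k] LaurentSeries k).toRingHom with hφdef
  have hφ : Function.Injective φ := hJ
  set ΨL : (LaurentSeries k)[X] := ∏ c, (X - C (U c)) with hΨL
  have hΨLmonic : ΨL.Monic := monic_prod_of_monic _ _ (fun c _ => monic_X_sub_C _)
  obtain ⟨Ψ, hΨ⟩ : ∃ Ψ : k[X][X], Ψ.map φ = ΨL := by
    have : ΨL ∈ lifts φ := (lifts_iff_coeff_lifts _).2 (fun i => by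
      obtain ⟨P, hP⟩ := hchar i
      exact ⟨P, hP.symm⟩)
    exact (mem_lifts _).1 this
  have hΨmonic : Ψ.Monic := monic_of_injective hφ (by rw [hΨ]; exact hΨLmonic)
  have hΨdeg : Ψ.natDegree = Fintype.card ι := by
    rw [← natDegree_map_eq_of_injective hφ, hΨ, hΨL, prod_X_sub_C_eq_multiset,
      natDegree_multiset_prod_X_sub_C_eq_card]
    simp
  have hΨroot : eval₂ φ (U c₀) Ψ = 0 := by
    rw [← eval_map, hΨ, hΨL, eval_prod]
    exact Finset.prod_eq_zero (Finset.mem_univ c₀) (by simp)
  have hunit : IsUnit (Ψ.coeff 0) := by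
    obtain ⟨P, hP⟩ := hinv
    have h1 : φ (Ψ.coeff 0) = ∏ c, (- U c) := by
      rw [← coeff_map, hΨ, hΨL, coeff_zero_eq_eval_zero, eval_prod]
      exact Finset.prod_congr rfl (fun c _ => by simp)
    have h2 : φ (Ψ.coeff 0 * ((-1) ^ Fintype.card ι * P)) = φ 1 := by
      have hP' : φ P = ∏ c, (U c)⁻¹ := hP.symm
      rw [map_mul, map_mul, h1, hP', map_pow, map_neg, map_one, Finset.prod_neg,
        Finset.card_univ]
      have h3 : (∏ c, U c) * ∏ c, (U c)⁻¹ = 1 := by
        rw [← Finset.prod_mul_distrib]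
        exact Finset.prod_eq_one (fun c _ => mul_inv_cancel₀ (hU c))
      have h4 : ((-1 : LaurentSeries k) ^ Fintype.card ι) * (-1) ^ Fintype.card ι = 1 := by
        rw [← mul_pow]; simp
      calc ((-1) ^ Fintype.card ι * ∏ c, U c) * ((-1) ^ Fintype.card ι * ∏ c, (U c)⁻¹)
          = ((-1) ^ Fintype.card ι * (-1) ^ Fintype.card ι) * ((∏ c, U c) * ∏ c, (U c)⁻¹) := by
            ring
        _ = 1 := by rw [h3, h4, one_mul]
    exact IsUnit.of_mul_eq_one _ (hφ h2)
  have hirr : Irreducible Ψ := by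
    rw [irreducible_iff]
    refine ⟨fun hu => ?_, fun a b hab => ?_⟩
    · have := hu.map (eval₂RingHom φ (U c₀))
      rw [coe_eval₂RingHom, hΨroot] at this
      exact not_isUnit_zero this
    · have h0 : eval₂ φ (U c₀) a * eval₂ φ (U c₀) b = 0 := by
        rw [← eval₂_mul, ← hab, hΨroot]
      rcases mul_eq_zero.1 h0 with h | h
      · exact Or.inr (isUnit_of_mul_eq J hJ c₀ U hU hneg Ψ a b hΨ hunit hab.symm h)
      · exact Or.inl (isUnit_of_mul_eq J hJ c₀ U hU hneg Ψ b a hΨ hunit
          (by rw [mul_comm]; exact hab.symm) h)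
  set g : k[X][X] := ∑ i : Fin (Fintype.card ι), C (f i) * X ^ (i : ℕ) with hg
  have hgdeg : g.degree < (Fintype.card ι : ℕ) := degree_sum_fin_lt f
  have hgroot : eval₂ φ (U c₀) g = 0 := by
    rw [hg, eval₂_finsetSum, ← hf]
    refine Finset.sum_congr rfl fun i _ => ?_
    rw [eval₂_mul, eval₂_C, eval₂_pow, eval₂_X]
    rfl
  have hg0 : g = 0 := by
    refine eq_zero_of_irreducible φ hφ Ψ g hΨmonic hirr (U c₀) hΨroot hgroot ?_
    rw [degree_eq_natDegree hΨmonic.ne_zero, hΨdeg]
    exact hgdeg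
  intro i
  have h3 : g.coeff (i : ℕ) = f i := by
    rw [hg, finsetSum_coeff, Finset.sum_eq_single i]
    · simp
    · intro j _ hj
      rw [coeff_C_mul, coeff_X_pow, if_neg (fun h => hj (Fin.ext h.symm)), mul_zero]
    · simp
  rw [← h3, hg0, coeff_zero]

end abstractIrr

end Fermat.Agent.S28
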