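import Fermat.Agent.S28.Tri
import Fermat.Agent.S28.IrrAbstract

set_option autoImplicit false
noncomputable section
open Polynomial ModularCurve

namespace Fermat.Agent.S28

section residue

variable (N : ℕ) (ℓ : ℕ) [Fact ℓ.Prime]

/-- `ℓ` is not invertible in `NInt N` when `ℓ ∤ N`. -/
theorem not_isUnit_natCast_NInt (hℓN : ¬ ℓ ∣ N) : ¬ IsUnit ((ℓ : ℕ) : NInt N) := by
  intro hu
  obtain ⟨x, hx⟩ := hu.exists_right_inv
  obtain ⟨m, hm⟩ := x.2
  have hℓ0 : (ℓ : ℂ) ≠ 0 := by exact_mod_cast (Fact.out : ℓ.Prime).ne_zero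
  have hx' : (ℓ : ℂ) * (x : ℂ) = 1 := by
    have := congrArg (Subring.subtype (NInt N)) hx
    simpa using this
  have hxval : (x : ℂ) = (ℓ : ℂ)⁻¹ := eq_inv_of_mul_eq_one_right hx'
  have h1 : (N : ℂ) ^ m * (x : ℂ) = algebraMap ℚ ℂ ((N : ℚ) ^ m / ℓ) := by
    rw [hxval]
    simp [div_eq_mul_inv]
  rw [h1, isIntegral_algebraMap_iff (algebraMap ℚ ℂ).injective,
    IsIntegrallyClosed.isIntegral_iff] at hm
  obtain ⟨z, hz⟩ := hm
  have hℓ0' : (ℓ : ℚ) ≠ 0 := by exact_mod_cast (Fact.out : ℓ.Prime).ne_zero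
  have h2 : ((N : ℤ) ^ m : ℤ) = (ℓ : ℤ) * z := by
    have : ((N : ℚ) ^ m) = (ℓ : ℚ) * (z : ℚ) := by
      rw [eq_div_iff hℓ0'] at hz
      simp only [eq_intCast] at hz
      linarith
    exact_mod_cast this
  have h3 : (ℓ : ℤ) ∣ (N : ℤ) ^ m := ⟨z, h2⟩
  have h4 : ℓ ∣ N ^ m := by exact_mod_cast h3
  exact hℓN ((Fact.out : ℓ.Prime).dvd_of_dvd_pow h4)

/-- A residue field of `NInt N` of characteristic `ℓ`. -/
theorem exists_residueField (hℓN : ¬ ℓ ∣ N) :
    ∃ (k : Type) (_ : Field k) (_ : NInt N →+* k), Nonempty (ZMod ℓ →+* k) := by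
  have hne : Ideal.span {((ℓ : ℕ) : NInt N)} ≠ ⊤ := by
    rw [Ne, Ideal.span_singleton_eq_top]
    exact not_isUnit_natCast_NInt N ℓ hℓN
  obtain ⟨M, hM, hle⟩ := Ideal.exists_le_maximal _ hne
  let _ : Field (NInt N ⧸ M) := Ideal.Quotient.field M
  refine ⟨NInt N ⧸ M, inferInstance, Ideal.Quotient.mk M, ?_⟩
  have h0 : ((ℓ : ℕ) : NInt N ⧸ M) = 0 := by
    have : Ideal.Quotient.mk M ((ℓ : ℕ) : NInt N) = 0 :=
      Ideal.Quotient.eq_zero_iff_mem.2 (hle (Ideal.mem_span_singleton_self _))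
    simpa using this
  have : CharP (NInt N ⧸ M) ℓ := (CharP.charP_iff_prime_eq_zero (Fact.out : ℓ.Prime)).2 h0
  exact ⟨ZMod.castHom (dvd_refl ℓ) (NInt N ⧸ M)⟩

end residue

section castLS

theorem coeffMap_castLS {A B : Type*} [CommRing A] [CommRing B] (f : A →+* B)
    (u : LaurentSeries ℤ) : coeffMap f (castLS A u) = castLS B u := by
  rw [castLS, castLS, coeffMap_coeffMap]
  exact coeffMap_congr (RingHom.ext_int _ _) u

theorem coeffMap_qExpand_jqModC {A B : Type*} [CommRing A] [CommRing B] (f : A →+* B) (N : ℕ)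
    [NeZero N] : coeffMap f (qExpand A N (jqModC A)) = qExpand B N (jqModC B) := by
  rw [coeffMap_qExpand, coeffMap_jqModC]

theorem map_prod_X_sub_C {A B ι : Type*} [CommRing A] [CommRing B] (f : A →+* B)
    (s : Finset ι) (x : ι → A) :
    (∏ c ∈ s, (X - C (x c))).map f = ∏ c ∈ s, (X - C (f (x c))) := by
  rw [Polynomial.map_prod]
  exact Finset.prod_congr rfl fun c _ => by simp

theorem qExpand_aeval {k : Type*} [Field k] (N : ℕ) [NeZero N] (J : LaurentSeries k) (P : k[X]) :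
    qExpand k N (aeval J P) = aeval (qExpand k N J) P := by
  have := aeval_algHom_apply (qExpandAlgHomC k N) J P
  simpa using this.symm

end castLS

section main

variable {N : ℕ} [NeZero N] {ℓ : ℕ} {u : LaurentSeries ℤ} {ι : Type} [Fintype ι]
  [DecidableEq ι] {c₀ : ι} {U : ι → LaurentSeries ℂ} {H : ℕ → ι → LaurentSeries ℂ}

/-- Reduction of a root family modulo a ring homomorphism `NInt N →+* k` to a field. -/
theorem IsRootFamily.exists_reduction (h : IsRootFamily N u c₀ U H) {k : Type} [Field k]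
    (π : NInt N →+* k) :
    ∃ Ub : ι → LaurentSeries k, Ub c₀ = qExpand k N (castLS k u) ∧ (∀ c, Ub c ≠ 0) ∧
      (∀ c, c ≠ c₀ → (Ub c).order < 0) ∧
      (∀ i, ∃ P : k[X], (∏ c, (X - C (Ub c))).coeff i = aeval (qExpand k N (jqModC k)) P) ∧
      ∃ P : k[X], ∏ c, (Ub c)⁻¹ = aeval (qExpand k N (jqModC k)) P := by
  set O : Subring ℂ := NInt N with hO
  have hinj : Function.Injective (coeffMap O.subtype) :=
    coeffMap_injective _ Subtype.val_injective
  have hJ : coeffMap O.subtype (qExpand O N (jqModC O)) = jN N := coeffMap_qExpand_jqModC _ N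
  choose U' hU' using fun c => exists_coeffMap_subtype O (U c) (h.U_int c)
  choose V' hV' using fun c => exists_coeffMap_subtype O (U c)⁻¹ (h.Uinv_int c)
  have hUV : ∀ c, U' c * V' c = 1 := by
    intro c
    apply hinj
    rw [map_mul, hU', hV', map_one, mul_inv_cancel₀ (h.U_ne c)]
  have hUVb : ∀ c, coeffMap π (U' c) * coeffMap π (V' c) = 1 := by
    intro c
    rw [← map_mul, hUV, map_one]
  have hUb_ne : ∀ c, coeffMap π (U' c) ≠ 0 := fun c => left_ne_zero_of_mul_eq_one (hUVb c)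
  have hVb_ne : ∀ c, coeffMap π (V' c) ≠ 0 := fun c => right_ne_zero_of_mul_eq_one (hUVb c)
  have hinvb : ∀ c, (coeffMap π (U' c))⁻¹ = coeffMap π (V' c) := fun c =>
    inv_eq_of_mul_eq_one_right (hUVb c)
  -- a general transfer principle
  have transfer : ∀ (x : LaurentSeries O) (P : ℂ[X]), coeffMap O.subtype x = aeval (jN N) P →
      ∃ Q : k[X], coeffMap π x = aeval (qExpand k N (jqModC k)) Q := by
    intro x P hx
    obtain ⟨P', hP'⟩ := exists_lift_of_aeval_jN N O P (by
      intro j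
      rw [← hx]
      exact (x.coeff j).2)
    refine ⟨P'.map π, ?_⟩
    have h1 : x = aeval (qExpand O N (jqModC O)) P' := by
      apply hinj
      rw [hx, coeffMap_aeval, hJ, hP']
    rw [h1, coeffMap_aeval, coeffMap_qExpand_jqModC]
  refine ⟨fun c => coeffMap π (U' c), ?_, hUb_ne, ?_, ?_, ?_⟩
  · have h1 : U' c₀ = qExpand O N (castLS O u) := by
      apply hinj
      rw [hU', h.U_c₀, coeffMap_qExpand, coeffMap_castLS]
    show coeffMap π (U' c₀) = _
    rw [h1, coeffMap_qExpand, coeffMap_castLS]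
  · intro c hc
    have h1 : (U c).order + ((U c)⁻¹).order = 0 := by
      rw [← HahnSeries.order_mul (h.U_ne c) (inv_ne_zero (h.U_ne c)),
        mul_inv_cancel₀ (h.U_ne c), HahnSeries.order_one]
    have h2 : 0 < ((U c)⁻¹).order := by linarith [h.order_neg c hc]
    have h3 : 0 < (coeffMap π (V' c)).order := by
      by_contra hle
      have hle' : (coeffMap π (V' c)).order < ((U c)⁻¹).order := lt_of_le_of_lt (not_lt.1 hle) h2
      have h4 : ((U c)⁻¹).coeff (coeffMap π (V' c)).order = 0 :=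
        HahnSeries.coeff_eq_zero_of_lt_order hle'
      have h5 : (V' c).coeff (coeffMap π (V' c)).order = 0 := by
        apply Subtype.val_injective
        have := congrArg (fun z => HahnSeries.coeff z (coeffMap π (V' c)).order) (hV' c)
        simp only [coeffMap_coeff] at this
        rw [h4] at this
        exact this
      have h6 : (coeffMap π (V' c)).coeff (coeffMap π (V' c)).order = 0 := by
        rw [coeffMap_coeff, h5, map_zero]
      exact hVb_ne c (HahnSeries.coeff_order_eq_zero.1 h6)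
    have h7 : (coeffMap π (U' c)).order + (coeffMap π (V' c)).order = 0 := by
      rw [← HahnSeries.order_mul (hUb_ne c) (hVb_ne c), hUVb, HahnSeries.order_one]
    show (coeffMap π (U' c)).order < 0
    linarith
  · intro i
    obtain ⟨P, hP⟩ := h.charpoly_coeff i
    obtain ⟨Q, hQ⟩ := transfer ((∏ c, (X - C (U' c))).coeff i) P (by
      rw [← coeff_map, map_prod_X_sub_C, ← hP]
      simp only [hU'])
    refine ⟨Q, ?_⟩
    rw [← hQ, ← coeff_map, map_prod_X_sub_C]
  · obtain ⟨P, hP⟩ := h.prod_inv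
    obtain ⟨Q, hQ⟩ := transfer (∏ c, V' c) P (by
      rw [map_prod, ← hP]
      simp only [hV'])
    refine ⟨Q, ?_⟩
    rw [← hQ, map_prod]
    exact Finset.prod_congr rfl fun c _ => hinvb c

/-- [Irr]: the `indep` field of `IsCore`. -/
theorem indep_of_rootFamily [Fact ℓ.Prime] (hℓN : ¬ ℓ ∣ N) (h : IsRootFamily N u c₀ U H) :
    ∀ f : Fin (Fintype.card ι) → (ZMod ℓ)[X],
      ∑ i, aeval (jqModC (ZMod ℓ)) (f i) * castLS (ZMod ℓ) u ^ (i : ℕ) = 0 → ∀ i, f i = 0 := by
  intro f hf i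
  obtain ⟨k, _, π, ⟨θ⟩⟩ := exists_residueField N ℓ hℓN
  obtain ⟨Ub, hUb0, hne, hneg, hchar, hinv⟩ := h.exists_reduction π
  have key := indep_of_roots (qExpand k N (jqModC k))
    (isMonicPole_qExpand_jqModC k N).aeval_injective c₀ Ub hne hneg hchar hinv
    (fun i => (f i).map θ) (by
      have h1 := congrArg (fun z => qExpand k N (coeffMap θ z)) hf
      simp only [map_sum, map_mul, map_pow, map_zero, coeffMap_aeval, coeffMap_jqModC,
        coeffMap_castLS, qExpand_aeval] at h1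
      rw [hUb0]
      exact h1)
  exact Polynomial.map_injective θ θ.injective (by rw [key i, Polynomial.map_zero])

end main

end Fermat.Agent.S28
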