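import Fermat.Agent.S28.Rl

set_option autoImplicit false
noncomputable section
open Polynomial

namespace Fermat.Agent.S28

variable (ℓ : ℕ)

/-- the inverse of a natural number prime to `ℓ`, as an element of `ℤ_(ℓ)` -/
def Rl.invNat (d : ℕ) (hd : d.Coprime ℓ) : Rl ℓ :=
  ⟨(d : ℚ)⁻¹, by
    show ((d : ℚ)⁻¹).den.Coprime ℓ
    rcases Nat.eq_zero_or_pos d with rfl | hpos
    · simp
    · have : ((d : ℚ)⁻¹).den = d := by
        rw [Rat.inv_natCast_den_of_pos hpos]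
      rw [this]; exact hd⟩

theorem Rl.natCast_mul_invNat (d : ℕ) (hd : d.Coprime ℓ) (h0 : d ≠ 0) :
    (d : Rl ℓ) * Rl.invNat ℓ d hd = 1 := by
  apply Subtype.ext
  show ((d : Rl ℓ) : ℚ) * (d : ℚ)⁻¹ = 1
  have : ((d : Rl ℓ) : ℚ) = d := by simp
  rw [this]
  exact mul_inv_cancel₀ (by exact_mod_cast h0)

theorem Rl.eq_num_mul_invNat (x : Rl ℓ) :
    x = ((x : ℚ).num : Rl ℓ) * Rl.invNat ℓ (x : ℚ).den x.2 := by
  apply Subtype.ext
  show (x : ℚ) = (((x : ℚ).num : Rl ℓ) : ℚ) * ((x : ℚ).den : ℚ)⁻¹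
  have : ((((x : ℚ).num : Rl ℓ)) : ℚ) = (x : ℚ).num := by simp
  rw [this, ← div_eq_mul_inv, Rat.num_div_den]

theorem Rl.ringHom_eq {S : Type*} [CommRing S] (f g : Rl ℓ →+* S) : f = g := by
  ext x
  rw [Rl.eq_num_mul_invNat ℓ x, map_mul, map_mul, map_intCast, map_intCast]
  congr 1
  set d := (x : ℚ).den
  have h0 : d ≠ 0 := (x : ℚ).den_nz
  have hf : (d : S) * f (Rl.invNat ℓ d x.2) = 1 := by
    rw [← map_natCast f, ← map_mul, Rl.natCast_mul_invNat ℓ d x.2 h0, map_one]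
  have hg : (d : S) * g (Rl.invNat ℓ d x.2) = 1 := by
    rw [← map_natCast g, ← map_mul, Rl.natCast_mul_invNat ℓ d x.2 h0, map_one]
  calc f (Rl.invNat ℓ d x.2) = f (Rl.invNat ℓ d x.2) * ((d : S) * g (Rl.invNat ℓ d x.2)) := by
        rw [hg, mul_one]
    _ = ((d : S) * f (Rl.invNat ℓ d x.2)) * g (Rl.invNat ℓ d x.2) := by ring
    _ = g (Rl.invNat ℓ d x.2) := by rw [hf, one_mul]

theorem Rl.isUnit_natCast {d : ℕ} (hd : d.Coprime ℓ) (h0 : d ≠ 0) : IsUnit (d : Rl ℓ) :=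
  IsUnit.of_mul_eq_one _ (Rl.natCast_mul_invNat ℓ d hd h0)

end Fermat.Agent.S28
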