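import Fermat.Agent.S28.Irr
import Fermat.Agent.S28.RlExt

/-!
# `IsCore.integral` from a root family
-/

set_option autoImplicit false
noncomputable section
open Polynomial ModularCurve

namespace Fermat.Agent.S28

/-- A root of a monic polynomial whose coefficients are integral is integral. -/
theorem isIntegral_of_monic_of_coeff {R B : Type*} [CommRing R] [CommRing B] [Algebra R B]
    (p : B[X]) (hp : p.Monic) (hc : ∀ i, IsIntegral R (p.coeff i)) (x : B) (hx : p.eval x = 0) :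
    IsIntegral R x := by
  let A := integralClosure R B
  have hsub : (↑p.coeffs : Set B) ⊆ A.toSubring := by
    intro b hb
    obtain ⟨i, -, rfl⟩ := Polynomial.mem_coeffs_iff.mp hb
    exact hc i
  let p' : A[X] := p.toSubring A.toSubring hsub
  have hAx : IsIntegral A x := ⟨p', (p.monic_toSubring _ _).mpr hp, by
    have h1 : p'.map (algebraMap A B) = p := p.map_toSubring A.toSubring hsub
    rw [← eval_map, h1, hx]⟩
  exact isIntegral_trans x hAx

/-- Integrality over `ℤ` is inherited by any ring homomorphism. -/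
theorem isIntegralElem_of_int {A B D : Type*} [CommRing A] [CommRing B] [CommRing D]
    (φ : A →+* D) (g : B →+* D) (x : B) (hx : IsIntegral ℤ x) : φ.IsIntegralElem (g x) := by
  obtain ⟨p, hp, hp0⟩ := hx
  refine ⟨p.map (Int.castRingHom A), hp.map _, ?_⟩
  rw [eval₂_map]
  have h1 : φ.comp (Int.castRingHom A) = g.comp (algebraMap ℤ B) := RingHom.ext_int _ _
  rw [h1, ← Polynomial.hom_eval₂, hp0, map_zero]

section main

variable {N : ℕ} [NeZero N] {ℓ : ℕ} {u : LaurentSeries ℤ} {ι : Type} [Fintype ι]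
  [DecidableEq ι] {c₀ : ι} {U : ι → LaurentSeries ℂ} {H : ℕ → ι → LaurentSeries ℂ}

/-- The embedding `ℚ((q)) → ℂ((t))`, `q ↦ t^N`. -/
def embQT (N : ℕ) [NeZero N] : LaurentSeries ℚ →+* LaurentSeries ℂ :=
  (qExpand ℂ N).comp (coeffMap (Rat.castHom ℂ))

theorem embQT_injective (N : ℕ) [NeZero N] : Function.Injective (embQT N) :=
  (qExpand_injective N).comp (coeffMap_injective _ (Rat.castHom ℂ).injective)

theorem embQT_jq (N : ℕ) [NeZero N] : embQT N jq = jN N := by
  show qExpand ℂ N (coeffMap (Rat.castHom ℂ) jq) = jN N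
  rw [← jqModC_rat, coeffMap_jqModC]; rfl

theorem embQT_castLS (N : ℕ) [NeZero N] (u : LaurentSeries ℤ) :
    embQT N (castLS ℚ u) = qExpand ℂ N (castLS ℂ u) := by
  show qExpand ℂ N (coeffMap (Rat.castHom ℂ) (castLS ℚ u)) = _
  rw [coeffMap_castLS]

/-- The Laurent coefficients of the coefficients of the characteristic polynomial lie in
`NInt N`. -/
theorem IsRootFamily.charpoly_coeff_coeff_mem (h : IsRootFamily N u c₀ U H) (i : ℕ) (k : ℤ) :
    ((∏ c, (X - C (U c))).coeff i).coeff k ∈ NInt N := by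
  choose U' hU' using fun c => exists_coeffMap_subtype (NInt N) (U c) (h.U_int c)
  have h1 : (∏ c, (X - C (U c))) =
      (∏ c, (X - C (U' c))).map (coeffMap (NInt N).subtype) := by
    rw [map_prod_X_sub_C]
    exact Finset.prod_congr rfl fun c _ => by rw [hU']
  rw [h1, coeff_map, coeffMap_coeff]
  exact Subtype.mem _

theorem integral_of_rootFamily [Fact ℓ.Prime] (hℓN : ¬ ℓ ∣ N) (h : IsRootFamily N u c₀ U H) :
    IntOver ℓ jq (castLS ℚ u) := by
  set f : (Rl ℓ)[X] →+* LaurentSeries ℚ :=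
    ((aeval jq : (Rl ℓ)[X] →ₐ[Rl ℓ] LaurentSeries ℚ) : (Rl ℓ)[X] →+* LaurentSeries ℚ) with hf
  set φ : (Rl ℓ)[X] →+* LaurentSeries ℂ := (embQT N).comp f with hφ
  -- reduce to integrality in `ℂ((t))`
  suffices hmain : φ.IsIntegralElem (embQT N (castLS ℚ u)) by
    obtain ⟨p, hp, hp0⟩ := hmain
    refine ⟨p, hp, embQT_injective N ?_⟩
    rw [map_zero, Polynomial.hom_eval₂]
    exact hp0
  let _ : Algebra (Rl ℓ)[X] (LaurentSeries ℂ) := φ.toAlgebra
  have halg : ∀ a, algebraMap (Rl ℓ)[X] (LaurentSeries ℂ) a = φ a := fun _ => rfl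
  show IsIntegral (Rl ℓ)[X] (embQT N (castLS ℚ u))
  rw [embQT_castLS, ← h.U_c₀]
  have hcop : N.Coprime ℓ :=
    ((Nat.Prime.coprime_iff_not_dvd (Fact.out : ℓ.Prime)).mpr hℓN).symm
  have hN0 : N ≠ 0 := NeZero.ne N
  -- `jN N` is integral
  have hJ : IsIntegral (Rl ℓ)[X] (jN N) := by
    have : jN N = algebraMap (Rl ℓ)[X] (LaurentSeries ℂ) X := by
      rw [halg, hφ, RingHom.comp_apply, hf]
      simp [embQT_jq]
    rw [this]; exact isIntegral_algebraMap
  -- constants in `NInt N` are integral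
  have hconst : ∀ c ∈ NInt N, IsIntegral (Rl ℓ)[X] (algebraMap ℂ (LaurentSeries ℂ) c) := by
    rintro c ⟨m, hm⟩
    have h2 : IsIntegral (Rl ℓ)[X] (algebraMap ℂ (LaurentSeries ℂ) ((N : ℂ) ^ m * c)) :=
      isIntegralElem_of_int φ (algebraMap ℂ (LaurentSeries ℂ)) _ hm
    have h3 : algebraMap ℂ (LaurentSeries ℂ) c =
        algebraMap (Rl ℓ)[X] (LaurentSeries ℂ) (C (Rl.invNat ℓ N hcop) ^ m) *
          algebraMap ℂ (LaurentSeries ℂ) ((N : ℂ) ^ m * c) := by
      have h4 : algebraMap (Rl ℓ)[X] (LaurentSeries ℂ) (C (Rl.invNat ℓ N hcop)) *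
          (N : LaurentSeries ℂ) = 1 := by
        rw [← map_natCast (algebraMap (Rl ℓ)[X] (LaurentSeries ℂ)) N, ← map_mul,
          ← map_natCast (C : Rl ℓ →+* (Rl ℓ)[X]) N, ← map_mul, mul_comm,
          Rl.natCast_mul_invNat ℓ N hcop hN0, map_one, map_one]
      rw [map_mul, map_pow, map_pow, map_natCast, ← mul_assoc, ← mul_pow, h4, one_pow, one_mul]
    rw [h3]
    exact isIntegral_algebraMap.mul h2
  refine isIntegral_of_monic_of_coeff (∏ c, (X - C (U c)))
    (monic_prod_of_monic _ _ fun c _ => monic_X_sub_C _) (fun i => ?_) (U c₀) ?_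
  · obtain ⟨P, hP⟩ := h.charpoly_coeff i
    have hPO : ∀ k, P.coeff k ∈ NInt N :=
      coeff_mem_of_aeval_jN N (NInt N) P (fun k => by
        rw [← hP]; exact h.charpoly_coeff_coeff_mem i k)
    rw [hP, aeval_eq_sum_range]
    refine IsIntegral.sum _ fun k _ => ?_
    rw [Algebra.smul_def]
    exact (hconst _ (hPO k)).mul (hJ.pow k)
  · rw [eval_prod]
    exact Finset.prod_eq_zero (Finset.mem_univ c₀) (by simp)

end main

end Fermat.Agent.S28
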