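import Fermat.Agent.S28.Span
import Fermat.Agent.S28.Integral

set_option autoImplicit false
noncomputable section
open Polynomial ModularCurve

namespace Fermat.Agent.S28

/-- The formal core from the analytic root family. -/
theorem isCore_of_rootFamily (N : ℕ) [NeZero N] (ℓ : ℕ) [Fact ℓ.Prime] (hℓN : ¬ ℓ ∣ N)
    (u : LaurentSeries ℤ) {ι : Type} [Fintype ι] [DecidableEq ι] (c₀ : ι)
    (U : ι → LaurentSeries ℂ) (H : ℕ → ι → LaurentSeries ℂ) (h : IsRootFamily N u c₀ U H) :
    IsCore N ℓ (Fintype.card ι) u where
  integral := integral_of_rootFamily hℓN h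
  span := fun y hy => span_of_rootFamily ℓ h y hy
  indep := indep_of_rootFamily hℓN h

end Fermat.Agent.S28
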