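import Fermat.Agent.S28.Alg
import Fermat.Agent.S28.Irr

/-!
# Glue: `IsCore` gives `AlgInput`
-/

set_option autoImplicit false
noncomputable section
open Polynomial ModularCurve

namespace Fermat.Agent.S28

/-- A finite family of rational polynomials has a common non-zero integer denominator. -/
theorem exists_int_multiples {κ : Type*} (s : Finset κ) (p : κ → ℚ[X]) :
    ∃ b : ℤ, b ≠ 0 ∧ ∀ i ∈ s, ∃ q : ℤ[X], q.map (Int.castRingHom ℚ) = C (b : ℚ) * p i := by
  classical
  induction s using Finset.induction_on with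
  | empty => exact ⟨1, one_ne_zero, fun i hi => absurd hi (Finset.notMem_empty i)⟩
  | insert a s ha ih =>
    obtain ⟨b, hb, hq⟩ := ih
    obtain ⟨b', hb', hb'2⟩ := IsLocalization.integerNormalization_spec
      (nonZeroDivisors ℤ) (p a)
    have hb'0 : b' ≠ 0 := nonZeroDivisors.ne_zero hb'
    refine ⟨b * b', mul_ne_zero hb hb'0, fun i hi => ?_⟩
    rcases Finset.mem_insert.mp hi with rfl | hi
    · refine ⟨C b * IsLocalization.integerNormalization (nonZeroDivisors ℤ) (p i), ?_⟩
      have h1 : (IsLocalization.integerNormalization (nonZeroDivisors ℤ) (p i)).map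
          (Int.castRingHom ℚ) = C (b' : ℚ) * p i := by
        have := hb'2
        simp only [Algebra.smul_def, algebraMap_int_eq] at this
        rw [this]
        simp
      rw [Polynomial.map_mul, h1, Polynomial.map_C]
      simp only [eq_intCast, Int.cast_mul, map_mul]
      ring
    · obtain ⟨q, hq⟩ := hq i hi
      refine ⟨C b' * q, ?_⟩
      rw [Polynomial.map_mul, hq, Polynomial.map_C]
      simp only [eq_intCast, Int.cast_mul, map_mul]
      ring

variable {N : ℕ} [NeZero N] {ℓ : ℕ} {n : ℕ} {u : LaurentSeries ℤ}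

theorem iotaR_castLS (u : LaurentSeries ℤ) : iotaR ℓ (castLS (Rl ℓ) u) = castLS ℚ u :=
  coeffMap_castLS _ u

theorem redR_castLS [Fact ℓ.Prime] (u : LaurentSeries ℤ) : redR ℓ (castLS (Rl ℓ) u) = castLS (ZMod ℓ) u :=
  coeffMap_castLS _ u

theorem algebraMap_Rl_laurent (r : Rl ℓ) :
    algebraMap (Rl ℓ) (LaurentSeries ℚ) r = HahnSeries.C (r : ℚ) := by
  rw [HahnSeries.algebraMap_apply', PowerSeries.algebraMap_apply, HahnSeries.ofPowerSeries_C]
  rfl

/-- `aeval jq` on `(Rl ℓ)[X]` via rational polynomials. -/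
theorem aeval_jq_Rl (x : LaurentSeries ℚ) (g : (Rl ℓ)[X]) :
    aeval x g = aeval x (g.map (algebraMap (Rl ℓ) ℚ)) := by
  rw [aeval_def, aeval_def, eval₂_map]
  congr 1
  refine RingHom.ext fun r => ?_
  rw [algebraMap_Rl_laurent, RingHom.comp_apply, algebraMap_laurent_eq_C]
  rfl

theorem evZ_eq_aeval_map (x : LaurentSeries ℚ) (q : ℤ[X]) :
    evZ x q = aeval x (q.map (Int.castRingHom ℚ)) := by
  rw [evZ_eq_eval₂_map (algebraMap ℚ (LaurentSeries ℚ)) x q, aeval_def]

theorem algInput_of_isCore [Fact ℓ.Prime] (h : IsCore N ℓ n u) : AlgInput N ℓ n (castLS (Rl ℓ) u) where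
  h1 := by
    obtain ⟨p, hp, hp0⟩ := h.integral
    refine ⟨p, hp, iotaR_injective ℓ ?_⟩
    rw [map_zero, Polynomial.hom_eval₂, iotaR_castLS, ← hp0]
    congr 1
    apply Polynomial.ringHom_ext
    · intro a
      simp only [RingHom.comp_apply, coe_eval₂RingHom, eval₂_C, RingHom.coe_coe, aeval_C]
      rw [iotaR]
      erw [coeffMap_single]
      rw [algebraMap_Rl_laurent]
      rfl
    · simp only [RingHom.comp_apply, coe_eval₂RingHom, eval₂_X, RingHom.coe_coe, aeval_X, iotaR_jq]
  h2 := by
    intro y hy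
    obtain ⟨g, f, hg, hgf⟩ := h.span y hy
    obtain ⟨b, hb, hq⟩ := exists_int_multiples (Finset.univ : Finset (Option (Fin n)))
      (fun o => match o with
        | none => g.map (algebraMap (Rl ℓ) ℚ)
        | some i => (f i).map (algebraMap (Rl ℓ) ℚ))
    obtain ⟨e, he⟩ := hq none (Finset.mem_univ _)
    choose b' hb' using fun i => hq (some i) (Finset.mem_univ _)
    simp only at he hb'
    have hinj : Function.Injective (algebraMap (Rl ℓ) ℚ) := Subtype.val_injective
    refine ⟨e, ?_, b', ?_⟩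
    · rintro rfl
      rw [Polynomial.map_zero] at he
      have h1 : g.map (algebraMap (Rl ℓ) ℚ) ≠ 0 := (Polynomial.map_ne_zero_iff hinj).mpr hg
      have h2 : C (b : ℚ) ≠ 0 := by
        rw [Ne, C_eq_zero]; exact_mod_cast hb
      exact mul_ne_zero h2 h1 he.symm
    · rw [iotaR_castLS, evZ_eq_aeval_map, he, map_mul, ← aeval_jq_Rl, mul_assoc, hgf,
        Finset.mul_sum]
      refine Finset.sum_congr rfl fun i _ => ?_
      rw [evZ_eq_aeval_map, hb', map_mul, ← aeval_jq_Rl, mul_assoc]
  h3 := by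
    intro b hb
    apply h.indep b
    rw [← hb, redR_castLS]
    refine Finset.sum_congr rfl fun i _ => ?_
    congr 1
    rw [aeval_def]
    congr 1
    exact RingHom.ext fun r => algebraMap_laurent_eq_C r

end Fermat.Agent.S28
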