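import Fermat.Statements.S28

set_option autoImplicit false
open AlgebraicGeometry CategoryTheory CategoryTheory.Limits ModularCurve ModularCurve.IgusaScheme
open scoped TensorProduct
noncomputable section

namespace Fermat.Agent.S28

/-- A scheme covered by integral open subschemes which pairwise intersect is integral. -/
theorem isIntegral_of_openCover {Y : Scheme.{0}} (𝒰 : Y.OpenCover) [Nonempty 𝒰.I₀]
    (h : ∀ i, IsIntegral (𝒰.X i))
    (hint : ∀ i j, ∃ y : Y, y ∈ Set.range (𝒰.f i) ∧ y ∈ Set.range (𝒰.f j)) :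
    IsIntegral Y := by
  have : IsReduced Y := (IsReduced.iff_of_openCover Y 𝒰).mpr fun i => inferInstance
  have hirr : ∀ i, IsIrreducible (Set.range (𝒰.f i)) := fun i => by
    rw [← Set.image_univ]
    exact (IrreducibleSpace.isIrreducible_univ (𝒰.X i)).image _ (𝒰.f i).continuous.continuousOn
  have hopen : ∀ i, IsOpen (Set.range (𝒰.f i)) := fun i => (𝒰.f i).isOpenEmbedding.isOpen_range
  have : IrreducibleSpace Y :=
    { isPreirreducible_univ := by
        rintro u v hu hv ⟨a, -, ha⟩ ⟨b, -, hb⟩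
        obtain ⟨i, a', rfl⟩ := 𝒰.exists_eq a
        obtain ⟨j, b', rfl⟩ := 𝒰.exists_eq b
        obtain ⟨c, hci, hcj⟩ := hint i j
        obtain ⟨d, hdi, hdu, hdj⟩ := (hirr i).2 u _ hu (hopen j) ⟨_, ⟨a', rfl⟩, ha⟩ ⟨c, hci, hcj⟩
        obtain ⟨e, -, he⟩ := (hirr j).2 u v hu hv ⟨d, hdj, hdu⟩ ⟨_, ⟨b', rfl⟩, hb⟩
        exact ⟨e, trivial, he⟩
      toNonempty := by
        obtain ⟨i⟩ := ‹Nonempty 𝒰.I₀›
        obtain ⟨x⟩ := (h i).nonempty
        exact ⟨𝒰.f i x⟩ }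
  exact isIntegral_of_irreducibleSpace_of_isReduced Y

section Igusa

variable (N : ℕ) [NeZero N] (ℓ : ℕ) [Fact ℓ.Prime]

/-- The two-chart open cover of the Igusa scheme. -/
def igusaOpenCover : (ModularCurve.IgusaScheme N ℓ).OpenCover :=
  Scheme.Cover.mkOfCovers Bool (fun b => match b with | true => XFin N ℓ | false => XInf N ℓ)
    (fun b => match b with | true => ιFin N ℓ | false => ιInf N ℓ)
    (fun x => by
      rcases mem_range_ιFin_or_mem_range_ιInf N ℓ x with ⟨y, hy⟩ | ⟨y, hy⟩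
      · exact ⟨true, y, hy⟩
      · exact ⟨false, y, hy⟩)
    (fun b => by
      cases b
      · exact isOpenImmersion_ιInf N ℓ
      · exact isOpenImmersion_ιFin N ℓ)

variable (K : Type) [Field K] [Algebra ↥(GaloisRep.ratLocalizedAt ℓ) K]

omit [Fact ℓ.Prime] in
theorem ringHom_compat {A : Type} [CommRing A] [Algebra ↥(GaloisRep.ratLocalizedAt ℓ) A]
    (φ : A →ₐ[↥(GaloisRep.ratLocalizedAt ℓ)] chartAlgMid N ℓ) :
    (Algebra.TensorProduct.includeLeftRingHom :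
      chartAlgMid N ℓ →+* chartAlgMid N ℓ ⊗[↥(GaloisRep.ratLocalizedAt ℓ)] K).comp
        (φ.toRingHom.comp (algebraMap ↥(GaloisRep.ratLocalizedAt ℓ) A)) =
    (Algebra.TensorProduct.includeRight (R := ↥(GaloisRep.ratLocalizedAt ℓ))
      (A := chartAlgMid N ℓ) (B := K)).toRingHom.comp
        (algebraMap ↥(GaloisRep.ratLocalizedAt ℓ) K) := by
  ext r
  simp [Algebra.TensorProduct.algebraMap_apply]

theorem isIntegral_pullback_of_isDomain
    (hfin : IsDomain (chartAlgFin N ℓ ⊗[↥(GaloisRep.ratLocalizedAt ℓ)] K))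
    (hinf : IsDomain (chartAlgInf N ℓ ⊗[↥(GaloisRep.ratLocalizedAt ℓ)] K))
    (hmid : Nontrivial (chartAlgMid N ℓ ⊗[↥(GaloisRep.ratLocalizedAt ℓ)] K)) :
    IsIntegral ↑(pullback (igusaTo N ℓ)
      (Spec.map (CommRingCat.ofHom (algebraMap ↥(GaloisRep.ratLocalizedAt ℓ) K)))) := by
  let 𝒰 := Scheme.Pullback.openCoverOfLeft (igusaOpenCover N ℓ) (igusaTo N ℓ)
    (Spec.map (CommRingCat.ofHom (algebraMap ↥(GaloisRep.ratLocalizedAt ℓ) K)))
  have : Nonempty 𝒰.I₀ := ⟨true⟩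
  -- the test scheme
  let Z : Scheme.{0} := Spec (CommRingCat.of (chartAlgMid N ℓ ⊗[↥(GaloisRep.ratLocalizedAt ℓ)] K))
  obtain ⟨z⟩ : Nonempty Z := inferInstance
  let a : Z ⟶ XMid N ℓ := Spec.map (CommRingCat.ofHom Algebra.TensorProduct.includeLeftRingHom)
  let b : Z ⟶ Spec (CommRingCat.of K) :=
    Spec.map (CommRingCat.ofHom (Algebra.TensorProduct.includeRight
      (R := ↥(GaloisRep.ratLocalizedAt ℓ)) (A := chartAlgMid N ℓ) (B := K)).toRingHom)
  have hcompF : (a ≫ fFin N ℓ) ≫ (ιFin N ℓ ≫ igusaTo N ℓ) = b ≫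
      (Spec.map (CommRingCat.ofHom (algebraMap ↥(GaloisRep.ratLocalizedAt ℓ) K))) := by
    rw [ιFin_igusaTo]
    simp only [a, b, ← Spec.map_comp, ← CommRingCat.ofHom_comp]
    rw [← ringHom_compat N ℓ K (inclFin N ℓ), RingHom.comp_assoc]
  have hcompI : (a ≫ fInf N ℓ) ≫ (ιInf N ℓ ≫ igusaTo N ℓ) = b ≫
      (Spec.map (CommRingCat.ofHom (algebraMap ↥(GaloisRep.ratLocalizedAt ℓ) K))) := by
    rw [ιInf_igusaTo]
    simp only [a, b, ← Spec.map_comp, ← CommRingCat.ofHom_comp]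
    rw [← ringHom_compat N ℓ K (inclInf N ℓ), RingHom.comp_assoc]
  let cF : Z ⟶ pullback (ιFin N ℓ ≫ igusaTo N ℓ)
      (Spec.map (CommRingCat.ofHom (algebraMap ↥(GaloisRep.ratLocalizedAt ℓ) K))) :=
    pullback.lift (a ≫ fFin N ℓ) b hcompF
  let cI : Z ⟶ pullback (ιInf N ℓ ≫ igusaTo N ℓ)
      (Spec.map (CommRingCat.ofHom (algebraMap ↥(GaloisRep.ratLocalizedAt ℓ) K))) :=
    pullback.lift (a ≫ fInf N ℓ) b hcompI
  let pF : pullback (ιFin N ℓ ≫ igusaTo N ℓ)
      (Spec.map (CommRingCat.ofHom (algebraMap ↥(GaloisRep.ratLocalizedAt ℓ) K))) ⟶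
      pullback (igusaTo N ℓ)
        (Spec.map (CommRingCat.ofHom (algebraMap ↥(GaloisRep.ratLocalizedAt ℓ) K))) :=
    pullback.map (ιFin N ℓ ≫ igusaTo N ℓ) _ (igusaTo N ℓ) _ (ιFin N ℓ) (𝟙 _)
      (𝟙 _) (by simp) (by simp)
  let pI : pullback (ιInf N ℓ ≫ igusaTo N ℓ)
      (Spec.map (CommRingCat.ofHom (algebraMap ↥(GaloisRep.ratLocalizedAt ℓ) K))) ⟶
      pullback (igusaTo N ℓ)
        (Spec.map (CommRingCat.ofHom (algebraMap ↥(GaloisRep.ratLocalizedAt ℓ) K))) :=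
    pullback.map (ιInf N ℓ ≫ igusaTo N ℓ) _ (igusaTo N ℓ) _ (ιInf N ℓ) (𝟙 _)
      (𝟙 _) (by simp) (by simp)
  have hc : cF ≫ pF = cI ≫ pI := by
    apply pullback.hom_ext
    · simp only [cF, cI, pF, pI, Category.assoc, pullback.lift_fst_assoc, pullback.lift_fst,
        pullback.map]
      rw [glue_condition]
    · simp only [cF, cI, pF, pI, Category.assoc, pullback.lift_snd_assoc, pullback.lift_snd,
        pullback.map]
  refine isIntegral_of_openCover 𝒰 ?_ ?_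
  · intro i
    cases i
    · show IsIntegral (pullback (ιInf N ℓ ≫ igusaTo N ℓ) _)
      rw [ιInf_igusaTo]
      exact IsIntegral.of_isIso (pullbackSpecIso _ _ _).inv
    · show IsIntegral (pullback (ιFin N ℓ ≫ igusaTo N ℓ) _)
      rw [ιFin_igusaTo]
      exact IsIntegral.of_isIso (pullbackSpecIso _ _ _).inv
  · have key : ∀ i, (cF ≫ pF) z ∈ Set.range (𝒰.f i) := by
      intro i
      cases i
      · rw [hc]
        refine ⟨cI z, ?_⟩
        show pI (cI z) = (cI ≫ pI) z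
        simp
      · refine ⟨cF z, ?_⟩
        show pF (cF z) = (cF ≫ pF) z
        simp
    exact fun i j => ⟨_, key i, key j⟩

/-- Convenient way to get the nontriviality hypothesis. -/
theorem nontrivial_tensor_of_algHom {R A B L : Type} [CommRing R] [CommRing A] [CommRing B]
    [CommRing L] [Nontrivial L] [Algebra R A] [Algebra R B] [Algebra R L]
    (ψ : A →ₐ[R] L) (χ : B →ₐ[R] L) : Nontrivial (A ⊗[R] B) :=
  (Algebra.TensorProduct.lift ψ χ (fun _ _ => Commute.all _ _)).toRingHom.domain_nontrivial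

end Igusa

end Fermat.Agent.S28
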