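import Mathlib

set_option autoImplicit false

namespace Fermat.Agent.S28

open Polynomial

/-- Normality lemma: over an integrally closed domain `D`, if `p • g` and `s • g` are integral,
`p` prime, `p ∤ s`, then `g` is integral. -/
theorem isIntegral_of_prime_smul {D F : Type*} [CommRing D] [IsDomain D] [IsIntegrallyClosed D]
    [Field F] [Algebra D F] [FaithfulSMul D F] {p s : D} (hp : Prime p) (hs : ¬ p ∣ s) {g : F}
    (h1 : IsIntegral D (p • g)) (h2 : IsIntegral D (s • g)) : IsIntegral D g := by
  let K := FractionRing D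
  letI : Algebra K F := FractionRing.liftAlgebra D F
  have hp0 : p ≠ 0 := hp.ne_zero
  have hs0 : s ≠ 0 := fun h => hs (h ▸ dvd_zero p)
  have hinj : Function.Injective (algebraMap D K) := IsFractionRing.injective D K
  have hpK : algebraMap D K p ≠ 0 := fun h => hp0 (hinj (by rw [h, map_zero]))
  have hgK : IsIntegral K g := by
    have h3 : IsIntegral K (p • g) := h1.tower_top
    have h4 : g = (algebraMap D K p)⁻¹ • (p • g) := by
      rw [← algebraMap_smul K p g, smul_smul, inv_mul_cancel₀ hpK, one_smul]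
    rw [h4]
    exact h3.smul _
  set P := minpoly K g with hP
  have key : ∀ c : D, c ≠ 0 → IsIntegral D (c • g) → ∀ i,
      ∃ x : D, P.coeff i * (algebraMap D K c) ^ (P.natDegree - i) = algebraMap D K x := by
    intro c hc hcg i
    have hcK : algebraMap D K c ≠ 0 := fun h => hc (hinj (by rw [h, map_zero]))
    have e1 := minpoly.isIntegrallyClosed_eq_field_fractions' K hcg
    have e2 := IsIntegrallyClosed.minpoly_smul hcK hgK
    rw [algebraMap_smul] at e2
    rw [e2] at e1
    refine ⟨(minpoly D (c • g)).coeff i, ?_⟩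
    have e3 := congrArg (fun q => q.coeff i) e1
    simpa [coeff_scaleRoots] using e3
  have hlift : P ∈ Polynomial.lifts (algebraMap D K) := by
    rw [Polynomial.lifts_iff_coeff_lifts]
    intro i
    obtain ⟨x, hx⟩ := key p hp0 h1 i
    obtain ⟨y, hy⟩ := key s hs0 h2 i
    set m := P.natDegree - i
    have h5 : x * s ^ m = y * p ^ m := by
      apply hinj
      rw [map_mul, map_mul, map_pow, map_pow, ← hx, ← hy]
      ring
    have h6 : p ^ m ∣ x :=
      hp.pow_dvd_of_dvd_mul_right m (fun h => hs (hp.dvd_of_dvd_pow h)) ⟨y, by rw [h5]; ring⟩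
    obtain ⟨z, rfl⟩ := h6
    refine ⟨z, ?_⟩
    rw [map_mul, map_pow, mul_comm] at hx
    exact (mul_left_cancel₀ (pow_ne_zero m hpK) hx).symm
  obtain ⟨Q, hQ, -, hQm⟩ := Polynomial.lifts_and_natDegree_eq_and_monic hlift (minpoly.monic hgK)
  refine ⟨Q, hQm, ?_⟩
  have h7 : aeval g (Q.map (algebraMap D K)) = 0 := by rw [hQ]; exact minpoly.aeval K g
  rwa [aeval_map_algebraMap, aeval_def] at h7

end Fermat.Agent.S28
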