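import Fermat.Agent.S28.AlgBasic
import Fermat.Agent.S28.Norm

set_option autoImplicit false

namespace Fermat.Agent.S28

open ModularCurve ModularCurve.IgusaScheme Polynomial TensorProduct

variable (N : ℕ) [NeZero N] (ℓ : ℕ) [Fact ℓ.Prime]

/-- The input of the commutative algebra part. -/
structure AlgInput (n : ℕ) (u : LaurentSeries (Rl ℓ)) : Prop where
  h1 : ∃ χ : (Rl ℓ)[X][X], χ.Monic ∧
        χ.eval₂ (Polynomial.eval₂RingHom HahnSeries.C (jqModC (Rl ℓ))) u = 0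
  h2 : ∀ f ∈ modularFunctionFieldFull N, ∃ e : ℤ[X], e ≠ 0 ∧ ∃ b : Fin n → ℤ[X],
        evZ jq e * f = ∑ i, evZ jq (b i) * (iotaR ℓ u) ^ (i : ℕ)
  h3 : ∀ b : Fin n → (ZMod ℓ)[X],
        ∑ i, (b i).eval₂ HahnSeries.C (jqModC (ZMod ℓ)) * (redR ℓ u) ^ (i : ℕ) = 0 → ∀ i, b i = 0

/-- the function field -/
abbrev FF (N : ℕ) : Type := ↥(modularFunctionFieldFull N)

variable {N ℓ}

/-- If `f` is integral over `WW`, `c f = G` with `c, G` integral series and `c ≡ 0`, then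
`G ≡ 0`. -/
theorem redR_eq_zero_of_integral {f : LaurentSeries ℚ} {p : (WW ℓ)[X]} (hp : p.Monic)
    (hpf : p.eval₂ (WW ℓ).subtype f = 0) {c G : LaurentSeries (Rl ℓ)} (hc : redR ℓ c = 0)
    (h : iotaR ℓ c * f = iotaR ℓ G) : redR ℓ G = 0 := by
  set cW : WW ℓ := ⟨iotaR ℓ c, ι_mem_Wring _ _ c⟩ with hcW
  set gW : WW ℓ := ⟨iotaR ℓ G, ι_mem_Wring _ _ G⟩ with hgW
  have e1 := Polynomial.scaleRoots_eval₂_mul (p := p) (WW ℓ).subtype f cW
  rw [hpf, mul_zero] at e1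
  have e2 : (WW ℓ).subtype cW * f = (WW ℓ).subtype gW := h
  rw [e2, Polynomial.eval₂_at_apply] at e1
  have e3 : (p.scaleRoots cW).eval gW = 0 := Subtype.ext e1
  have e4 : ((p.scaleRoots cW).map (rho ℓ)).eval (rho ℓ gW) = 0 := by
    rw [Polynomial.eval_map, Polynomial.eval₂_at_apply, e3, map_zero]
  have hcz : rho ℓ cW = 0 := by rw [hcW, rho, rhoW_ι, hc]
  rw [Polynomial.map_scaleRoots _ _ _ (by rw [hp.leadingCoeff, map_one]; exact one_ne_zero), hcz,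
    Polynomial.scaleRoots_zero, (hp.map _).leadingCoeff, one_smul, Polynomial.eval_pow,
    Polynomial.eval_X] at e4
  have e5 : rho ℓ gW = 0 := eq_zero_of_pow_eq_zero e4
  rwa [hgW, rho, rhoW_ι] at e5

theorem redR_evZ_jq (p : ℤ[X]) : redR ℓ (evZ (jqModC (Rl ℓ)) p) =
    (p.map (Int.castRingHom (ZMod ℓ))).eval₂ HahnSeries.C (jqModC (ZMod ℓ)) := by
  rw [map_evZ, redR_jq, evZ_eq_eval₂_map HahnSeries.C]

theorem iotaR_evZ_jq (p : ℤ[X]) : iotaR ℓ (evZ (jqModC (Rl ℓ)) p) = evZ jq p := by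
  rw [map_evZ, iotaR_jq]

theorem C_dvd_of_map_eq_zero {p : ℤ[X]} (h : p.map (Int.castRingHom (ZMod ℓ)) = 0) :
    ∃ p' : ℤ[X], p = C (ℓ : ℤ) * p' := by
  have : C (ℓ : ℤ) ∣ p := by
    rw [Polynomial.C_dvd_iff_dvd_coeff]
    intro i
    have h1 := congrArg (fun q => q.coeff i) h
    simp only [Polynomial.coeff_map, Polynomial.coeff_zero, eq_intCast] at h1
    exact (ZMod.intCast_zmod_eq_zero_iff_dvd _ _).mp h1
  exact this

theorem map_ne_zero_of_not_dvd {p : ℤ[X]} (h : ¬ C (ℓ : ℤ) ∣ p) :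
    p.map (Int.castRingHom (ZMod ℓ)) ≠ 0 := fun h0 => h (C_dvd_of_map_eq_zero h0)

section

variable {n : ℕ} {u : LaurentSeries (Rl ℓ)}

/-- the integral series `∑ b_i(j) u^i` -/
noncomputable def combo (u : LaurentSeries (Rl ℓ)) (b : Fin n → ℤ[X]) : LaurentSeries (Rl ℓ) :=
  ∑ i, evZ (jqModC (Rl ℓ)) (b i) * u ^ (i : ℕ)

theorem iotaR_combo (b : Fin n → ℤ[X]) :
    iotaR ℓ (combo u b) = ∑ i, evZ jq (b i) * (iotaR ℓ u) ^ (i : ℕ) := by
  simp only [combo, map_sum, map_mul, map_pow, iotaR_evZ_jq]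

theorem redR_combo (b : Fin n → ℤ[X]) :
    redR ℓ (combo u b) = ∑ i, ((b i).map (Int.castRingHom (ZMod ℓ))).eval₂ HahnSeries.C
      (jqModC (ZMod ℓ)) * (redR ℓ u) ^ (i : ℕ) := by
  simp only [combo, map_sum, map_mul, map_pow, redR_evZ_jq]

theorem exists_div_of_redR_combo (H : AlgInput N ℓ n u) {b : Fin n → ℤ[X]}
    (h : redR ℓ (combo u b) = 0) : ∃ b' : Fin n → ℤ[X], ∀ i, b i = C (ℓ : ℤ) * b' i := by
  rw [redR_combo] at h
  have h1 := H.h3 _ h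
  choose b' hb' using fun i => C_dvd_of_map_eq_zero (h1 i)
  exact ⟨b', hb'⟩

theorem combo_C_mul (b' : Fin n → ℤ[X]) :
    combo u (fun i => C (ℓ : ℤ) * b' i) = (ℓ : LaurentSeries (Rl ℓ)) * combo u b' := by
  simp only [combo, evZ_mul, evZ_C, Finset.mul_sum, mul_assoc]
  simp

theorem natCast_ne_zero_LQ : ((ℓ : ℕ) : LaurentSeries ℚ) ≠ 0 := by
  have h : ((ℓ : ℕ) : LaurentSeries ℚ) = HahnSeries.C ((ℓ : ℕ) : ℚ) := by simp
  rw [h]
  exact HahnSeries.C_ne_zero (by exact_mod_cast (Fact.out : ℓ.Prime).ne_zero)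

/-- **(C1)** good denominators. -/
theorem exists_good_rel (H : AlgInput N ℓ n u) {f : LaurentSeries ℚ}
    (hf : f ∈ modularFunctionFieldFull N) {p : (WW ℓ)[X]} (hp : p.Monic)
    (hpf : p.eval₂ (WW ℓ).subtype f = 0) :
    ∃ e : ℤ[X], e.map (Int.castRingHom (ZMod ℓ)) ≠ 0 ∧ ∃ b : Fin n → ℤ[X],
      evZ jq e * f = iotaR ℓ (combo u b) := by
  obtain ⟨e, he, b, hb⟩ := H.h2 f hf
  rw [← iotaR_combo] at hb
  have hprime : Prime (C (ℓ : ℤ) : ℤ[X]) :=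
    Polynomial.prime_C_iff.mpr (Nat.prime_iff_prime_int.mp Fact.out)
  have hfin : FiniteMultiplicity (C (ℓ : ℤ) : ℤ[X]) e :=
    FiniteMultiplicity.of_not_isUnit hprime.not_isUnit he
  obtain ⟨e', he', hnd⟩ := hfin.exists_eq_pow_mul_and_not_dvd
  generalize multiplicity (C (ℓ : ℤ) : ℤ[X]) e = k at he'
  clear hfin he
  induction k generalizing e b with
  | zero =>
    rw [pow_zero, one_mul] at he'
    subst he'
    exact ⟨e, map_ne_zero_of_not_dvd hnd, b, hb⟩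
  | succ k ih =>
    have hc : redR ℓ (evZ (jqModC (Rl ℓ)) e) = 0 := by
      rw [redR_evZ_jq, he', pow_succ', mul_assoc, Polynomial.map_mul, Polynomial.map_C]
      simp
    have hG := redR_eq_zero_of_integral hp hpf hc (G := combo u b)
      (by rw [iotaR_evZ_jq]; exact hb)
    obtain ⟨b', hb'⟩ := exists_div_of_redR_combo H hG
    refine ih (C (ℓ : ℤ) ^ k * e') b' ?_ rfl
    have hb2 : b = fun i => C (ℓ : ℤ) * b' i := funext hb'
    have hcast : iotaR ℓ ((ℓ : ℕ) : LaurentSeries (Rl ℓ)) = ((ℓ : ℕ) : LaurentSeries ℚ) :=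
      map_natCast _ _
    rw [hb2, combo_C_mul, he', pow_succ', mul_assoc, evZ_mul, evZ_C, map_mul, hcast,
      mul_assoc, Int.cast_natCast] at hb
    exact mul_left_cancel₀ (natCast_ne_zero_LQ (ℓ := ℓ)) hb

theorem redR_evZ_ne_zero {e : ℤ[X]} (he : e.map (Int.castRingHom (ZMod ℓ)) ≠ 0) :
    redR ℓ (evZ (jqModC (Rl ℓ)) e) ≠ 0 := by
  rw [redR_evZ_jq]
  exact fun h => he (eval₂_jqModC_eq_zero _ h)

theorem mem_WW_of_integral (H : AlgInput N ℓ n u) {f : LaurentSeries ℚ}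
    (hf : f ∈ modularFunctionFieldFull N) {p : (WW ℓ)[X]} (hp : p.Monic)
    (hpf : p.eval₂ (WW ℓ).subtype f = 0) : f ∈ WW ℓ := by
  obtain ⟨e, he, b, hb⟩ := exists_good_rel H hf hp hpf
  exact mem_Wring_of_mul_eq _ _ (redR_evZ_ne_zero he) (b := combo u b)
    (by rw [iotaR_evZ_jq]; exact hb)

end

section charts

variable {n : ℕ} {u : LaurentSeries (Rl ℓ)}


theorem natCast_ne_zero_LQ' (m : ℕ) (hm : m.Coprime ℓ) : (m : LaurentSeries ℚ) ≠ 0 := by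
  have h : (m : LaurentSeries ℚ) = HahnSeries.C (m : ℚ) := by simp
  rw [h]
  refine HahnSeries.C_ne_zero ?_
  intro h0
  have h1 : m = 0 := by exact_mod_cast h0
  rw [h1, Nat.coprime_zero_left] at hm
  exact (Fact.out : ℓ.Prime).one_lt.ne' hm

theorem coe_algebraMap_Rl (r : Rl ℓ) :
    ((algebraMap (Rl ℓ) (FF N) r : FF N) : LaurentSeries ℚ) = iotaR ℓ (HahnSeries.C r) :=
  congrFun (congrArg DFunLike.coe (Rl.ringHom_ext ℓ natCast_ne_zero_LQ'
    ((algebraMap (FF N) (LaurentSeries ℚ)).comp (algebraMap (Rl ℓ) (FF N)))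
    ((iotaR ℓ).comp HahnSeries.C))) r

theorem jq_mem_WW : jq ∈ WW ℓ := by
  rw [← iotaR_jq ℓ]; exact ι_mem_Wring _ _ _

theorem redR_jq_ne_zero : redR ℓ (jqModC (Rl ℓ)) ≠ 0 := by
  rw [redR_jq]; exact jqModC_ne_zero_of_nontrivial _

theorem jq_inv_mem_WW : jq⁻¹ ∈ WW ℓ :=
  mem_Wring_of_mul_eq _ _ (redR_jq_ne_zero (ℓ := ℓ)) (b := 1)
    (by rw [iotaR_jq, map_one, mul_inv_cancel₀ jq_ne_zero])

theorem coe_mem_WW_of_mem_adjoin {S : Set (FF N)} (hS : S ⊆ {jFull N, (jFull N)⁻¹}) {d : (FF N)}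
    (hd : d ∈ Algebra.adjoin (Rl ℓ) S) : (d : LaurentSeries ℚ) ∈ WW ℓ := by
  induction hd using Algebra.adjoin_induction with
  | mem y hy =>
    rcases hS hy with rfl | rfl
    · exact jq_mem_WW
    · exact jq_inv_mem_WW
  | algebraMap r => rw [coe_algebraMap_Rl]; exact ι_mem_Wring _ _ _
  | add y z _ _ hy hz => exact add_mem hy hz
  | mul y z _ _ hy hz => exact mul_mem hy hz

/-- the coefficient ring of a chart, mapped to `WW`. -/
noncomputable def adjToW {S : Set (FF N)} (hS : S ⊆ {jFull N, (jFull N)⁻¹}) :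
    Algebra.adjoin (Rl ℓ) S →+* WW ℓ :=
  ((algebraMap (FF N) (LaurentSeries ℚ)).comp (Algebra.adjoin (Rl ℓ) S).val.toRingHom).codRestrict
    (WW ℓ) (fun d => coe_mem_WW_of_mem_adjoin hS d.2)

theorem coe_mem_WW_of_mem_chartAlg (H : AlgInput N ℓ n u) {S : Set (FF N)}
    (hS : S ⊆ {jFull N, (jFull N)⁻¹}) {x : (FF N)} (hx : x ∈ chartAlg N ℓ S) :
    (x : LaurentSeries ℚ) ∈ WW ℓ := by
  obtain ⟨p, hp, hpx⟩ := (mem_chartAlg_iff N ℓ).mp hx
  refine mem_WW_of_integral H x.2 (hp.map (adjToW hS)) ?_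
  rw [Polynomial.eval₂_map]
  have h1 : (WW ℓ).subtype.comp (adjToW hS) =
      (algebraMap (FF N) (LaurentSeries ℚ)).comp (algebraMap (Algebra.adjoin (Rl ℓ) S) (FF N)) := rfl
  rw [h1]
  have h2 := congrArg (algebraMap (FF N) (LaurentSeries ℚ)) hpx
  rw [Polynomial.hom_eval₂, map_zero] at h2
  exact h2

/-- the chart, mapped to `WW`. -/
noncomputable def chartToW (H : AlgInput N ℓ n u) {S : Set (FF N)}
    (hS : S ⊆ {jFull N, (jFull N)⁻¹}) : chartAlg N ℓ S →+* WW ℓ :=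
  ((algebraMap (FF N) (LaurentSeries ℚ)).comp (chartAlg N ℓ S).val.toRingHom).codRestrict
    (WW ℓ) (fun x => coe_mem_WW_of_mem_chartAlg H hS x.2)

/-- the reduction map on a chart. -/
noncomputable def chartRho (H : AlgInput N ℓ n u) {S : Set (FF N)}
    (hS : S ⊆ {jFull N, (jFull N)⁻¹}) : chartAlg N ℓ S →+* LaurentSeries (ZMod ℓ) :=
  (rho ℓ).comp (chartToW H hS)

/-- transcendence passes to the inverse -/
theorem eval₂_inv_eq_zero {A B : Type*} [CommRing A] [Field B] (i : A →+* B) {x : B} (hx : x ≠ 0)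
    (h : ∀ p : A[X], p.eval₂ i x = 0 → p = 0) (p : A[X]) (hp : p.eval₂ i x⁻¹ = 0) : p = 0 := by
  letI : Invertible x⁻¹ := invertibleOfNonzero (inv_ne_zero hx)
  have h1 := (Polynomial.eval₂_reverse_eq_zero_iff i x⁻¹ p).mpr hp
  rw [invOf_eq_inv, inv_inv] at h1
  exact Polynomial.reverse_eq_zero.mp (h _ h1)

/-- `ℤ_(ℓ)` as a valuation subring of `ℚ`. -/
def RlV (ℓ : ℕ) [Fact ℓ.Prime] : ValuationSubring ℚ :=
  { GaloisRep.ratLocalizedAt ℓ with
    mem_or_inv_mem' := by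
      intro x
      by_cases hx : x.den.Coprime ℓ
      · exact Or.inl hx
      · right
        show (x⁻¹).den.Coprime ℓ
        have hℓ : ℓ ∣ x.den := by
          by_contra hnd
          exact hx (Nat.Coprime.symm ((Nat.Prime.coprime_iff_not_dvd Fact.out).mpr hnd))
        have hnum : ¬ ℓ ∣ x.num.natAbs := by
          intro hd
          have h1 : ℓ ∣ Nat.gcd x.num.natAbs x.den := Nat.dvd_gcd hd hℓ
          rw [x.reduced] at h1
          exact (Fact.out : ℓ.Prime).one_lt.ne' (Nat.dvd_one.mp h1)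
        rw [Rat.den_inv]
        split_ifs
        · exact Nat.coprime_one_left ℓ
        · exact Nat.Coprime.symm ((Nat.Prime.coprime_iff_not_dvd Fact.out).mpr hnum) }

instance instIsIntegrallyClosedRl : IsIntegrallyClosed (Rl ℓ) :=
  inferInstanceAs (IsIntegrallyClosed (RlV ℓ).toSubring)

/-- reduction on the coefficient ring of a chart -/
noncomputable def adjRho {S : Set (FF N)} (hS : S ⊆ {jFull N, (jFull N)⁻¹}) :
    Algebra.adjoin (Rl ℓ) S →+* LaurentSeries (ZMod ℓ) := (rho ℓ).comp (adjToW hS)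

theorem adjRho_algebraMap {S : Set (FF N)} (hS : S ⊆ {jFull N, (jFull N)⁻¹}) (r : Rl ℓ) :
    adjRho hS (algebraMap (Rl ℓ) _ r) = HahnSeries.C (resid ℓ r) :=
  congrFun (congrArg DFunLike.coe (Rl.ringHom_ext ℓ (laurent_natCast_ne_zero (ZMod ℓ))
    ((adjRho hS).comp (algebraMap (Rl ℓ) _)) (HahnSeries.C.comp (resid ℓ)))) r

section Dt

variable {t : FF N} (ht : ({t} : Set (FF N)) ⊆ {jFull N, (jFull N)⁻¹})

/-- the generator of the coefficient ring -/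
def tD (ℓ : ℕ) [Fact ℓ.Prime] (t : FF N) : Algebra.adjoin (Rl ℓ) ({t} : Set (FF N)) :=
  ⟨t, Algebra.subset_adjoin rfl⟩

theorem adjRho_aeval (a : (Rl ℓ)[X]) :
    adjRho ht (aeval (tD ℓ t) a) = (a.map (resid ℓ)).eval₂ HahnSeries.C (adjRho ht (tD ℓ t)) := by
  rw [aeval_def, Polynomial.hom_eval₂, Polynomial.eval₂_map]
  congr 1
  exact RingHom.ext fun r => adjRho_algebraMap ht r

theorem exists_aeval_eq (d : Algebra.adjoin (Rl ℓ) ({t} : Set (FF N))) :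
    ∃ a : (Rl ℓ)[X], d = aeval (tD ℓ t) a := by
  have h1 : (d : FF N) ∈ (aeval (R := Rl ℓ) t).range := by
    rw [← Algebra.adjoin_singleton_eq_range_aeval]; exact d.2
  obtain ⟨a, ha⟩ := h1
  refine ⟨a, Subtype.ext ?_⟩
  rw [Polynomial.aeval_subalgebra_coe]
  exact ha.symm

theorem dvd_of_adjRho_eq_zero
    (htr : ∀ p : (ZMod ℓ)[X], p.eval₂ HahnSeries.C (adjRho ht (tD ℓ t)) = 0 → p = 0)
    (d : Algebra.adjoin (Rl ℓ) ({t} : Set (FF N))) (hd : adjRho ht d = 0) :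
    ((ℓ : ℕ) : Algebra.adjoin (Rl ℓ) ({t} : Set (FF N))) ∣ d := by
  obtain ⟨a, rfl⟩ := exists_aeval_eq d
  rw [adjRho_aeval] at hd
  have h1 := htr _ hd
  have h2 : C ((ℓ : ℕ) : Rl ℓ) ∣ a := by
    rw [Polynomial.C_dvd_iff_dvd_coeff]
    intro i
    have h3 := congrArg (fun q => q.coeff i) h1
    simp only [Polynomial.coeff_map, Polynomial.coeff_zero] at h3
    obtain ⟨y, hy⟩ := exists_eq_mul_of_residK_eq_zero ℓ _ h3
    exact ⟨y, hy⟩
  obtain ⟨a', rfl⟩ := h2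
  refine ⟨aeval (tD ℓ t) a', ?_⟩
  rw [map_mul, aeval_C, map_natCast]

theorem adjRho_natCast_self : adjRho ht ((ℓ : ℕ) : Algebra.adjoin (Rl ℓ) ({t} : Set (FF N))) = 0 := by
  rw [map_natCast]
  have h : ((ℓ : ℕ) : LaurentSeries (ZMod ℓ)) = HahnSeries.C ((ℓ : ℕ) : ZMod ℓ) :=
    (map_natCast HahnSeries.C ℓ).symm
  rw [h, ZMod.natCast_self, map_zero]

theorem prime_natCast_adjoin
    (htr : ∀ p : (ZMod ℓ)[X], p.eval₂ HahnSeries.C (adjRho ht (tD ℓ t)) = 0 → p = 0) :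
    Prime ((ℓ : ℕ) : Algebra.adjoin (Rl ℓ) ({t} : Set (FF N))) := by
  refine ⟨?_, ?_, ?_⟩
  · intro h
    have h1 := congrArg (fun d : Algebra.adjoin (Rl ℓ) ({t} : Set (FF N)) =>
      ((d : FF N) : LaurentSeries ℚ)) h
    exact natCast_ne_zero_LQ (ℓ := ℓ) (by simpa using h1)
  · intro hu
    have h1 := hu.map (adjRho ht)
    rw [adjRho_natCast_self] at h1
    exact not_isUnit_zero h1
  · intro a b hab
    have h1 : adjRho ht (a * b) = 0 := by
      obtain ⟨c, hc⟩ := hab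
      rw [hc, map_mul, adjRho_natCast_self, zero_mul]
    rw [map_mul] at h1
    rcases mul_eq_zero.mp h1 with h2 | h2
    · exact Or.inl (dvd_of_adjRho_eq_zero ht htr a h2)
    · exact Or.inr (dvd_of_adjRho_eq_zero ht htr b h2)

theorem isIntegrallyClosed_adjoin (htr0 : ∀ p : (Rl ℓ)[X], aeval t p = 0 → p = 0) :
    IsIntegrallyClosed (Algebra.adjoin (Rl ℓ) ({t} : Set (FF N))) := by
  have hinj : Function.Injective (aeval (R := Rl ℓ) t) := by
    rw [injective_iff_map_eq_zero]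
    exact htr0
  let e1 := AlgEquiv.ofInjective (aeval (R := Rl ℓ) t) hinj
  let e2 := Subalgebra.equivOfEq _ _ (Algebra.adjoin_singleton_eq_range_aeval (Rl ℓ) t).symm
  exact IsIntegrallyClosed.of_equiv (e1.trans e2).toRingEquiv

end Dt

theorem hFinS : ({jFull N} : Set (FF N)) ⊆ {jFull N, (jFull N)⁻¹} := sFin_subset N

theorem hInfS : ({(jFull N)⁻¹} : Set (FF N)) ⊆ {jFull N, (jFull N)⁻¹} := sInf_subset N

theorem adjRho_tD_fin : adjRho (ℓ := ℓ) (hFinS (N := N)) (tD ℓ (jFull N)) = jqModC (ZMod ℓ) := by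
  rw [← redR_jq ℓ]
  refine rhoW_eq_of_rel _ _ (iotaR_injective ℓ) _ ?_
  have h : ((adjToW (ℓ := ℓ) (hFinS (N := N)) (tD ℓ (jFull N)) : WW ℓ) : LaurentSeries ℚ) =
      iotaR ℓ (jqModC (Rl ℓ)) := by
    rw [iotaR_jq]; rfl
  rw [h]
  exact WRel.of_int _

theorem adjRho_tD_inf :
    adjRho (ℓ := ℓ) (hInfS (N := N)) (tD ℓ (jFull N)⁻¹) = (jqModC (ZMod ℓ))⁻¹ := by
  have h : iotaR ℓ (jqModC (Rl ℓ)) *
      ((adjToW (ℓ := ℓ) (hInfS (N := N)) (tD ℓ (jFull N)⁻¹) : WW ℓ) : LaurentSeries ℚ) =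
      iotaR ℓ 1 := by
    rw [iotaR_jq, map_one]
    exact mul_inv_cancel₀ jq_ne_zero
  have h1 := rhoW_mul_red _ _ (iotaR_injective ℓ) _ (redR_jq_ne_zero (ℓ := ℓ)) h
  rw [map_one, redR_jq] at h1
  exact eq_inv_of_mul_eq_one_left h1

theorem htr_fin (p : (ZMod ℓ)[X])
    (hp : p.eval₂ HahnSeries.C (adjRho (ℓ := ℓ) (hFinS (N := N)) (tD ℓ (jFull N))) = 0) : p = 0 := by
  rw [adjRho_tD_fin] at hp
  exact eval₂_jqModC_eq_zero p hp

theorem htr_inf (p : (ZMod ℓ)[X])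
    (hp : p.eval₂ HahnSeries.C (adjRho (ℓ := ℓ) (hInfS (N := N)) (tD ℓ (jFull N)⁻¹)) = 0) :
    p = 0 := by
  rw [adjRho_tD_inf] at hp
  exact eval₂_inv_eq_zero _ (jqModC_ne_zero_of_nontrivial _) eval₂_jqModC_eq_zero p hp

theorem htr0_fin (p : (Rl ℓ)[X]) (hp : p.eval₂ (algebraMap (Rl ℓ) (FF N)) (jFull N) = 0) :
    p = 0 := by
  have h1 := congrArg (algebraMap (FF N) (LaurentSeries ℚ)) hp
  rw [Polynomial.hom_eval₂, map_zero] at h1
  have h2 : (algebraMap (FF N) (LaurentSeries ℚ)).comp (algebraMap (Rl ℓ) (FF N)) =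
      (iotaR ℓ).comp HahnSeries.C := RingHom.ext fun r => coe_algebraMap_Rl (N := N) r
  have h3 : algebraMap (FF N) (LaurentSeries ℚ) (jFull N) = iotaR ℓ (jqModC (Rl ℓ)) := by
    rw [iotaR_jq]; rfl
  rw [h2, h3, ← Polynomial.hom_eval₂] at h1
  exact eval₂_jqModC_eq_zero p (iotaR_injective ℓ (by rw [h1, map_zero]))

theorem htr0_inf (p : (Rl ℓ)[X]) (hp : p.eval₂ (algebraMap (Rl ℓ) (FF N)) (jFull N)⁻¹ = 0) :
    p = 0 :=
  eval₂_inv_eq_zero _ (jFull_ne_zero N) htr0_fin p hp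

theorem exists_good_rel_chart (H : AlgInput N ℓ n u) {S : Set (FF N)}
    (hS : S ⊆ {jFull N, (jFull N)⁻¹}) {x : FF N} (hx : x ∈ chartAlg N ℓ S) :
    ∃ e : ℤ[X], e.map (Int.castRingHom (ZMod ℓ)) ≠ 0 ∧ ∃ b : Fin n → ℤ[X],
      evZ jq e * (x : LaurentSeries ℚ) = iotaR ℓ (combo u b) := by
  obtain ⟨p, hp, hpx⟩ := (mem_chartAlg_iff N ℓ).mp hx
  refine exists_good_rel H x.2 (hp.map (adjToW hS)) ?_
  rw [Polynomial.eval₂_map]
  have h1 : (WW ℓ).subtype.comp (adjToW hS) =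
      (algebraMap (FF N) (LaurentSeries ℚ)).comp (algebraMap (Algebra.adjoin (Rl ℓ) S) (FF N)) := rfl
  rw [h1]
  have h2 := congrArg (algebraMap (FF N) (LaurentSeries ℚ)) hpx
  rw [Polynomial.hom_eval₂, map_zero] at h2
  exact h2

/-- the map from the coefficient ring of the finite chart to `ℚ((q))` -/
noncomputable def finToLQ (N : ℕ) [NeZero N] (ℓ : ℕ) [Fact ℓ.Prime] :
    Algebra.adjoin (Rl ℓ) ({jFull N} : Set (FF N)) →+* LaurentSeries ℚ :=
  (algebraMap (FF N) (LaurentSeries ℚ)).comp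
    (algebraMap (Algebra.adjoin (Rl ℓ) ({jFull N} : Set (FF N))) (FF N))

theorem finToLQ_tD : finToLQ N ℓ (tD ℓ (jFull N)) = jq := rfl

theorem isIntegralElem_iotaR_u (H : AlgInput N ℓ n u) :
    (finToLQ N ℓ).IsIntegralElem (iotaR ℓ u) := by
  obtain ⟨χ, hχ, hχu⟩ := H.h1
  let θ : (Rl ℓ)[X] →+* Algebra.adjoin (Rl ℓ) ({jFull N} : Set (FF N)) :=
    Polynomial.eval₂RingHom (algebraMap (Rl ℓ) _) (tD ℓ (jFull N))
  refine ⟨χ.map θ, hχ.map θ, ?_⟩
  rw [Polynomial.eval₂_map]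
  have h1 : (finToLQ N ℓ).comp θ =
      (iotaR ℓ).comp (Polynomial.eval₂RingHom HahnSeries.C (jqModC (Rl ℓ))) := by
    apply Polynomial.ringHom_ext
    · intro r
      simp only [θ, RingHom.comp_apply, Polynomial.coe_eval₂RingHom, Polynomial.eval₂_C]
      exact coe_algebraMap_Rl (N := N) r
    · simp only [θ, RingHom.comp_apply, Polynomial.coe_eval₂RingHom, Polynomial.eval₂_X]
      rw [finToLQ_tD, iotaR_jq]
  rw [h1, ← Polynomial.hom_eval₂, hχu, map_zero]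

theorem isIntegralElem_iotaR_combo (H : AlgInput N ℓ n u) (b : Fin n → ℤ[X]) :
    (finToLQ N ℓ).IsIntegralElem (iotaR ℓ (combo u b)) := by
  letI := (finToLQ N ℓ).toAlgebra
  show IsIntegral (Algebra.adjoin (Rl ℓ) ({jFull N} : Set (FF N))) (iotaR ℓ (combo u b))
  rw [iotaR_combo]
  refine IsIntegral.sum _ fun i _ => IsIntegral.mul ?_ (IsIntegral.pow (isIntegralElem_iotaR_u H) _)
  have h : evZ jq (b i) = finToLQ N ℓ (evZ (tD ℓ (jFull N)) (b i)) := by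
    rw [map_evZ, finToLQ_tD]
  rw [h]
  exact isIntegral_algebraMap

theorem fin_div (H : AlgInput N ℓ n u) (x : chartAlgFin N ℓ)
    (hx : chartRho H (hFinS (N := N)) x = 0) :
    ∃ y : chartAlgFin N ℓ, x = ((ℓ : ℕ) : chartAlgFin N ℓ) * y := by
  obtain ⟨e, he, b, hb⟩ := exists_good_rel_chart H (hFinS (N := N)) x.2
  have h1 := rhoW_mul_red _ _ (iotaR_injective ℓ) (chartToW H (hFinS (N := N)) x)
    (redR_evZ_ne_zero he) (b := combo u b) (by rw [iotaR_evZ_jq]; exact hb)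
  have hx' : rhoW _ _ (iotaR_injective ℓ) (chartToW H (hFinS (N := N)) x) = 0 := hx
  rw [hx', zero_mul] at h1
  obtain ⟨b', hb'⟩ := exists_div_of_redR_combo H h1.symm
  have hb2 : b = fun i => C (ℓ : ℤ) * b' i := funext hb'
  have hcast : iotaR ℓ ((ℓ : ℕ) : LaurentSeries (Rl ℓ)) = ((ℓ : ℕ) : LaurentSeries ℚ) :=
    map_natCast _ _
  rw [hb2, combo_C_mul, map_mul, hcast] at hb
  set g : FF N := ((ℓ : ℕ) : FF N)⁻¹ * (x : FF N) with hg
  have hℓF : ((ℓ : ℕ) : FF N) ≠ 0 := by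
    exact_mod_cast (Fact.out : ℓ.Prime).ne_zero
  haveI := isIntegrallyClosed_adjoin (ℓ := ℓ) (t := jFull N) (fun p hp => htr0_fin p hp)
  have hprime := prime_natCast_adjoin (ℓ := ℓ) (hFinS (N := N)) htr_fin
  set sD : Algebra.adjoin (Rl ℓ) ({jFull N} : Set (FF N)) := evZ (tD ℓ (jFull N)) e with hsD
  have hs : ¬ ((ℓ : ℕ) : Algebra.adjoin (Rl ℓ) ({jFull N} : Set (FF N))) ∣ sD := by
    rintro ⟨c, hc⟩
    have h2 := congrArg (adjRho (hFinS (N := N))) hc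
    rw [map_mul, adjRho_natCast_self, zero_mul, hsD, map_evZ, adjRho_tD_fin,
      evZ_eq_eval₂_map HahnSeries.C] at h2
    exact he (eval₂_jqModC_eq_zero _ h2)
  have hg1 : IsIntegral (Algebra.adjoin (Rl ℓ) ({jFull N} : Set (FF N)))
      (((ℓ : ℕ) : Algebra.adjoin (Rl ℓ) ({jFull N} : Set (FF N))) • g) := by
    have h3 : ((ℓ : ℕ) : Algebra.adjoin (Rl ℓ) ({jFull N} : Set (FF N))) • g = (x : FF N) := by
      rw [Algebra.smul_def, map_natCast, hg, mul_inv_cancel_left₀ hℓF]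
    rw [h3]
    exact x.2
  have hg2 : IsIntegral (Algebra.adjoin (Rl ℓ) ({jFull N} : Set (FF N))) (sD • g) := by
    obtain ⟨P, hP, hPz⟩ := isIntegralElem_iotaR_combo H b'
    refine ⟨P, hP, ?_⟩
    have h4 : iotaR ℓ (combo u b') = algebraMap (FF N) (LaurentSeries ℚ) (sD • g) := by
      rw [Algebra.smul_def, map_mul]
      have h5 : algebraMap (FF N) (LaurentSeries ℚ) (algebraMap _ (FF N) sD) = evZ jq e := by
        show finToLQ N ℓ sD = _
        rw [hsD, map_evZ, finToLQ_tD]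
      rw [h5, hg, map_mul, map_inv₀, map_natCast]
      have h6 : algebraMap (FF N) (LaurentSeries ℚ) (x : FF N) = ((x : FF N) : LaurentSeries ℚ) := rfl
      rw [h6]
      have h7 : evZ jq e * ((ℓ : LaurentSeries ℚ)⁻¹ * ((x : FF N) : LaurentSeries ℚ)) =
          (ℓ : LaurentSeries ℚ)⁻¹ * (evZ jq e * ((x : FF N) : LaurentSeries ℚ)) := by ring
      rw [h7, hb, inv_mul_cancel_left₀ natCast_ne_zero_LQ]
    rw [h4] at hPz
    have h8 : Polynomial.eval₂ (finToLQ N ℓ) (algebraMap (FF N) (LaurentSeries ℚ) (sD • g)) P =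
        algebraMap (FF N) (LaurentSeries ℚ) (Polynomial.eval₂ (algebraMap _ (FF N)) (sD • g) P) := by
      rw [Polynomial.hom_eval₂]; rfl
    rw [h8] at hPz
    exact (algebraMap (FF N) (LaurentSeries ℚ)).injective (by rw [hPz, map_zero])
  have hgint := isIntegral_of_prime_smul hprime hs hg1 hg2
  refine ⟨⟨g, hgint⟩, Subtype.ext ?_⟩
  rw [Subalgebra.coe_mul]
  have h9 : ((((ℓ : ℕ) : chartAlgFin N ℓ)) : FF N) = ((ℓ : ℕ) : FF N) := by norm_cast
  rw [h9]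
  show (x : FF N) = ((ℓ : ℕ) : FF N) * g
  rw [hg, mul_inv_cancel_left₀ hℓF]

theorem inf_div (H : AlgInput N ℓ n u) (x : chartAlgInf N ℓ)
    (hx : chartRho H (hInfS (N := N)) x = 0) :
    ∃ y : chartAlgInf N ℓ, x = ((ℓ : ℕ) : chartAlgInf N ℓ) * y := by
  have hℓF : ((ℓ : ℕ) : FF N) ≠ 0 := by
    exact_mod_cast (Fact.out : ℓ.Prime).ne_zero
  have hj0 : jFull N ≠ 0 := jFull_ne_zero N
  -- step 1: clear the pole
  have h1 : (x : FF N) ∈ chartAlg N ℓ (insert (jFull N)⁻¹ {jFull N}) :=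
    chartAlg_mono N ℓ (Set.singleton_subset_iff.mpr (Set.mem_insert _ _)) x.2
  obtain ⟨k, hk⟩ := exists_pow_mul_mem_chartAlg (Set.mem_singleton _) hj0 h1
  set xf : chartAlgFin N ℓ := ⟨(jFull N) ^ k * (x : FF N), hk⟩ with hxf
  have hxf0 : chartRho H (hFinS (N := N)) xf = 0 := by
    have h2 : chartToW H (hFinS (N := N)) xf =
        (⟨jq, jq_mem_WW⟩ : WW ℓ) ^ k * chartToW H (hInfS (N := N)) x := Subtype.ext rfl
    show rho ℓ (chartToW H (hFinS (N := N)) xf) = 0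
    rw [h2, map_mul]
    have h3 : rho ℓ (chartToW H (hInfS (N := N)) x) = 0 := hx
    rw [h3, mul_zero]
  obtain ⟨y, hy⟩ := fin_div H xf hxf0
  have hy' : (jFull N) ^ k * (x : FF N) = ((ℓ : ℕ) : FF N) * (y : FF N) := by
    have h4 := congrArg (fun z : chartAlgFin N ℓ => (z : FF N)) hy
    simp only [Subalgebra.coe_mul] at h4
    have h9 : ((((ℓ : ℕ) : chartAlgFin N ℓ)) : FF N) = ((ℓ : ℕ) : FF N) := by norm_cast
    rw [h9] at h4
    exact h4
  set g : FF N := ((ℓ : ℕ) : FF N)⁻¹ * (x : FF N) with hg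
  have hgy : g = ((jFull N)⁻¹) ^ k * (y : FF N) := by
    rw [hg, inv_pow]
    field_simp
    rw [mul_comm (x : FF N), hy']
  -- step 2: `g` lies in the middle chart
  have hgmid : g ∈ chartAlg N ℓ (insert ((jFull N)⁻¹)⁻¹ {(jFull N)⁻¹}) := by
    rw [inv_inv, hgy]
    refine mul_mem (pow_mem (subset_chartAlg N ℓ _ (by simp)) k) ?_
    exact chartAlg_mono N ℓ (sFin_subset N) y.2
  obtain ⟨m, hm⟩ := exists_pow_mul_mem_chartAlg (Set.mem_singleton _) (inv_ne_zero hj0) hgmid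
  -- step 3: normality
  haveI := isIntegrallyClosed_adjoin (ℓ := ℓ) (t := (jFull N)⁻¹) (fun p hp => htr0_inf p hp)
  have hprime := prime_natCast_adjoin (ℓ := ℓ) (hInfS (N := N)) htr_inf
  have hs : ¬ ((ℓ : ℕ) : Algebra.adjoin (Rl ℓ) ({(jFull N)⁻¹} : Set (FF N))) ∣
      (tD ℓ (jFull N)⁻¹) ^ m := by
    rintro ⟨c, hc⟩
    have h2 := congrArg (adjRho (hInfS (N := N))) hc
    rw [map_mul, adjRho_natCast_self, zero_mul, map_pow, adjRho_tD_inf] at h2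
    exact pow_ne_zero m (inv_ne_zero (jqModC_ne_zero_of_nontrivial _)) h2
  have hg1 : IsIntegral (Algebra.adjoin (Rl ℓ) ({(jFull N)⁻¹} : Set (FF N)))
      (((ℓ : ℕ) : Algebra.adjoin (Rl ℓ) ({(jFull N)⁻¹} : Set (FF N))) • g) := by
    have h3 : ((ℓ : ℕ) : Algebra.adjoin (Rl ℓ) ({(jFull N)⁻¹} : Set (FF N))) • g = (x : FF N) := by
      rw [Algebra.smul_def, map_natCast, hg, mul_inv_cancel_left₀ hℓF]
    rw [h3]
    exact x.2
  have hg2 : IsIntegral (Algebra.adjoin (Rl ℓ) ({(jFull N)⁻¹} : Set (FF N)))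
      ((tD ℓ (jFull N)⁻¹) ^ m • g) := by
    have h3 : (tD ℓ (jFull N)⁻¹) ^ m • g = ((jFull N)⁻¹) ^ m * g := by
      rw [Algebra.smul_def, map_pow]; rfl
    rw [h3]
    exact hm
  have hgint := isIntegral_of_prime_smul hprime hs hg1 hg2
  refine ⟨⟨g, hgint⟩, Subtype.ext ?_⟩
  rw [Subalgebra.coe_mul]
  have h9 : ((((ℓ : ℕ) : chartAlgInf N ℓ)) : FF N) = ((ℓ : ℕ) : FF N) := by norm_cast
  rw [h9]
  show (x : FF N) = ((ℓ : ℕ) : FF N) * g
  rw [hg, mul_inv_cancel_left₀ hℓF]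

/-- **[Alg] + [Ten]**: the three outputs needed by the scheme part. -/
theorem isDomain_chartAlgFin_tensor (H : AlgInput N ℓ n u) (K : Type*) [Field K] [CharP K ℓ]
    [Algebra (Rl ℓ) K] : IsDomain (chartAlgFin N ℓ ⊗[Rl ℓ] K) :=
  isDomain_tensorK K (chartRho H (hFinS (N := N))) (fun a ha => fin_div H a ha)

theorem isDomain_chartAlgInf_tensor (H : AlgInput N ℓ n u) (K : Type*) [Field K] [CharP K ℓ]
    [Algebra (Rl ℓ) K] : IsDomain (chartAlgInf N ℓ ⊗[Rl ℓ] K) :=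
  isDomain_tensorK K (chartRho H (hInfS (N := N))) (fun a ha => inf_div H a ha)

theorem nontrivial_chartAlgMid_tensor (H : AlgInput N ℓ n u) (K : Type*) [Field K] [CharP K ℓ]
    [Algebra (Rl ℓ) K] : Nontrivial (chartAlgMid N ℓ ⊗[Rl ℓ] K) :=
  nontrivial_tensorK K (chartRho H (subset_refl _))

end charts

end Fermat.Agent.S28
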