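import Fermat.Agent.S28.Defs

set_option autoImplicit false

namespace Fermat.Agent.S28

open ModularCurve TensorProduct

variable (ℓ : ℕ) [Fact ℓ.Prime]

theorem Rl.den_coprime (x : Rl ℓ) : (x : ℚ).den.Coprime ℓ := x.2

theorem Rl.natCast_den_ne_zero {B : Type*} [Ring B] [CharP B ℓ] (x : Rl ℓ) :
    (((x : ℚ).den : ℕ) : B) ≠ 0 := by
  intro h
  rw [CharP.cast_eq_zero_iff B ℓ] at h
  have h1 : ℓ ∣ Nat.gcd (x : ℚ).den ℓ := Nat.dvd_gcd h dvd_rfl
  rw [Rl.den_coprime ℓ x] at h1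
  exact (Fact.out : ℓ.Prime).one_lt.ne' (Nat.dvd_one.mp h1)

/-- The canonical map `ℤ_(ℓ) → K` for a field of characteristic `ℓ`. -/
noncomputable def residK (K : Type*) [Field K] [CharP K ℓ] : Rl ℓ →+* K where
  toFun x := ((x : ℚ) : K)
  map_one' := by simp
  map_mul' x y := by
    simpa using Rat.cast_mul_of_ne_zero (Rl.natCast_den_ne_zero ℓ x) (Rl.natCast_den_ne_zero ℓ y)
  map_zero' := by simp
  map_add' x y := by
    simpa using Rat.cast_add_of_ne_zero (Rl.natCast_den_ne_zero ℓ x) (Rl.natCast_den_ne_zero ℓ y)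

/-- The residue map `ℤ_(ℓ) → 𝔽_ℓ`. -/
noncomputable abbrev resid : Rl ℓ →+* ZMod ℓ := residK ℓ (ZMod ℓ)

theorem Rl.den_mul_eq_num (x : Rl ℓ) : (((x : ℚ).den : ℕ) : Rl ℓ) * x = (((x : ℚ).num : ℤ) : Rl ℓ) := by
  apply Subtype.ext
  push_cast
  rw [mul_comm]
  exact Rat.mul_den_eq_num _

/-- Ring homs out of `ℤ_(ℓ)` into a ring where integers prime to `ℓ` are non-zero-divisors. -/
theorem Rl.ringHom_ext {B : Type*} [CommRing B] [IsDomain B]
    (hB : ∀ m : ℕ, m.Coprime ℓ → (m : B) ≠ 0) (f g : Rl ℓ →+* B) : f = g := by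
  ext x
  have hf := congrArg f (Rl.den_mul_eq_num ℓ x)
  have hg := congrArg g (Rl.den_mul_eq_num ℓ x)
  simp only [map_mul, map_natCast, map_intCast] at hf hg
  exact mul_left_cancel₀ (hB _ (Rl.den_coprime ℓ x)) (hf.trans hg.symm)

theorem natCast_ne_zero_of_coprime {B : Type*} [Ring B] [CharP B ℓ] (m : ℕ) (hm : m.Coprime ℓ) :
    (m : B) ≠ 0 := by
  intro h
  rw [CharP.cast_eq_zero_iff B ℓ] at h
  have h1 : ℓ ∣ Nat.gcd m ℓ := Nat.dvd_gcd h dvd_rfl
  rw [hm] at h1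
  exact (Fact.out : ℓ.Prime).one_lt.ne' (Nat.dvd_one.mp h1)

theorem Rl.ringHom_ext_field {K : Type*} [Field K] [CharP K ℓ] (f g : Rl ℓ →+* K) : f = g :=
  Rl.ringHom_ext ℓ (natCast_ne_zero_of_coprime ℓ) f g

/-- The kernel of the residue map is generated by `ℓ`. -/
theorem exists_eq_mul_of_residK_eq_zero {K : Type*} [Field K] [CharP K ℓ] (x : Rl ℓ)
    (h : residK ℓ K x = 0) : ∃ y : Rl ℓ, x = (ℓ : Rl ℓ) * y := by
  have h1 := congrArg (residK ℓ K) (Rl.den_mul_eq_num ℓ x)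
  rw [map_mul, h, mul_zero, map_intCast] at h1
  have h2 : (ℓ : ℤ) ∣ (x : ℚ).num := (CharP.intCast_eq_zero_iff K ℓ _).mp h1.symm
  obtain ⟨m, hm⟩ := h2
  have hℓ : (ℓ : ℚ) ≠ 0 := by exact_mod_cast (Fact.out : ℓ.Prime).ne_zero
  have hy : ((m : ℚ) / ((x : ℚ).den : ℚ)) ∈ GaloisRep.ratLocalizedAt ℓ := by
    show ((m : ℚ) / ((x : ℚ).den : ℚ)).den.Coprime ℓ
    have hd : ((m : ℚ) / ((x : ℚ).den : ℚ)).den ∣ (x : ℚ).den := by
      have := Rat.den_dvd m ((x : ℚ).den : ℤ)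
      rw [Rat.divInt_eq_div] at this
      exact_mod_cast this
    exact Nat.Coprime.coprime_dvd_left hd (Rl.den_coprime ℓ x)
  refine ⟨⟨_, hy⟩, Subtype.ext ?_⟩
  push_cast
  have hx : (x : ℚ) = ((x : ℚ).num : ℚ) / ((x : ℚ).den : ℚ) := (Rat.num_div_den _).symm
  conv_lhs => rw [hx, hm]
  push_cast
  ring

theorem laurent_natCast_ne_zero {ℓ : ℕ} [Fact ℓ.Prime] (K : Type*) [Field K] [CharP K ℓ] (m : ℕ)
    (hm : m.Coprime ℓ) : (m : LaurentSeries K) ≠ 0 := by
  intro h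
  have h1 : (HahnSeries.C (Γ := ℤ) (m : K)) = 0 := by
    rw [← h]; simp
  exact HahnSeries.C_ne_zero (natCast_ne_zero_of_coprime ℓ m hm) h1

section Ten

variable {ℓ}
variable {A : Type*} [CommRing A] [Algebra (Rl ℓ) A]
variable (K : Type*) [Field K] [CharP K ℓ] [Algebra (Rl ℓ) K]

/-- the `ℤ_(ℓ)`-algebra map `A → K((q))` induced by `ρ`. -/
noncomputable def tenLeft (ρ : A →+* LaurentSeries (ZMod ℓ)) : A →ₐ[Rl ℓ] LaurentSeries K :=
  letI := ZMod.algebra K ℓ
  { (coeffMap (algebraMap (ZMod ℓ) K)).comp ρ with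
    commutes' := fun r => by
      letI := ZMod.algebra K ℓ
      exact congrFun (congrArg DFunLike.coe (Rl.ringHom_ext ℓ (laurent_natCast_ne_zero K)
        (((coeffMap (algebraMap (ZMod ℓ) K)).comp ρ).comp (algebraMap (Rl ℓ) A))
        (algebraMap (Rl ℓ) (LaurentSeries K)))) r }

noncomputable def tenRight : K →ₐ[Rl ℓ] LaurentSeries K :=
  { (HahnSeries.C : K →+* LaurentSeries K) with
    commutes' := fun r => by
      exact congrFun (congrArg DFunLike.coe (Rl.ringHom_ext ℓ (laurent_natCast_ne_zero K)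
        ((HahnSeries.C : K →+* LaurentSeries K).comp (algebraMap (Rl ℓ) K))
        (algebraMap (Rl ℓ) (LaurentSeries K)))) r }

noncomputable def tenMap (ρ : A →+* LaurentSeries (ZMod ℓ)) : A ⊗[Rl ℓ] K →ₐ[Rl ℓ] LaurentSeries K :=
  Algebra.TensorProduct.productMap (tenLeft K ρ) (tenRight K)

theorem tenMap_tmul_coeff (ρ : A →+* LaurentSeries (ZMod ℓ)) (a : A) (x : K) (n : ℤ) :
    letI := ZMod.algebra K ℓ
    (tenMap K ρ (a ⊗ₜ x)).coeff n = (ρ a).coeff n • x := by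
  letI := ZMod.algebra K ℓ
  have h1 : tenMap K ρ (a ⊗ₜ x) = coeffMap (algebraMap (ZMod ℓ) K) (ρ a) * HahnSeries.C x := by
    simp [tenMap, Algebra.TensorProduct.productMap_apply_tmul]
    rfl
  rw [h1, mul_comm, HahnSeries.C_mul_eq_smul, HahnSeries.coeff_smul, coeffMap_coeff,
    smul_eq_mul, Algebra.smul_def, mul_comm]

/-- Every tensor is a combination of basis vectors of `K` over `𝔽_ℓ` with coefficients in `A`. -/
theorem exists_finsupp_tensor {I : Type*} (b : letI := ZMod.algebra K ℓ; Module.Basis I (ZMod ℓ) K)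
    (z : A ⊗[Rl ℓ] K) : ∃ c : I →₀ A, z = c.sum fun i a => a ⊗ₜ[Rl ℓ] b i := by
  letI := ZMod.algebra K ℓ
  induction z using TensorProduct.induction_on with
  | zero => exact ⟨0, by simp⟩
  | tmul a x =>
    refine ⟨(b.repr x).mapRange (fun t => (t.val : A) * a) (by simp), ?_⟩
    rw [Finsupp.sum_mapRange_index (by simp)]
    conv_lhs => rw [← b.linearCombination_repr x, Finsupp.linearCombination_apply, Finsupp.sum,
      TensorProduct.tmul_sum]
    refine Finset.sum_congr rfl fun i _ => ?_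
    have h1 : ((b.repr x i).val : A) * a = (((b.repr x i).val : ℕ) : Rl ℓ) • a := by
      rw [Algebra.smul_def, map_natCast]
    have h2 : (b.repr x i) • b i = (((b.repr x i).val : ℕ) : Rl ℓ) • b i := by
      rw [Algebra.smul_def, Algebra.smul_def, map_natCast]
      congr 1
      conv_lhs => rw [← ZMod.natCast_zmod_val (b.repr x i), map_natCast]
    show a ⊗ₜ[Rl ℓ] ((b.repr x) i • b i) = (((b.repr x i).val : A) * a) ⊗ₜ[Rl ℓ] b i
    rw [h1, h2, TensorProduct.smul_tmul]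
  | add z w hz hw =>
    obtain ⟨c, rfl⟩ := hz
    obtain ⟨d, rfl⟩ := hw
    refine ⟨c + d, ?_⟩
    rw [Finsupp.sum_add_index' (by simp) (by intro i a a'; rw [TensorProduct.add_tmul])]

theorem tenMap_injective (ρ : A →+* LaurentSeries (ZMod ℓ))
    (hρ : ∀ a, ρ a = 0 → ∃ a', a = (ℓ : A) * a') : Function.Injective (tenMap K ρ) := by
  let _ := ZMod.algebra K ℓ
  rw [injective_iff_map_eq_zero]
  intro z hz
  let b := Module.Basis.ofVectorSpace (ZMod ℓ) K
  obtain ⟨c, rfl⟩ := exists_finsupp_tensor K b z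
  have hc : ∀ i, ρ (c i) = 0 := by
    intro i
    ext n
    have h1 := congrArg (fun s => HahnSeries.coeff s n) hz
    simp only [Finsupp.sum, map_sum, HahnSeries.coeff_zero] at h1
    rw [HahnSeries.coeff_sum] at h1
    simp only [tenMap_tmul_coeff] at h1
    have h2 : Finsupp.linearCombination (ZMod ℓ) b
        (c.mapRange (fun a => (ρ a).coeff n) (by simp)) = 0 := by
      rw [Finsupp.linearCombination_apply, Finsupp.sum_mapRange_index (by simp)]
      exact h1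
    have h3 := (linearIndependent_iff.mp b.linearIndependent) _ h2
    have h4 := DFunLike.congr_fun h3 i
    simpa using h4
  rw [Finsupp.sum]
  refine Finset.sum_eq_zero fun i _ => ?_
  obtain ⟨a', ha'⟩ := hρ _ (hc i)
  have h1 : c i = ((ℓ : ℕ) : Rl ℓ) • a' := by
    rw [ha', Algebra.smul_def, map_natCast]
  rw [h1, TensorProduct.smul_tmul, Algebra.smul_def, map_natCast, CharP.cast_eq_zero K ℓ, zero_mul,
    TensorProduct.tmul_zero]

/-- **[Ten]** -/
theorem isDomain_tensorK (ρ : A →+* LaurentSeries (ZMod ℓ))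
    (hρ : ∀ a, ρ a = 0 → ∃ a', a = (ℓ : A) * a') : IsDomain (A ⊗[Rl ℓ] K) :=
  (tenMap_injective K ρ hρ).isDomain (tenMap K ρ).toRingHom

theorem nontrivial_tensorK (ρ : A →+* LaurentSeries (ZMod ℓ)) : Nontrivial (A ⊗[Rl ℓ] K) :=
  (tenMap K ρ).toRingHom.domain_nontrivial

end Ten

end Fermat.Agent.S28
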