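import Mathlib

set_option autoImplicit false

namespace Fermat.Agent.S28

section W

variable {LR L Lam : Type*} [CommRing LR] [Field L] [Field Lam]
variable (ι : LR →+* L) (red : LR →+* Lam)

/-- `x : L` is a fraction `b / s` with `red s ≠ 0`, and `y = red b / red s`. -/
def WRel (x : L) (y : Lam) : Prop :=
  ∃ s b : LR, red s ≠ 0 ∧ ι s * x = ι b ∧ y * red s = red b

variable {ι red}

theorem WRel.unique (hι : Function.Injective ι) {x : L} {y y' : Lam}
    (h : WRel ι red x y) (h' : WRel ι red x y') : y = y' := by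
  obtain ⟨s, b, hs, hx, hy⟩ := h
  obtain ⟨s', b', hs', hx', hy'⟩ := h'
  have h1 : b * s' = b' * s := by
    apply hι
    rw [map_mul, map_mul, ← hx, ← hx']
    ring
  have h2 : red b * red s' = red b' * red s := by
    rw [← map_mul, ← map_mul, h1]
  rw [← hy, ← hy'] at h2
  have h3 : (y - y') * (red s * red s') = 0 := by linear_combination h2
  rcases mul_eq_zero.mp h3 with h4 | h4
  · exact sub_eq_zero.mp h4
  · exact absurd h4 (mul_ne_zero hs hs')

theorem WRel.of_int (b : LR) : WRel ι red (ι b) (red b) :=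
  ⟨1, b, by simp, by simp, by simp⟩

theorem WRel.add {x x' : L} {y y' : Lam} (h : WRel ι red x y) (h' : WRel ι red x' y') :
    WRel ι red (x + x') (y + y') := by
  obtain ⟨s, b, hs, hx, hy⟩ := h
  obtain ⟨s', b', hs', hx', hy'⟩ := h'
  refine ⟨s * s', b * s' + b' * s, by rw [map_mul]; exact mul_ne_zero hs hs', ?_, ?_⟩
  · simp only [map_mul, map_add, ← hx, ← hx']; ring
  · simp only [map_mul, map_add, ← hy, ← hy']; ring

theorem WRel.mul {x x' : L} {y y' : Lam} (h : WRel ι red x y) (h' : WRel ι red x' y') :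
    WRel ι red (x * x') (y * y') := by
  obtain ⟨s, b, hs, hx, hy⟩ := h
  obtain ⟨s', b', hs', hx', hy'⟩ := h'
  refine ⟨s * s', b * b', by rw [map_mul]; exact mul_ne_zero hs hs', ?_, ?_⟩
  · simp only [map_mul, ← hx, ← hx']; ring
  · simp only [map_mul, ← hy, ← hy']; ring

theorem WRel.neg {x : L} {y : Lam} (h : WRel ι red x y) : WRel ι red (-x) (-y) := by
  obtain ⟨s, b, hs, hx, hy⟩ := h
  exact ⟨s, -b, hs, by simp [← hx], by simp [← hy]⟩

theorem WRel.zero : WRel ι red 0 0 := by simpa using WRel.of_int (ι := ι) (red := red) 0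

theorem WRel.one : WRel ι red 1 1 := by simpa using WRel.of_int (ι := ι) (red := red) 1

variable (ι red)

/-- The localisation of `LR` at the kernel of `red`, realised inside `L`. -/
def Wring : Subring L where
  carrier := {x | ∃ y, WRel ι red x y}
  mul_mem' := fun ⟨_, h⟩ ⟨_, h'⟩ => ⟨_, h.mul h'⟩
  one_mem' := ⟨1, WRel.one⟩
  add_mem' := fun ⟨_, h⟩ ⟨_, h'⟩ => ⟨_, h.add h'⟩
  zero_mem' := ⟨0, WRel.zero⟩
  neg_mem' := fun ⟨_, h⟩ => ⟨_, h.neg⟩

theorem mem_Wring_iff {x : L} : x ∈ Wring ι red ↔ ∃ y, WRel ι red x y := Iff.rfl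

theorem ι_mem_Wring (b : LR) : ι b ∈ Wring ι red := ⟨_, WRel.of_int b⟩

/-- The reduction homomorphism on `Wring`. -/
noncomputable def rhoW (hι : Function.Injective ι) : Wring ι red →+* Lam where
  toFun x := Classical.choose x.2
  map_one' := (Classical.choose_spec (1 : Wring ι red).2).unique hι WRel.one
  map_mul' x y := (Classical.choose_spec (x * y).2).unique hι
    ((Classical.choose_spec x.2).mul (Classical.choose_spec y.2))
  map_zero' := (Classical.choose_spec (0 : Wring ι red).2).unique hι WRel.zero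
  map_add' x y := (Classical.choose_spec (x + y).2).unique hι
    ((Classical.choose_spec x.2).add (Classical.choose_spec y.2))

theorem rhoW_spec (hι : Function.Injective ι) (x : Wring ι red) :
    WRel ι red (x : L) (rhoW ι red hι x) := Classical.choose_spec x.2

theorem rhoW_eq_of_rel (hι : Function.Injective ι) (x : Wring ι red) {y : Lam}
    (h : WRel ι red (x : L) y) : rhoW ι red hι x = y :=
  (rhoW_spec ι red hι x).unique hι h

theorem rhoW_ι (hι : Function.Injective ι) (b : LR) :
    rhoW ι red hι ⟨ι b, ι_mem_Wring ι red b⟩ = red b :=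
  rhoW_eq_of_rel ι red hι _ (WRel.of_int b)

theorem mem_Wring_of_mul_eq {x : L} {s b : LR} (hs : red s ≠ 0) (h : ι s * x = ι b) :
    x ∈ Wring ι red :=
  ⟨red b / red s, s, b, hs, h, div_mul_cancel₀ _ hs⟩

theorem rhoW_mul_red (hι : Function.Injective ι) (x : Wring ι red) {s b : LR} (hs : red s ≠ 0)
    (h : ι s * (x : L) = ι b) : rhoW ι red hι x * red s = red b := by
  rw [rhoW_eq_of_rel ι red hι x ⟨s, b, hs, h, div_mul_cancel₀ _ hs⟩, div_mul_cancel₀ _ hs]

end W

end Fermat.Agent.S28
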