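import Fermat.Statements.S28
import Fermat.Agent.S28.W
import Fermat.Agent.S28.Ten

set_option autoImplicit false

namespace Fermat.Agent.S28

open ModularCurve Polynomial

/-- evaluation of an integer polynomial -/
noncomputable def evZ {B : Type*} [CommRing B] (x : B) (p : ℤ[X]) : B :=
  p.eval₂ (Int.castRingHom B) x

theorem map_evZ {B B' : Type*} [CommRing B] [CommRing B'] (f : B →+* B') (x : B) (p : ℤ[X]) :
    f (evZ x p) = evZ (f x) p := by
  rw [evZ, evZ, Polynomial.hom_eval₂]
  congr 1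
  exact RingHom.ext_int _ _

theorem evZ_mul {B : Type*} [CommRing B] (x : B) (p q : ℤ[X]) :
    evZ x (p * q) = evZ x p * evZ x q := Polynomial.eval₂_mul _ _

theorem evZ_C {B : Type*} [CommRing B] (x : B) (a : ℤ) : evZ x (C a) = (a : B) := by
  rw [evZ, Polynomial.eval₂_C]; rfl

theorem evZ_eq_eval₂_map {k B : Type*} [CommRing k] [CommRing B] (g : k →+* B) (x : B) (p : ℤ[X]) :
    evZ x p = (p.map (Int.castRingHom k)).eval₂ g x := by
  rw [evZ, Polynomial.eval₂_map]
  congr 1
  exact RingHom.ext_int _ _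

/-- `j` is transcendental: a polynomial relation forces the polynomial to vanish. -/
theorem eval₂_jqModC_eq_zero {A : Type*} [CommRing A] (p : A[X])
    (h : p.eval₂ HahnSeries.C (jqModC A) = 0) : p = 0 := by
  by_contra hp
  have h1 := congrArg (fun s => HahnSeries.coeff s (-(p.natDegree : ℤ))) h
  simp only [HahnSeries.coeff_zero] at h1
  rw [Polynomial.eval₂_eq_sum_range, HahnSeries.coeff_sum] at h1
  rw [Finset.sum_eq_single p.natDegree] at h1
  · rw [HahnSeries.C_mul_eq_smul, HahnSeries.coeff_smul, coeff_jqModC_pow_self, smul_eq_mul,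
      mul_one] at h1
    exact hp (Polynomial.leadingCoeff_eq_zero.mp h1)
  · intro i hi hne
    have hlt : i < p.natDegree := lt_of_le_of_ne (Nat.lt_succ_iff.mp (Finset.mem_range.mp hi)) hne
    rw [HahnSeries.C_mul_eq_smul, HahnSeries.coeff_smul,
      coeff_jqModC_pow_of_lt A (by exact_mod_cast neg_lt_neg (Int.ofNat_lt.mpr hlt)), smul_zero]
  · intro hn
    exact absurd (Finset.mem_range.mpr (Nat.lt_succ_self _)) hn

variable (ℓ : ℕ) [Fact ℓ.Prime]

noncomputable def iotaR : LaurentSeries (Rl ℓ) →+* LaurentSeries ℚ :=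
  coeffMap (algebraMap (Rl ℓ) ℚ)

noncomputable def redR : LaurentSeries (Rl ℓ) →+* LaurentSeries (ZMod ℓ) :=
  coeffMap (resid ℓ)

theorem iotaR_injective : Function.Injective (iotaR ℓ) := by
  intro x y h
  apply HahnSeries.ext
  funext n
  have := congrArg (fun s => HahnSeries.coeff s n) h
  simp only [iotaR, coeffMap_coeff] at this
  exact Subtype.ext this

@[simp] theorem iotaR_jq : iotaR ℓ (jqModC (Rl ℓ)) = jq := by
  rw [iotaR, coeffMap_jqModC]; rfl

@[simp] theorem redR_jq : redR ℓ (jqModC (Rl ℓ)) = jqModC (ZMod ℓ) := by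
  rw [redR, coeffMap_jqModC]

/-- The kernel of `redR` is generated by `ℓ`. -/
theorem exists_eq_mul_of_redR_eq_zero (x : LaurentSeries (Rl ℓ)) (h : redR ℓ x = 0) :
    ∃ y : LaurentSeries (Rl ℓ), x = (ℓ : LaurentSeries (Rl ℓ)) * y := by
  have h1 : ∀ n, ∃ y : Rl ℓ, x.coeff n = (ℓ : Rl ℓ) * y := by
    intro n
    apply exists_eq_mul_of_residK_eq_zero ℓ (K := ZMod ℓ)
    have := congrArg (fun s => HahnSeries.coeff s n) h
    simpa [redR] using this
  choose y hy using h1
  have hℓ : (ℓ : Rl ℓ) ≠ 0 := by exact_mod_cast (Fact.out : ℓ.Prime).ne_zero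
  have hsupp : (Function.support y) ⊆ x.support := by
    intro n hn
    simp only [Function.mem_support, HahnSeries.mem_support] at hn ⊢
    rw [hy n]
    exact mul_ne_zero hℓ hn
  refine ⟨⟨y, x.isPWO_support.mono hsupp⟩, ?_⟩
  apply HahnSeries.ext
  funext n
  have : (ℓ : LaurentSeries (Rl ℓ)) = HahnSeries.C (ℓ : Rl ℓ) := by simp
  rw [this, HahnSeries.C_mul_eq_smul, HahnSeries.coeff_smul, smul_eq_mul]
  exact hy n

noncomputable abbrev WW : Subring (LaurentSeries ℚ) := Wring (iotaR ℓ) (redR ℓ)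

noncomputable abbrev rho : WW ℓ →+* LaurentSeries (ZMod ℓ) :=
  rhoW (iotaR ℓ) (redR ℓ) (iotaR_injective ℓ)

end Fermat.Agent.S28
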