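import Fermat.Statements.S28

set_option autoImplicit false
noncomputable section
open Polynomial ModularCurve ModularCurve.IgusaScheme

namespace Fermat.Agent.S28

/-- The ring `ℤ_(ℓ)`. -/
abbrev Rl (ℓ : ℕ) : Type := ↥(GaloisRep.ratLocalizedAt ℓ)

/-- Complex numbers integral over `ℤ[1/N]`. -/
def NInt (N : ℕ) : Subring ℂ where
  carrier := {x | ∃ m : ℕ, IsIntegral ℤ ((N : ℂ) ^ m * x)}
  mul_mem' := by
    rintro a b ⟨m, hm⟩ ⟨m', hm'⟩
    refine ⟨m + m', ?_⟩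
    have : (N : ℂ) ^ (m + m') * (a * b) = ((N : ℂ) ^ m * a) * ((N : ℂ) ^ m' * b) := by ring
    rw [this]; exact hm.mul hm'
  one_mem' := ⟨0, by simpa using isIntegral_one⟩
  add_mem' := by
    rintro a b ⟨m, hm⟩ ⟨m', hm'⟩
    refine ⟨m + m', ?_⟩
    have : (N : ℂ) ^ (m + m') * (a + b) =
        (N : ℂ) ^ m' * ((N : ℂ) ^ m * a) + (N : ℂ) ^ m * ((N : ℂ) ^ m' * b) := by ring
    rw [this]
    have hN : IsIntegral ℤ (N : ℂ) := by
      have := isIntegral_algebraMap (R := ℤ) (A := ℂ) (x := (N : ℤ))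
      simpa using this
    exact ((hN.pow m').mul hm).add ((hN.pow m).mul hm')
  zero_mem' := ⟨0, by simpa using isIntegral_zero⟩
  neg_mem' := by
    rintro a ⟨m, hm⟩
    exact ⟨m, by rw [mul_neg]; exact hm.neg⟩

/-- `j(t^N)` as a Laurent series in `t = q^{1/N}` over `ℂ`. -/
def jN (N : ℕ) [NeZero N] : LaurentSeries ℂ := qExpand ℂ N (jqModC ℂ)

/-- Image of an integral Laurent series in any coefficient ring. -/
abbrev castLS (A : Type*) [CommRing A] (u : LaurentSeries ℤ) : LaurentSeries A :=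
  coeffMap (Int.castRingHom A) u

/-- The interface between the analytic core and the formal part: `U c` are the `t`-expansions
(`t = q^{1/N}`) of the conjugates of a modular unit `u` having its only zero at the cusp `∞`;
`H d c` are the expansions of the conjugates of `j(dτ)`. -/
structure IsRootFamily (N : ℕ) [NeZero N] (u : LaurentSeries ℤ) {ι : Type} [Fintype ι]
    [DecidableEq ι] (c₀ : ι) (U : ι → LaurentSeries ℂ) (H : ℕ → ι → LaurentSeries ℂ) : Prop where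
  U_c₀ : U c₀ = qExpand ℂ N (castLS ℂ u)
  U_ne : ∀ c, U c ≠ 0
  U_int : ∀ c k, (U c).coeff k ∈ NInt N
  Uinv_int : ∀ c k, ((U c)⁻¹).coeff k ∈ NInt N
  order_neg : ∀ c, c ≠ c₀ → (U c).order < 0
  charpoly_coeff : ∀ i, ∃ P : ℂ[X], (∏ c, (X - C (U c))).coeff i = aeval (jN N) P
  prod_inv : ∃ P : ℂ[X], ∏ c, (U c)⁻¹ = aeval (jN N) P
  H_c₀ : ∀ (d : ℕ) [NeZero d], d ∣ N → H d c₀ = qExpand ℂ N (qExpand ℂ d (jqModC ℂ))
  lagrange_coeff : ∀ d, d ∣ N → ∀ i, ∃ P : ℂ[X],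
    (∑ c, C (H d c) * ∏ c' ∈ Finset.univ.erase c, (X - C (U c'))).coeff i = aeval (jN N) P

/-- Integrality over `ℤ_(ℓ)[t]` inside `ℚ((q))`. -/
def IntOver (ℓ : ℕ) (t y : LaurentSeries ℚ) : Prop :=
  ((aeval t : (Rl ℓ)[X] →ₐ[Rl ℓ] LaurentSeries ℚ) : (Rl ℓ)[X] →+* LaurentSeries ℚ).IsIntegralElem y

/-- The formal core: what the commutative algebra part needs. -/
structure IsCore (N : ℕ) [NeZero N] (ℓ : ℕ) [Fact ℓ.Prime] (n : ℕ) (u : LaurentSeries ℤ) :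
    Prop where
  integral : IntOver ℓ jq (castLS ℚ u)
  span : ∀ y ∈ modularFunctionFieldFull N, ∃ (g : (Rl ℓ)[X]) (f : Fin n → (Rl ℓ)[X]), g ≠ 0 ∧
    aeval jq g * y = ∑ i, aeval jq (f i) * castLS ℚ u ^ (i : ℕ)
  indep : ∀ f : Fin n → (ZMod ℓ)[X],
    ∑ i, aeval (jqModC (ZMod ℓ)) (f i) * castLS (ZMod ℓ) u ^ (i : ℕ) = 0 → ∀ i, f i = 0

end Fermat.Agent.S28
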