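import Fermat.Agent.S28.RlExt
import Fermat.Agent.S28.Irr

set_option autoImplicit false
noncomputable section
open Polynomial ModularCurve IntermediateField

namespace Fermat.Agent.S28

section Theta
variable (N : ℕ) [NeZero N]

/-- `ℚ((q)) → ℂ((t))`, `q ↦ t^N`. -/
def theta : LaurentSeries ℚ →+* LaurentSeries ℂ :=
  (qExpand ℂ N).comp (coeffMap (algebraMap ℚ ℂ))

theorem theta_apply (x : LaurentSeries ℚ) :
    theta N x = qExpand ℂ N (coeffMap (algebraMap ℚ ℂ) x) := rfl

theorem theta_injective : Function.Injective (theta N) := (theta N).injective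

theorem theta_jq : theta N jq = jN N := by
  rw [theta_apply, ← jqModC_rat, coeffMap_jqModC, jN]

theorem theta_castLS (u : LaurentSeries ℤ) :
    theta N (castLS ℚ u) = qExpand ℂ N (castLS ℂ u) := by
  rw [theta_apply, coeffMap_castLS]

theorem theta_jd (d : ℕ) [NeZero d] :
    theta N (qExpand ℚ d jq) = qExpand ℂ N (qExpand ℂ d (jqModC ℂ)) := by
  rw [theta_apply, coeffMap_qExpand, ← jqModC_rat, coeffMap_jqModC]

end Theta



theorem coeff_smul_LS {k : Type*} [Field k] (c : k) (x : LaurentSeries k) (m : ℤ) :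
    (algebraMap k (LaurentSeries k) c * x).coeff m = c * x.coeff m := by
  rw [algebraMap_laurentSeries_eq_single, HahnSeries.coeff_single_mul, sub_zero]

theorem coeff_aeval_jqModC (k : Type*) [Field k] (P : k[X]) :
    (aeval (jqModC k) P).coeff (-(P.natDegree : ℤ)) = P.leadingCoeff := by
  rw [aeval_eq_sum_range, HahnSeries.coeff_sum, Finset.sum_eq_single P.natDegree]
  · rw [Algebra.smul_def, coeff_smul_LS, coeff_jqModC_pow_self, mul_one, leadingCoeff]
  · intro i hi hne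
    rw [Algebra.smul_def, coeff_smul_LS, coeff_jqModC_pow_of_lt, mul_zero]
    have : i < P.natDegree := lt_of_le_of_ne (Nat.lt_succ_iff.mp (Finset.mem_range.mp hi)) hne
    omega
  · intro h
    exact absurd (Finset.mem_range.mpr (Nat.lt_succ_self _)) h

theorem aeval_jqModC_injective (k : Type*) [Field k] :
    Function.Injective (aeval (jqModC k) : k[X] → LaurentSeries k) := by
  rw [injective_iff_map_eq_zero]
  intro P hP
  have := coeff_aeval_jqModC k P
  rw [hP, HahnSeries.coeff_zero] at this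
  exact leadingCoeff_eq_zero.mp this.symm

theorem aeval_qExpand (k : Type*) [Field k] (N : ℕ) [NeZero N] (x : LaurentSeries k) (P : k[X]) :
    aeval (qExpand k N x) P = qExpand k N (aeval x P) := by
  have := Polynomial.aeval_algHom_apply (qExpandAlgHomC k N) x P
  simpa using this

theorem aeval_qExpand_jqModC_injective (k : Type*) [Field k] (N : ℕ) [NeZero N] :
    Function.Injective (aeval (qExpand k N (jqModC k)) : k[X] → LaurentSeries k) := by
  intro P Q h
  rw [aeval_qExpand, aeval_qExpand] at h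
  exact aeval_jqModC_injective k (qExpand_injective N h)



section Abstract
variable {k 𝕃 : Type*} [Field k] [Field 𝕃] [Algebra k 𝕃]

/-- `z` lies in `∑_{i<n} k(J) U^i`, with cleared denominators -/
def InSpan (J U : 𝕃) (n : ℕ) (z : 𝕃) : Prop :=
  ∃ (g : k[X]) (f : Fin n → k[X]), aeval J g ≠ 0 ∧
    aeval J g * z = ∑ i, aeval J (f i) * U ^ (i : ℕ)

theorem exists_frac_of_mem_adjoin_simple {J x : 𝕃} (hx : x ∈ k⟮J⟯) :
    ∃ a b : k[X], aeval J b ≠ 0 ∧ aeval J b * x = aeval J a := by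
  obtain ⟨r, s, rfl⟩ := (IntermediateField.mem_adjoin_simple_iff k x).mp hx
  by_cases hs : aeval J s = 0
  · exact ⟨0, 1, by simp, by simp [hs]⟩
  · exact ⟨r, s, hs, by field_simp⟩

theorem inSpan_of_mem_adjoin {J U : 𝕃} {n : ℕ} (Ψ : 𝕃[X]) (hmonic : Ψ.Monic)
    (hdeg : Ψ.natDegree = n) (hroot : Ψ.eval U = 0)
    (hcoeff : ∀ i, Ψ.coeff i ∈ k⟮J⟯) {z : 𝕃} (hz : z ∈ (k⟮J⟯)⟮U⟯) : InSpan (k := k) J U n z := by
  classical
  have hlifts : Ψ ∈ Polynomial.lifts (algebraMap k⟮J⟯ 𝕃) :=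
    (Polynomial.lifts_iff_coeff_lifts Ψ).mpr fun i => ⟨⟨Ψ.coeff i, hcoeff i⟩, rfl⟩
  obtain ⟨Ψ₁, hΨ₁, hdeg₁, hmonic₁⟩ := Polynomial.lifts_and_natDegree_eq_and_monic hlifts hmonic
  have hroot₁ : aeval U Ψ₁ = 0 := by
    rw [aeval_def, eval₂_eq_eval_map, hΨ₁, hroot]
  have hint : IsIntegral k⟮J⟯ U := ⟨Ψ₁, hmonic₁, by rw [← aeval_def]; exact hroot₁⟩
  have hz' : z ∈ Algebra.adjoin k⟮J⟯ {U} := by
    rw [← IntermediateField.adjoin_simple_toSubalgebra_of_isAlgebraic hint.isAlgebraic]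
    exact hz
  rw [Algebra.adjoin_singleton_eq_range_aeval] at hz'
  obtain ⟨p, rfl⟩ := hz'
  set r := p %ₘ Ψ₁ with hr
  have hval : aeval U p = aeval U r := by
    rw [hr]
    exact (aeval_modByMonic_eq_self_of_root hroot₁).symm
  have hrdeg : r.degree < (n : WithBot ℕ) := by
    have := Polynomial.degree_modByMonic_lt p hmonic₁
    rwa [Polynomial.degree_eq_natDegree hmonic₁.ne_zero, hdeg₁, hdeg] at this
  have hsum : aeval U r = ∑ i : Fin n, (r.coeff i : 𝕃) * U ^ (i : ℕ) := by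
    have hnpos : 0 < n := by
      rcases Nat.eq_zero_or_pos n with h0 | h0
      · exfalso
        rw [h0] at hdeg
        rw [Polynomial.eq_one_of_monic_natDegree_zero hmonic hdeg] at hroot
        simp at hroot
      · exact h0
    rw [aeval_eq_sum_range' (n := n) (by
      rcases eq_or_ne r 0 with h0 | h0
      · rw [h0]; simpa using hnpos
      · exact (Polynomial.natDegree_lt_iff_degree_lt h0).mpr hrdeg),
      Finset.sum_range]
    refine Finset.sum_congr rfl fun i _ => ?_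
    rw [Algebra.smul_def]; rfl
  choose a b hb hab using fun i : Fin n => exists_frac_of_mem_adjoin_simple (r.coeff i).2
  refine ⟨∏ i, b i, fun i => a i * ∏ m ∈ Finset.univ.erase i, b m, ?_, ?_⟩
  · rw [map_prod]; exact Finset.prod_ne_zero_iff.mpr fun i _ => hb i
  · show _ * aeval U p = _
    rw [hval, hsum, Finset.mul_sum]
    refine Finset.sum_congr rfl fun i _ => ?_
    rw [← Finset.mul_prod_erase Finset.univ b (Finset.mem_univ i), map_mul, map_mul, ← hab i]
    ring

end Abstract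


section Abstract2
variable {k 𝕃 : Type*} [Field k] [Field 𝕃] [Algebra k 𝕃]
variable {ι : Type*} [Fintype ι] [DecidableEq ι]

theorem eval_lagrange (U h : ι → 𝕃) (c₀ : ι) :
    (∑ c, C (h c) * ∏ c' ∈ Finset.univ.erase c, (X - C (U c'))).eval (U c₀) =
      h c₀ * ∏ c' ∈ Finset.univ.erase c₀, (U c₀ - U c') := by
  rw [eval_finsetSum, Finset.sum_eq_single c₀]
  · simp [eval_prod]
  · intro c _ hc
    rw [eval_mul, eval_prod, Finset.prod_eq_zero (i := c₀)]
    · simp
    · exact Finset.mem_erase.mpr ⟨hc.symm, Finset.mem_univ _⟩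
    · simp
  · intro h; exact absurd (Finset.mem_univ _) h

theorem eval_mem_adjoin_of_coeff_mem (K₁ : IntermediateField k 𝕃) (U₀ : 𝕃) (p : 𝕃[X])
    (hp : ∀ i, p.coeff i ∈ K₁) : p.eval U₀ ∈ K₁⟮U₀⟯ := by
  rw [eval_eq_sum_range]
  refine sum_mem fun i _ => mul_mem ?_ (pow_mem (mem_adjoin_simple_self K₁ U₀) i)
  exact (K₁⟮U₀⟯).algebraMap_mem (⟨p.coeff i, hp i⟩ : K₁)

theorem mem_adjoin_of_lagrange (K₁ : IntermediateField k 𝕃) (U h : ι → 𝕃) (c₀ : ι)
    (hne : ∀ c, c ≠ c₀ → U c ≠ U c₀)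
    (hΨ : ∀ i, (∏ c, (X - C (U c))).coeff i ∈ K₁)
    (hG : ∀ i, (∑ c, C (h c) * ∏ c' ∈ Finset.univ.erase c, (X - C (U c'))).coeff i ∈ K₁) :
    h c₀ ∈ K₁⟮U c₀⟯ := by
  set D := ∏ c' ∈ Finset.univ.erase c₀, (U c₀ - U c') with hD
  have hD0 : D ≠ 0 := Finset.prod_ne_zero_iff.mpr fun c hc =>
    sub_ne_zero.mpr (hne c (Finset.mem_erase.mp hc).1).symm
  have h1 : h c₀ * D ∈ K₁⟮U c₀⟯ := by
    rw [hD, ← eval_lagrange U h c₀]
    exact eval_mem_adjoin_of_coeff_mem K₁ _ _ hG
  have h2 : D ∈ K₁⟮U c₀⟯ := by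
    have hder : (derivative (∏ c, (X - C (U c)))).eval (U c₀) = D := by
      rw [derivative_prod_finset]
      have := eval_lagrange U (fun _ => (1 : 𝕃)) c₀
      simp only [map_one, one_mul] at this
      rw [hD, ← this]
      congr 1
      refine Finset.sum_congr rfl fun c _ => ?_
      simp
    rw [← hder]
    refine eval_mem_adjoin_of_coeff_mem K₁ _ _ fun i => ?_
    rw [coeff_derivative]
    refine mul_mem (hΨ _) ?_
    have : ((i : 𝕃) + 1) = algebraMap k 𝕃 ((i : k) + 1) := by simp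
    rw [this]
    exact K₁.algebraMap_mem _
  have : h c₀ = h c₀ * D * D⁻¹ := by field_simp
  rw [this]
  exact mul_mem h1 (inv_mem h2)

end Abstract2
end Fermat.Agent.S28
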