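import Fermat.Agent.S28.Alg
import Fermat.Agent.S28.RlExt

set_option autoImplicit false

namespace Fermat.Agent.S28

open ModularCurve ModularCurve.IgusaScheme Polynomial TensorProduct

variable {N : ℕ} [NeZero N] {ℓ : ℕ} [Fact ℓ.Prime]

theorem iotaR_castLS (u : LaurentSeries ℤ) : iotaR ℓ (castLS (Rl ℓ) u) = castLS ℚ u := by
  rw [iotaR, castLS, castLS, coeffMap_coeffMap]
  exact coeffMap_congr (RingHom.ext_int _ _) u

theorem redR_castLS (u : LaurentSeries ℤ) : redR ℓ (castLS (Rl ℓ) u) = castLS (ZMod ℓ) u := by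
  rw [redR, castLS, castLS, coeffMap_coeffMap]
  exact coeffMap_congr (RingHom.ext_int _ _) u

/-- `aeval jq` on `ℤ_(ℓ)[X]` is `iotaR ∘ eval₂ C j`. -/
theorem aeval_jq_eq :
    ((aeval jq : (Rl ℓ)[X] →ₐ[Rl ℓ] LaurentSeries ℚ) : (Rl ℓ)[X] →+* LaurentSeries ℚ) =
      (iotaR ℓ).comp (Polynomial.eval₂RingHom HahnSeries.C (jqModC (Rl ℓ))) := by
  apply Polynomial.ringHom_ext
  · intro r
    exact DFunLike.congr_fun (Rl.ringHom_eq ℓ
      (((aeval jq : (Rl ℓ)[X] →ₐ[Rl ℓ] LaurentSeries ℚ) : (Rl ℓ)[X] →+*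
        LaurentSeries ℚ).comp Polynomial.C)
      (((iotaR ℓ).comp (Polynomial.eval₂RingHom HahnSeries.C (jqModC (Rl ℓ)))).comp
          Polynomial.C)) r
  · simp

/-- clearing denominators of one polynomial -/
theorem exists_int_mul (p : (Rl ℓ)[X]) : ∃ d : ℤ, d ≠ 0 ∧ ∃ e : ℤ[X],
    e.map (Int.castRingHom (Rl ℓ)) = C (d : Rl ℓ) * p := by
  obtain ⟨b, hb₁, hb₂⟩ := IsLocalization.integerNormalization_spec (nonZeroDivisors ℤ)
    (p.map (algebraMap (Rl ℓ) ℚ))
  refine ⟨b, nonZeroDivisors.ne_zero hb₁, IsLocalization.integerNormalization (nonZeroDivisors ℤ)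
    (p.map (algebraMap (Rl ℓ) ℚ)), ?_⟩
  apply Polynomial.map_injective (algebraMap (Rl ℓ) ℚ) Subtype.val_injective
  rw [Polynomial.map_map, Polynomial.map_mul, Polynomial.map_C]
  have h : (algebraMap (Rl ℓ) ℚ).comp (Int.castRingHom (Rl ℓ)) = algebraMap ℤ ℚ :=
    RingHom.ext_int _ _
  rw [h, hb₂, map_intCast, ← Polynomial.smul_eq_C_mul, Int.cast_smul_eq_zsmul]

/-- evaluation of an integral polynomial, via `ℤ_(ℓ)[X]` -/
theorem aeval_jq_map (e : ℤ[X]) :
    aeval jq (e.map (Int.castRingHom (Rl ℓ))) = evZ jq e := by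
  rw [aeval_def, Polynomial.eval₂_map, evZ]
  congr 1
  exact RingHom.ext_int _ _

theorem AlgInput.of_isCore {n : ℕ} {u : LaurentSeries ℤ} (h : IsCore N ℓ n u) :
    AlgInput N ℓ n (castLS (Rl ℓ) u) where
  h1 := by
    obtain ⟨χ, hχ, hχu⟩ := h.integral
    refine ⟨χ, hχ, iotaR_injective ℓ ?_⟩
    rw [map_zero, Polynomial.hom_eval₂, iotaR_castLS, ← aeval_jq_eq]
    exact hχu
  h2 := by
    intro y hy
    obtain ⟨g, f, hg, hgf⟩ := h.span y hy
    obtain ⟨d0, hd0, e0, he0⟩ := exists_int_mul g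
    choose d hd e he using fun i => exists_int_mul (f i)
    refine ⟨C (∏ i, d i) * e0, ?_, fun i => C (d0 * ∏ j ∈ Finset.univ.erase i, d j) * e i, ?_⟩
    · refine mul_ne_zero (Polynomial.C_ne_zero.mpr (Finset.prod_ne_zero_iff.mpr fun i _ => hd i)) ?_
      rintro rfl
      rw [Polynomial.map_zero] at he0
      have hd0' : (C (d0 : Rl ℓ) : (Rl ℓ)[X]) ≠ 0 :=
        Polynomial.C_ne_zero.mpr (by exact_mod_cast hd0)
      exact mul_ne_zero hd0' hg he0.symm
    · have hD : ∀ i, d0 * ∏ j, d j = (d0 * ∏ j ∈ Finset.univ.erase i, d j) * d i := by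
        intro i
        rw [mul_assoc, Finset.prod_erase_mul _ _ (Finset.mem_univ i)]
      have e1 : evZ jq (C (∏ i, d i) * e0) =
          ((d0 * ∏ j, d j : ℤ) : LaurentSeries ℚ) * aeval jq g := by
        rw [evZ_mul, evZ_C, ← aeval_jq_map (ℓ := ℓ) e0, he0, map_mul, aeval_C, map_intCast]
        push_cast
        ring
      have e2 : ∀ i, evZ jq (C (d0 * ∏ j ∈ Finset.univ.erase i, d j) * e i) =
          ((d0 * ∏ j, d j : ℤ) : LaurentSeries ℚ) * aeval jq (f i) := by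
        intro i
        rw [evZ_mul, evZ_C, ← aeval_jq_map (ℓ := ℓ) (e i), he i, map_mul, aeval_C, map_intCast,
          hD i]
        push_cast
        ring
      rw [e1, mul_assoc, hgf, Finset.mul_sum]
      refine Finset.sum_congr rfl fun i _ => ?_
      rw [e2 i, iotaR_castLS, mul_assoc]
  h3 := by
    intro b hb
    apply h.indep b
    rw [← hb, redR_castLS]
    refine Finset.sum_congr rfl fun i _ => ?_
    rw [aeval_def, Subsingleton.elim (algebraMap (ZMod ℓ) (LaurentSeries (ZMod ℓ))) HahnSeries.C]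

theorem coe_chartToW {n : ℕ} {u : LaurentSeries (Rl ℓ)} (H : AlgInput N ℓ n u) {S : Set (FF N)}
    (hS : S ⊆ {jFull N, (jFull N)⁻¹}) (x : chartAlg N ℓ S) :
    ((chartToW H hS x : WW ℓ) : LaurentSeries ℚ) = ((x : FF N) : LaurentSeries ℚ) := rfl

theorem chartRho_chartIncl {n : ℕ} {u : LaurentSeries (Rl ℓ)} (H : AlgInput N ℓ n u)
    {S : Set (FF N)} (hS : S ⊆ {jFull N, (jFull N)⁻¹}) (a : chartAlg N ℓ S) :
    chartRho H (subset_refl _) (chartIncl N ℓ hS a) = chartRho H hS a := by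
  have h : chartToW H (subset_refl _) (chartIncl N ℓ hS a) = chartToW H hS a := by
    apply Subtype.ext
    rw [coe_chartToW, coe_chartToW, coe_chartIncl]
  rw [chartRho, chartRho, RingHom.comp_apply, RingHom.comp_apply, h]

/-- **[Alg]** the reduction map on the charts, with kernel generated by `ℓ`. -/
theorem exists_reduction (N : ℕ) [NeZero N] (ℓ : ℕ) [Fact ℓ.Prime] (n : ℕ) (u : LaurentSeries ℤ)
    (h : IsCore N ℓ n u) :
    ∃ ρ : chartAlgMid N ℓ →+* LaurentSeries (ZMod ℓ),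
      (∀ a : chartAlgFin N ℓ, ρ (inclFin N ℓ a) = 0 → ∃ a', a = (ℓ : chartAlgFin N ℓ) * a') ∧
      (∀ a : chartAlgInf N ℓ, ρ (inclInf N ℓ a) = 0 → ∃ a', a = (ℓ : chartAlgInf N ℓ) * a') := by
  have H := AlgInput.of_isCore h
  refine ⟨chartRho H (subset_refl _), fun a ha => ?_, fun a ha => ?_⟩
  · rw [chartRho_chartIncl] at ha
    exact fin_div H a ha
  · rw [chartRho_chartIncl] at ha
    exact inf_div H a ha

end Fermat.Agent.S28
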