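import Fermat.Agent.S28.Defs

set_option autoImplicit false
noncomputable section
open Polynomial

namespace Fermat.Agent.S28

variable (ℓ : ℕ) [Fact ℓ.Prime]

theorem Rl.den_ne_zero (x : Rl ℓ) : ((x : ℚ).den : ZMod ℓ) ≠ 0 := by
  have hx : (x : ℚ).den.Coprime ℓ := x.2
  rw [Ne, ZMod.natCast_eq_zero_iff]
  intro h
  have := Nat.Coprime.eq_one_of_dvd hx.symm h
  exact (Fact.out : ℓ.Prime).one_lt.ne' this

/-- Reduction `ℤ_(ℓ) → 𝔽_ℓ`. -/
def red : Rl ℓ →+* ZMod ℓ where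
  toFun x := ((x : ℚ) : ZMod ℓ)
  map_one' := by simp
  map_zero' := by simp
  map_mul' x y := by
    simpa using Rat.cast_mul_of_ne_zero (Rl.den_ne_zero ℓ x) (Rl.den_ne_zero ℓ y)
  map_add' x y := by
    simpa using Rat.cast_add_of_ne_zero (Rl.den_ne_zero ℓ x) (Rl.den_ne_zero ℓ y)

theorem red_apply (x : Rl ℓ) : red ℓ x = ((x : ℚ) : ZMod ℓ) := rfl

end Fermat.Agent.S28
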