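import Fermat.Agent.S28.Desc

set_option autoImplicit false
noncomputable section
open Polynomial ModularCurve IntermediateField

namespace Fermat.Agent.S28


section Fam
variable {N : ℕ} [NeZero N] {u : LaurentSeries ℤ} {ι : Type} [Fintype ι] [DecidableEq ι]
  {c₀ : ι} {U : ι → LaurentSeries ℂ} {H : ℕ → ι → LaurentSeries ℂ}

theorem IsRootFamily.U_ne_U_base (h : IsRootFamily N u c₀ U H) (c : ι) (hc : c ≠ c₀) :
    U c ≠ U c₀ := by
  intro heq
  have hneg : ∀ c', (U c').order < 0 := by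
    intro c'
    by_cases h' : c' = c₀
    · rw [h', ← heq]; exact h.order_neg c hc
    · exact h.order_neg c' h'
  have h1 := order_multiset_prod_le (Finset.univ.val.map U) (by
    intro r hr
    obtain ⟨c', -, rfl⟩ := Multiset.mem_map.mp hr
    exact ⟨h.U_ne c', hneg c'⟩)
  have hprod : (Finset.univ.val.map U).prod = ∏ c', U c' := rfl
  rw [hprod] at h1
  have hcard : (1 : ℤ) ≤ (Multiset.card (Finset.univ.val.map U) : ℤ) := by
    rw [Multiset.card_map]
    have : 0 < Fintype.card ι := Fintype.card_pos_iff.mpr ⟨c₀⟩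
    exact_mod_cast this
  obtain ⟨P₀, hP₀⟩ := h.charpoly_coeff 0
  obtain ⟨P', hP'⟩ := h.prod_inv
  have h2 : ∏ c', U c' = aeval (jN N) ((-1) ^ Fintype.card ι * P₀) := by
    rw [map_mul, ← hP₀, coeff_zero_eq_eval_zero, eval_prod]
    simp only [eval_sub, eval_X, eval_C, zero_sub, map_pow, map_neg, map_one]
    have hn : ∀ x, -U x = (-1) * U x := fun x => by ring
    simp_rw [hn]
    rw [Finset.prod_mul_distrib, Finset.prod_const, Finset.card_univ, ← mul_assoc, ← mul_pow]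
    have h11 : ((-1 : LaurentSeries ℂ) * -1) = 1 := by ring
    rw [h11, one_pow, one_mul]
  have h3 : (∏ c', U c') * ∏ c', (U c')⁻¹ = 1 := by
    rw [← Finset.prod_mul_distrib]
    exact Finset.prod_eq_one fun c' _ => mul_inv_cancel₀ (h.U_ne c')
  have h4 : ((-1) ^ Fintype.card ι * P₀) * P' = 1 := by
    apply aeval_qExpand_jqModC_injective ℂ N
    show aeval (jN N) _ = aeval (jN N) _
    rw [map_mul, ← h2, ← hP', h3, map_one]
  have h5 := (order_aeval_of_isUnit (jN N) (IsUnit.of_mul_eq_one _ h4)).2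
  rw [← h2] at h5
  have := h1.2
  omega

theorem aeval_mem_adjoin_simple_LS {k 𝕃 : Type*} [Field k] [Field 𝕃] [Algebra k 𝕃] (J : 𝕃)
    (P : k[X]) : aeval J P ∈ k⟮J⟯ := by
  have h1 : aeval J P ∈ Algebra.adjoin k {J} := by
    rw [Algebra.adjoin_singleton_eq_range_aeval]; exact ⟨P, rfl⟩
  exact IntermediateField.algebra_adjoin_le_adjoin k _ h1

theorem IsRootFamily.inSpan_theta (h : IsRootFamily N u c₀ U H) (y : LaurentSeries ℚ)
    (hy : y ∈ modularFunctionFieldFull N) :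
    InSpan (k := ℂ) (jN N) (U c₀) (Fintype.card ι) (theta N y) := by
  set Ψ : (LaurentSeries ℂ)[X] := ∏ c, (X - C (U c)) with hΨ
  have hcoeff : ∀ i, Ψ.coeff i ∈ ℂ⟮jN N⟯ := fun i => by
    obtain ⟨P, hP⟩ := h.charpoly_coeff i
    rw [hΨ, hP]; exact aeval_mem_adjoin_simple_LS _ _
  refine inSpan_of_mem_adjoin Ψ (monic_prod_of_monic _ _ fun c _ => monic_X_sub_C _) ?_ ?_ hcoeff ?_
  · rw [hΨ, natDegree_prod_of_monic _ _ fun c _ => monic_X_sub_C _]
    simp
  · rw [hΨ, eval_prod]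
    exact Finset.prod_eq_zero (Finset.mem_univ c₀) (by simp)
  · rw [modularFunctionFieldFull] at hy
    induction hy using IntermediateField.adjoin_induction with
    | mem x hx =>
      obtain ⟨d, hd0, hd, rfl⟩ := hx
      rw [theta_jd, ← h.H_c₀ d hd]
      refine mem_adjoin_of_lagrange _ U (H d) c₀ h.U_ne_U_base hcoeff fun i => ?_
      obtain ⟨P, hP⟩ := h.lagrange_coeff d hd i
      rw [hP]; exact aeval_mem_adjoin_simple_LS _ _
    | algebraMap x =>
      have : theta N (algebraMap ℚ (LaurentSeries ℚ) x) =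
          algebraMap ℚ (LaurentSeries ℂ) x := by
        exact (theta N).map_rat_algebraMap x
      rw [this]
      have h2 : algebraMap ℚ (LaurentSeries ℂ) x =
          algebraMap (ℂ⟮jN N⟯) (LaurentSeries ℂ) (algebraMap ℚ _ x) := by
        simp
      rw [h2]
      exact IntermediateField.algebraMap_mem _ _
    | add x y _ _ hx hy => rw [map_add]; exact add_mem hx hy
    | inv x _ hx => rw [map_inv₀]; exact inv_mem hx
    | mul x y _ _ hx hy => rw [map_mul]; exact mul_mem hx hy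

end Fam


section Proj
variable (π : ℂ →ₗ[ℚ] ℚ)

/-- apply a `ℚ`-linear form to the coefficients of a polynomial -/
def projPoly (p : ℂ[X]) : ℚ[X] :=
  ∑ k ∈ Finset.range (p.natDegree + 1), Polynomial.monomial k (π (p.coeff k))

theorem coeff_projPoly (p : ℂ[X]) (k : ℕ) : (projPoly π p).coeff k = π (p.coeff k) := by
  rw [projPoly, finsetSum_coeff]
  by_cases hk : k ∈ Finset.range (p.natDegree + 1)
  · rw [Finset.sum_eq_single k]
    · simp
    · intro b _ hb
      rw [coeff_monomial, if_neg hb]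
    · intro h; exact absurd hk h
  · rw [Finset.sum_eq_zero, coeff_eq_zero_of_natDegree_lt, map_zero]
    · simpa [Nat.lt_succ_iff] using hk
    · intro b hb
      rw [coeff_monomial, if_neg]
      rintro rfl; exact hk hb

theorem aeval_projPoly_mul_coeff (p : ℂ[X]) (z : LaurentSeries ℚ) (r : ℤ) :
    (aeval jq (projPoly π p) * z).coeff r =
      π ((aeval (jqModC ℂ) p * coeffMap (algebraMap ℚ ℂ) z).coeff r) := by
  have h1 : aeval jq (projPoly π p) * z =
      ∑ k ∈ Finset.range (p.natDegree + 1),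
        algebraMap ℚ (LaurentSeries ℚ) (π (p.coeff k)) * (jq ^ k * z) := by
    rw [projPoly, map_sum, Finset.sum_mul]
    refine Finset.sum_congr rfl fun k _ => ?_
    rw [aeval_monomial, mul_assoc]
  have h2 : aeval (jqModC ℂ) p * coeffMap (algebraMap ℚ ℂ) z =
      ∑ k ∈ Finset.range (p.natDegree + 1),
        algebraMap ℂ (LaurentSeries ℂ) (p.coeff k) * coeffMap (algebraMap ℚ ℂ) (jq ^ k * z) := by
    rw [aeval_eq_sum_range, Finset.sum_mul]
    refine Finset.sum_congr rfl fun k _ => ?_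
    rw [Algebra.smul_def, map_mul, map_pow, ← jqModC_rat, coeffMap_jqModC, mul_assoc]
  rw [h1, h2, HahnSeries.coeff_sum, HahnSeries.coeff_sum, map_sum]
  refine Finset.sum_congr rfl fun k _ => ?_
  rw [coeff_smul_LS, coeff_smul_LS, coeffMap_coeff]
  have : p.coeff k * algebraMap ℚ ℂ ((jq ^ k * z).coeff r) = ((jq ^ k * z).coeff r) • p.coeff k := by
    rw [Algebra.smul_def, mul_comm]
  rw [this, map_smul, smul_eq_mul, mul_comm]

end Proj

theorem exists_rat_span (u : LaurentSeries ℤ) (n : ℕ) (y : LaurentSeries ℚ)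
    (g : ℂ[X]) (f : Fin n → ℂ[X]) (hg : g ≠ 0)
    (h : aeval (jqModC ℂ) g * coeffMap (algebraMap ℚ ℂ) y =
      ∑ i, aeval (jqModC ℂ) (f i) * castLS ℂ u ^ (i : ℕ)) :
    ∃ (g' : ℚ[X]) (f' : Fin n → ℚ[X]), g' ≠ 0 ∧
      aeval jq g' * y = ∑ i, aeval jq (f' i) * castLS ℚ u ^ (i : ℕ) := by
  obtain ⟨π, hπ⟩ := LinearMap.exists_leftInverse_of_injective (Algebra.linearMap ℚ ℂ)
    (LinearMap.ker_eq_bot.mpr (algebraMap ℚ ℂ).injective)
  have hπ1 : π 1 = 1 := by
    have := LinearMap.congr_fun hπ 1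
    simpa using this
  set a := g.leadingCoeff with ha
  have ha0 : a ≠ 0 := leadingCoeff_ne_zero.mpr hg
  refine ⟨projPoly π (C a⁻¹ * g), fun i => projPoly π (C a⁻¹ * f i), ?_, ?_⟩
  · intro h0
    have := congrArg (fun p => p.coeff g.natDegree) h0
    simp only [coeff_projPoly, coeff_C_mul, coeff_zero] at this
    rw [coeff_natDegree, ← ha, inv_mul_cancel₀ ha0, hπ1] at this
    exact one_ne_zero this
  · ext r
    rw [aeval_projPoly_mul_coeff, HahnSeries.coeff_sum]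
    have h' : aeval (jqModC ℂ) (C a⁻¹ * g) * coeffMap (algebraMap ℚ ℂ) y =
        ∑ i, aeval (jqModC ℂ) (C a⁻¹ * f i) * coeffMap (algebraMap ℚ ℂ) (castLS ℚ u ^ (i : ℕ)) := by
      rw [map_mul, mul_assoc, h, Finset.mul_sum]
      refine Finset.sum_congr rfl fun i _ => ?_
      rw [map_mul, map_pow, coeffMap_castLS, mul_assoc]
    rw [h', HahnSeries.coeff_sum, map_sum]
    refine Finset.sum_congr rfl fun i _ => ?_
    rw [aeval_projPoly_mul_coeff]



section Clear
variable (ℓ : ℕ)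

theorem aeval_map_Rl (t : LaurentSeries ℚ) (p : (Rl ℓ)[X]) :
    aeval t (p.map (algebraMap (Rl ℓ) ℚ)) = aeval t p := by
  rw [aeval_def, aeval_def, eval₂_map]
  congr 1
  exact Rl.ringHom_eq ℓ _ _

theorem exists_nat_mul_lift (p : ℚ[X]) :
    ∃ m : ℕ, m ≠ 0 ∧ ∃ p' : (Rl ℓ)[X], p'.map (algebraMap (Rl ℓ) ℚ) = C (m : ℚ) * p := by
  induction p using Polynomial.induction_on' with
  | add p q hp hq =>
    obtain ⟨m, hm, p', hp'⟩ := hp
    obtain ⟨m', hm', q', hq'⟩ := hq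
    refine ⟨m * m', mul_ne_zero hm hm', C (m' : Rl ℓ) * p' + C (m : Rl ℓ) * q', ?_⟩
    rw [Polynomial.map_add, Polynomial.map_mul, Polynomial.map_mul, hp', hq', map_C, map_C]
    simp only [map_natCast, Nat.cast_mul, C_mul]
    ring
  | monomial k a =>
    refine ⟨a.den, a.den_nz, monomial k (a.num : Rl ℓ), ?_⟩
    rw [map_monomial, C_mul_monomial]
    congr 1
    rw [map_intCast, mul_comm, Rat.mul_den_eq_num]

theorem exists_nat_mul_lift_family {n : ℕ} (f : Fin n → ℚ[X]) :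
    ∃ m : ℕ, m ≠ 0 ∧ ∀ i, ∃ p' : (Rl ℓ)[X], p'.map (algebraMap (Rl ℓ) ℚ) = C (m : ℚ) * f i := by
  classical
  choose m hm p' hp' using fun i => exists_nat_mul_lift ℓ (f i)
  refine ⟨∏ i, m i, Finset.prod_ne_zero_iff.mpr fun i _ => hm i, fun i => ?_⟩
  refine ⟨C ((∏ k ∈ Finset.univ.erase i, m k : ℕ) : Rl ℓ) * p' i, ?_⟩
  rw [Polynomial.map_mul, hp', map_C, map_natCast,
    ← Finset.mul_prod_erase Finset.univ m (Finset.mem_univ i)]
  push_cast
  simp only [C_mul]
  ring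

theorem exists_Rl_span (u : LaurentSeries ℤ) (n : ℕ) (y : LaurentSeries ℚ)
    (g : ℚ[X]) (f : Fin n → ℚ[X]) (hg : g ≠ 0)
    (h : aeval jq g * y = ∑ i, aeval jq (f i) * castLS ℚ u ^ (i : ℕ)) :
    ∃ (g' : (Rl ℓ)[X]) (f' : Fin n → (Rl ℓ)[X]), g' ≠ 0 ∧
      aeval jq g' * y = ∑ i, aeval jq (f' i) * castLS ℚ u ^ (i : ℕ) := by
  obtain ⟨m, hm, hlift⟩ := exists_nat_mul_lift_family ℓ (Fin.cons g f : Fin (n + 1) → ℚ[X])
  choose p' hp' using hlift
  have hmQ : (m : ℚ) ≠ 0 := by exact_mod_cast hm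
  have haev : ∀ i, aeval jq (p' i) = aeval jq (C (m : ℚ) * (Fin.cons g f : Fin (n + 1) → ℚ[X]) i) := by
    intro i
    rw [← hp' i, aeval_map_Rl]
  refine ⟨p' 0, fun i => p' i.succ, ?_, ?_⟩
  · intro h0
    have := hp' 0
    rw [h0, Polynomial.map_zero, Fin.cons_zero] at this
    exact (mul_ne_zero (C_ne_zero.mpr hmQ) hg) this.symm
  · rw [haev 0, Fin.cons_zero, map_mul, mul_assoc, h, Finset.mul_sum]
    refine Finset.sum_congr rfl fun i _ => ?_
    rw [haev i.succ, Fin.cons_succ, map_mul, mul_assoc]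

end Clear


section Glue
variable {N : ℕ} [NeZero N] {u : LaurentSeries ℤ} {ι : Type} [Fintype ι] [DecidableEq ι]
  {c₀ : ι} {U : ι → LaurentSeries ℂ} {H : ℕ → ι → LaurentSeries ℂ}

theorem span_of_rootFamily (ℓ : ℕ) (h : IsRootFamily N u c₀ U H) (y : LaurentSeries ℚ)
    (hy : y ∈ modularFunctionFieldFull N) :
    ∃ (g : (Rl ℓ)[X]) (f : Fin (Fintype.card ι) → (Rl ℓ)[X]), g ≠ 0 ∧
      aeval jq g * y = ∑ i, aeval jq (f i) * castLS ℚ u ^ (i : ℕ) := by
  obtain ⟨g, f, hg, hrel⟩ := h.inSpan_theta y hy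
  have hg0 : g ≠ 0 := by
    rintro rfl
    exact hg (map_zero _)
  have hrel' : aeval (jqModC ℂ) g * coeffMap (algebraMap ℚ ℂ) y =
      ∑ i, aeval (jqModC ℂ) (f i) * castLS ℂ u ^ (i : ℕ) := by
    apply qExpand_injective (R := ℂ) N
    rw [map_mul, map_sum, ← aeval_qExpand, ← theta_apply]
    refine hrel.trans (Finset.sum_congr rfl fun i _ => ?_)
    rw [map_mul, map_pow, ← aeval_qExpand, h.U_c₀]
    rfl
  obtain ⟨g₁, f₁, hg₁, h₁⟩ := exists_rat_span u _ y g f hg0 hrel'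
  exact exists_Rl_span ℓ u _ y g₁ f₁ hg₁ h₁

end Glue

end Fermat.Agent.S28
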