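import Mathlib

set_option autoImplicit false

open Polynomial IntermediateField

namespace Fermat.Agent.S28

section spanAbstract

variable {k L : Type*} [Field k] [Field L] [Algebra k L]

/-- Elements of `k(J)` are fractions of polynomials in `J`. -/
theorem exists_frac_of_mem_adjoin (J a : L) (ha : a ∈ k⟮J⟯) :
    ∃ r s : k[X], aeval J s ≠ 0 ∧ aeval J s * a = aeval J r := by
  obtain ⟨r, s, rfl⟩ := (mem_adjoin_simple_iff k a).1 ha
  by_cases hs : aeval J s = 0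
  · exact ⟨0, 1, by simp, by simp [hs]⟩
  · exact ⟨r, s, hs, by field_simp⟩

/-- If `x` is a root of a monic polynomial of degree `n` over `k(J)`, every element of `k(J)(x)`
is a `k(J)`-combination of `1, x, …, x^(n-1)`; denominators cleared. -/
theorem exists_span_of_mem_adjoin (J x : L) (n : ℕ) (Ψ : L[X]) (hmonic : Ψ.Monic)
    (hdeg : Ψ.natDegree = n) (hcoeff : ∀ i, Ψ.coeff i ∈ k⟮J⟯) (hroot : Ψ.eval x = 0) (z : L)
    (hz : z ∈ (k⟮J⟯)⟮x⟯) :
    ∃ g : k[X], aeval J g ≠ 0 ∧ ∃ f : Fin n → k[X],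
      aeval J g * z = ∑ i, aeval J (f i) * x ^ (i : ℕ) := by
  classical
  obtain ⟨ΨK, hΨK⟩ : ∃ ΨK : (k⟮J⟯)[X], ΨK.map (algebraMap k⟮J⟯ L) = Ψ := by
    have : Ψ ∈ lifts (algebraMap k⟮J⟯ L) :=
      (lifts_iff_coeff_lifts _).2 (fun i => ⟨⟨Ψ.coeff i, hcoeff i⟩, rfl⟩)
    exact (mem_lifts _).1 this
  have hinj : Function.Injective (algebraMap k⟮J⟯ L) := (algebraMap k⟮J⟯ L).injective
  have hΨKmonic : ΨK.Monic := monic_of_injective hinj (by rw [hΨK]; exact hmonic)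
  have hΨKdeg : ΨK.natDegree = n := by rw [← natDegree_map_eq_of_injective hinj, hΨK, hdeg]
  have hΨKroot : aeval x ΨK = 0 := by rw [aeval_def, eval₂_eq_eval_map, hΨK, hroot]
  have hint : IsIntegral k⟮J⟯ x := ⟨ΨK, hΨKmonic, hΨKroot⟩
  have hz' : z ∈ Algebra.adjoin k⟮J⟯ {x} := by
    rw [← adjoin_simple_toSubalgebra_of_isAlgebraic hint.isAlgebraic]; exact hz
  rw [Algebra.adjoin_singleton_eq_range_aeval] at hz'
  obtain ⟨p, rfl⟩ := hz'
  have hp' : aeval x (p %ₘ ΨK) = aeval x p := aeval_modByMonic_eq_self_of_root hΨKroot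
  have hne1 : ΨK ≠ 1 := by
    rintro rfl
    simp at hΨKroot
  have hdeg' : (p %ₘ ΨK).natDegree < n := by
    rw [← hΨKdeg]; exact natDegree_modByMonic_lt p hΨKmonic hne1
  have hsum : aeval x p = ∑ i : Fin n, (((p %ₘ ΨK).coeff i : k⟮J⟯) : L) * x ^ (i : ℕ) := by
    rw [← hp', aeval_eq_sum_range' hdeg', Finset.sum_range]
    refine Finset.sum_congr rfl fun i _ => ?_
    rw [Algebra.smul_def]
    rfl
  choose r s hs hrs using fun i : Fin n =>
    exists_frac_of_mem_adjoin J (((p %ₘ ΨK).coeff i : k⟮J⟯) : L) ((p %ₘ ΨK).coeff i).2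
  refine ⟨∏ i, s i, ?_, fun i => r i * ∏ j ∈ Finset.univ.erase i, s j, ?_⟩
  · rw [map_prod]
    exact Finset.prod_ne_zero_iff.2 fun i _ => hs i
  · show aeval J (∏ i, s i) * aeval x p = _
    rw [hsum, Finset.mul_sum]
    refine Finset.sum_congr rfl fun i _ => ?_
    rw [← Finset.mul_prod_erase Finset.univ s (Finset.mem_univ i), map_mul, map_mul, ← hrs i]
    ring

theorem eval_mem_adjoin (K : IntermediateField k L) (x : L) (G : L[X])
    (hG : ∀ i, G.coeff i ∈ K) : G.eval x ∈ K⟮x⟯ := by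
  rw [eval_eq_sum_range]
  refine sum_mem fun i _ => mul_mem ?_ (pow_mem (mem_adjoin_simple_self K x) i)
  exact (K⟮x⟯).algebraMap_mem ⟨G.coeff i, hG i⟩

/-- Lagrange interpolation: `H c₀ ∈ K(U c₀)`. -/
theorem lagrange_mem_adjoin (K : IntermediateField k L) {ι : Type*} [Fintype ι] [DecidableEq ι]
    (c₀ : ι) (U H : ι → L) (hdist : ∀ c, c ≠ c₀ → U c ≠ U c₀)
    (hΨ : ∀ i, (∏ c, (X - C (U c))).coeff i ∈ K)
    (hG : ∀ i, (∑ c, C (H c) * ∏ c' ∈ Finset.univ.erase c, (X - C (U c'))).coeff i ∈ K) :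
    H c₀ ∈ K⟮U c₀⟯ := by
  have h1 : eval (U c₀) (∑ c, C (H c) * ∏ c' ∈ Finset.univ.erase c, (X - C (U c')))
      = H c₀ * ∏ c' ∈ Finset.univ.erase c₀, (U c₀ - U c') := by
    rw [eval_finsetSum, Finset.sum_eq_single c₀]
    · simp [eval_prod]
    · intro c _ hc
      rw [eval_mul, eval_prod, Finset.prod_eq_zero (i := c₀)
        (Finset.mem_erase.2 ⟨hc.symm, Finset.mem_univ _⟩) (by simp), mul_zero]
    · intro h; exact absurd (Finset.mem_univ _) h
  have h2 : eval (U c₀) (derivative (∏ c, (X - C (U c))))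
      = ∏ c' ∈ Finset.univ.erase c₀, (U c₀ - U c') := by
    have := Lagrange.eval_nodal_derivative_eval_node_eq (s := Finset.univ) (v := U)
      (Finset.mem_univ c₀)
    rw [Lagrange.nodal, Lagrange.nodal] at this
    rw [this, eval_prod]
    simp
  have h3 : ∏ c' ∈ Finset.univ.erase c₀, (U c₀ - U c') ≠ 0 :=
    Finset.prod_ne_zero_iff.2 fun c' hc' =>
      sub_ne_zero.2 (hdist c' (Finset.ne_of_mem_erase hc')).symm
  have h4 : H c₀ = eval (U c₀) (∑ c, C (H c) * ∏ c' ∈ Finset.univ.erase c, (X - C (U c'))) /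
      eval (U c₀) (derivative (∏ c, (X - C (U c)))) := by
    rw [h1, h2, mul_div_cancel_right₀ _ h3]
  rw [h4]
  refine div_mem (eval_mem_adjoin K _ _ hG) (eval_mem_adjoin K _ _ fun i => ?_)
  rw [coeff_derivative]
  exact mul_mem (hΨ _) (add_mem (_root_.natCast_mem K i) (one_mem K))

end spanAbstract

end Fermat.Agent.S28
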