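import Fermat.Agent.S28.Irr
import Fermat.Agent.S28.SpanAbstract

set_option autoImplicit false
noncomputable section
open Polynomial ModularCurve IntermediateField

namespace Fermat.Agent.S28

section spanC

variable {N : ℕ} [NeZero N] {u : LaurentSeries ℤ} {ι : Type} [Fintype ι]
  [DecidableEq ι] {c₀ : ι} {U : ι → LaurentSeries ℂ} {H : ℕ → ι → LaurentSeries ℂ}

/-- The product of the inverses of the roots is a nonzero constant: it has order `0`. -/
theorem IsRootFamily.order_prod_inv (h : IsRootFamily N u c₀ U H) :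
    (∏ c, (U c)⁻¹).order = 0 := by
  obtain ⟨P, hP⟩ := h.prod_inv
  obtain ⟨P0, hP0⟩ := h.charpoly_coeff 0
  have hinj : Function.Injective (aeval (jN N) : ℂ[X] → LaurentSeries ℂ) :=
    (isMonicPole_jN N).aeval_injective
  have h1 : aeval (jN N) P0 = ∏ c, (- U c) := by
    rw [← hP0, coeff_zero_eq_eval_zero, eval_prod]
    exact Finset.prod_congr rfl (fun c _ => by simp)
  have h2 : aeval (jN N) (P * ((-1) ^ Fintype.card ι * P0)) = aeval (jN N) (1 : ℂ[X]) := by
    have h5 : ∏ c, (- U c) = (-1) ^ Fintype.card ι * ∏ c, U c := by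
      rw [← Finset.card_univ, ← Finset.prod_const, ← Finset.prod_mul_distrib]
      exact Finset.prod_congr rfl (fun c _ => by ring)
    rw [map_mul, map_mul, h1, ← hP, map_pow, map_neg, map_one, h5]
    have h3 : (∏ c, U c) * ∏ c, (U c)⁻¹ = 1 := by
      rw [← Finset.prod_mul_distrib]
      exact Finset.prod_eq_one (fun c _ => mul_inv_cancel₀ (h.U_ne c))
    have h4 : ((-1 : LaurentSeries ℂ) ^ Fintype.card ι) * (-1) ^ Fintype.card ι = 1 := by
      rw [← mul_pow, show (-1 : LaurentSeries ℂ) * (-1) = 1 by ring, one_pow]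
    calc (∏ c, (U c)⁻¹) * ((-1) ^ Fintype.card ι * ((-1) ^ Fintype.card ι * ∏ c, U c))
        = ((-1) ^ Fintype.card ι * (-1) ^ Fintype.card ι) * ((∏ c, U c) * ∏ c, (U c)⁻¹) := by
          ring
      _ = 1 := by rw [h3, h4, one_mul]
  have hunit : IsUnit P := IsUnit.of_mul_eq_one _ (hinj h2)
  rw [hP]
  exact (order_aeval_of_isUnit (jN N) hunit).2

/-- The distinguished root is different from the others. -/
theorem IsRootFamily.U_ne_U_c₀ (h : IsRootFamily N u c₀ U H) (c : ι) (hc : c ≠ c₀) :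
    U c ≠ U c₀ := by
  intro heq
  have hneg : ∀ c', (U c').order < 0 := by
    intro c'
    by_cases hc' : c' = c₀
    · rw [hc', ← heq]; exact h.order_neg c hc
    · exact h.order_neg c' hc'
  have h1 := order_multiset_prod_le (Finset.univ.val.map U) (by
    intro r hr
    obtain ⟨c', -, rfl⟩ := Multiset.mem_map.1 hr
    exact ⟨h.U_ne c', hneg c'⟩)
  have h2 : (Finset.univ.val.map U).prod = ∏ c, U c := rfl
  rw [h2] at h1
  have h3 : (∏ c, U c) * ∏ c, (U c)⁻¹ = 1 := by
    rw [← Finset.prod_mul_distrib]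
    exact Finset.prod_eq_one (fun c _ => mul_inv_cancel₀ (h.U_ne c))
  have h4 : (∏ c, U c).order + (∏ c, (U c)⁻¹).order = 0 := by
    rw [← HahnSeries.order_mul h1.1 (right_ne_zero_of_mul_eq_one h3), h3, HahnSeries.order_one]
  rw [h.order_prod_inv, add_zero] at h4
  have h5 := h1.2
  rw [h4, Multiset.card_map] at h5
  have h6 : 0 < Multiset.card (Finset.univ : Finset ι).val := by
    rw [Multiset.card_pos_iff_exists_mem]
    exact ⟨c₀, Finset.mem_univ_val c₀⟩
  have : (0 : ℤ) < (Multiset.card (Finset.univ : Finset ι).val : ℤ) := by exact_mod_cast h6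
  linarith

theorem aeval_mem_adjoin_simple (J : LaurentSeries ℂ) (P : ℂ[X]) : aeval J P ∈ ℂ⟮J⟯ := by
  rw [mem_adjoin_simple_iff]
  exact ⟨P, 1, by simp⟩

/-- The embedding `ℚ((q)) → ℂ((t))`, `q ↦ t^N`. -/
def VN (N : ℕ) [NeZero N] : LaurentSeries ℚ →+* LaurentSeries ℂ :=
  (qExpand ℂ N).comp (coeffMap (algebraMap ℚ ℂ))

theorem VN_apply (y : LaurentSeries ℚ) :
    VN N y = qExpand ℂ N (coeffMap (algebraMap ℚ ℂ) y) := rfl

theorem IsRootFamily.VN_mem (h : IsRootFamily N u c₀ U H) (y : LaurentSeries ℚ)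
    (hy : y ∈ modularFunctionFieldFull N) : VN N y ∈ (ℂ⟮jN N⟯)⟮U c₀⟯ := by
  rw [modularFunctionFieldFull] at hy
  induction hy using IntermediateField.adjoin_induction with
  | mem x hx =>
    obtain ⟨d, hd0, hd, rfl⟩ := hx
    have h1 : VN N (qExpand ℚ d jq) = H d c₀ := by
      rw [h.H_c₀ d hd, VN_apply, coeffMap_qExpand, ← jqModC_rat, coeffMap_jqModC]
    rw [h1]
    refine lagrange_mem_adjoin (ℂ⟮jN N⟯) c₀ U (H d) h.U_ne_U_c₀ (fun i => ?_) (fun i => ?_)
    · obtain ⟨P, hP⟩ := h.charpoly_coeff i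
      rw [hP]; exact aeval_mem_adjoin_simple _ P
    · obtain ⟨P, hP⟩ := h.lagrange_coeff d hd i
      rw [hP]; exact aeval_mem_adjoin_simple _ P
  | algebraMap r =>
    have : VN N (algebraMap ℚ (LaurentSeries ℚ) r) = ((r : ℚ) : LaurentSeries ℂ) := by
      rw [eq_ratCast, map_ratCast]
    rw [this]
    exact SubfieldClass.ratCast_mem _ r
  | add x y _ _ hx hy => rw [map_add]; exact add_mem hx hy
  | inv x _ hx => rw [map_inv₀]; exact inv_mem hx
  | mul x y _ _ hx hy => rw [map_mul]; exact mul_mem hx hy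

/-- Step A of `span`: over `ℂ`. -/
theorem IsRootFamily.spanC (h : IsRootFamily N u c₀ U H) (y : LaurentSeries ℚ)
    (hy : y ∈ modularFunctionFieldFull N) :
    ∃ g : ℂ[X], g ≠ 0 ∧ ∃ f : Fin (Fintype.card ι) → ℂ[X],
      aeval (jN N) g * VN N y = ∑ i, aeval (jN N) (f i) * U c₀ ^ (i : ℕ) := by
  obtain ⟨g, hg, f, hf⟩ := exists_span_of_mem_adjoin (k := ℂ) (jN N) (U c₀) (Fintype.card ι)
    (∏ c, (X - C (U c))) (monic_prod_of_monic _ _ (fun c _ => monic_X_sub_C _))
    (by
      rw [prod_X_sub_C_eq_multiset, natDegree_multiset_prod_X_sub_C_eq_card]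
      simp)
    (fun i => by
      obtain ⟨P, hP⟩ := h.charpoly_coeff i
      rw [hP]; exact aeval_mem_adjoin_simple _ P)
    (by
      rw [eval_prod]
      exact Finset.prod_eq_zero (Finset.mem_univ c₀) (by simp))
    (VN N y) (h.VN_mem y hy)
  refine ⟨g, ?_, f, hf⟩
  rintro rfl
  simp at hg

end spanC

end Fermat.Agent.S28
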