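import Fermat.Agent.S28.Rl

set_option autoImplicit false
noncomputable section
open Polynomial ModularCurve
open scoped TensorProduct

namespace Fermat.Agent.S28

namespace Ten

variable (ℓ : ℕ)

/-- the inverse of the denominator, inside `ℤ_(ℓ)` -/
theorem exists_den_inv (x : Rl ℓ) : ∃ y : Rl ℓ, ((x : ℚ).den : Rl ℓ) * y = 1 := by
  have hx : (x : ℚ).den.Coprime ℓ := x.2
  refine ⟨⟨((x : ℚ).den : ℚ)⁻¹, ?_⟩, ?_⟩
  · show (((x : ℚ).den : ℚ)⁻¹).den.Coprime ℓ
    have h : (((x : ℚ).den : ℚ)⁻¹).den = (x : ℚ).den := by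
      simp
    rw [h]; exact hx
  · apply Subtype.ext
    have : ((x : ℚ).den : ℚ) ≠ 0 := by exact_mod_cast (x : ℚ).den_ne_zero
    simp [this]

theorem ringHom_eq {S : Type*} [CommRing S] (f g : Rl ℓ →+* S) : f = g := by
  ext x
  obtain ⟨y, hy⟩ := exists_den_inv ℓ x
  have hnum : ((x : ℚ).den : Rl ℓ) * x = ((x : ℚ).num : Rl ℓ) := by
    apply Subtype.ext
    simp [Rat.den_mul_eq_num]
  have hf : ((x : ℚ).den : S) * f x = ((x : ℚ).num : S) := by
    have := congrArg f hnum
    simpa using this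
  have hg : ((x : ℚ).den : S) * g x = ((x : ℚ).num : S) := by
    have := congrArg g hnum
    simpa using this
  have hu : f y * ((x : ℚ).den : S) = 1 := by
    have := congrArg f hy
    simpa [mul_comm] using this
  calc f x = f y * ((x : ℚ).den : S) * f x := by rw [hu, one_mul]
    _ = f y * (((x : ℚ).den : S) * g x) := by rw [mul_assoc, hf, hg]
    _ = g x := by rw [← mul_assoc, hu, one_mul]

end Ten

theorem isDomain_tensor (ℓ : ℕ) [Fact ℓ.Prime] {A : Type} [CommRing A] [Algebra (Rl ℓ) A]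
    (ρ : A →+* LaurentSeries (ZMod ℓ)) (hker : ∀ a, ρ a = 0 → ∃ a', a = (ℓ : A) * a')
    (K : Type) [Field K] [CharP K ℓ] [Algebra (Rl ℓ) K] : IsDomain (A ⊗[Rl ℓ] K) := by
  let _ : Algebra (ZMod ℓ) K := ZMod.algebra K ℓ
  let φA0 : A →+* LaurentSeries K := (coeffMap (algebraMap (ZMod ℓ) K)).comp ρ
  let φA : A →ₐ[Rl ℓ] LaurentSeries K :=
    { φA0 with
      commutes' := fun r => by
        have := Ten.ringHom_eq ℓ (φA0.comp (algebraMap (Rl ℓ) A))
          (algebraMap (Rl ℓ) (LaurentSeries K))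
        exact DFunLike.congr_fun this r }
  let φK : K →ₐ[Rl ℓ] LaurentSeries K :=
    { (HahnSeries.C : K →+* LaurentSeries K) with
      commutes' := fun r => by
        have := Ten.ringHom_eq ℓ ((HahnSeries.C : K →+* LaurentSeries K).comp
          (algebraMap (Rl ℓ) K)) (algebraMap (Rl ℓ) (LaurentSeries K))
        exact DFunLike.congr_fun this r }
  let Θ : A ⊗[Rl ℓ] K →ₐ[Rl ℓ] LaurentSeries K := Algebra.TensorProduct.productMap φA φK
  let b := Module.Basis.ofVectorSpace (ZMod ℓ) K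
  have hrep : ∀ x : A ⊗[Rl ℓ] K, ∃ f : (Module.Basis.ofVectorSpaceIndex (ZMod ℓ) K) →₀ A,
      x = f.sum (fun i a => a ⊗ₜ[Rl ℓ] b i) := by
    intro x
    induction x using TensorProduct.induction_on with
    | zero => exact ⟨0, by simp⟩
    | tmul a c =>
      refine ⟨(b.repr c).mapRange (fun z => ((z.val : ℕ) : Rl ℓ) • a) (by simp), ?_⟩
      rw [Finsupp.sum_mapRange_index (by simp)]
      conv_lhs => rw [← b.linearCombination_repr c, Finsupp.linearCombination_apply]
      rw [Finsupp.sum, Finsupp.sum, TensorProduct.tmul_sum]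
      refine Finset.sum_congr rfl fun i _ => ?_
      rw [TensorProduct.smul_tmul]
      congr 1
      rw [Nat.cast_smul_eq_nsmul, ← Nat.cast_smul_eq_nsmul (ZMod ℓ), ZMod.natCast_zmod_val]
    | add x y hx hy =>
      obtain ⟨f, rfl⟩ := hx
      obtain ⟨g, rfl⟩ := hy
      refine ⟨f + g, ?_⟩
      rw [Finsupp.sum_add_index' (by simp) (by intro i a a'; rw [TensorProduct.add_tmul])]
  have hinj : Function.Injective Θ := by
    rw [injective_iff_map_eq_zero]
    intro x hx
    obtain ⟨f, rfl⟩ := hrep x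
    rw [Finsupp.sum] at hx ⊢
    rw [map_sum] at hx
    have hcoef : ∀ n : ℤ, ∑ i ∈ f.support, ((ρ (f i)).coeff n) • b i = 0 := by
      intro n
      have := congrArg (fun y : LaurentSeries K => y.coeff n) hx
      simp only [HahnSeries.coeff_zero] at this
      rw [HahnSeries.coeff_sum] at this
      rw [← this]
      refine Finset.sum_congr rfl fun i _ => ?_
      have h1 : Θ (f i ⊗ₜ[Rl ℓ] b i) = b i • coeffMap (algebraMap (ZMod ℓ) K) (ρ (f i)) := by
        rw [← HahnSeries.C_mul_eq_smul, mul_comm]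
        exact Algebra.TensorProduct.productMap_apply_tmul φA φK (f i) (b i)
      rw [h1, HahnSeries.coeff_smul, coeffMap_coeff, Algebra.smul_def, smul_eq_mul, mul_comm]
    refine Finset.sum_eq_zero fun i hi => ?_
    have hρ : ρ (f i) = 0 := by
      ext n
      exact linearIndependent_iff'.1 b.linearIndependent f.support _ (hcoef n) i hi
    obtain ⟨a', ha'⟩ := hker _ hρ
    have h1 : f i = (ℓ : Rl ℓ) • a' := by
      rw [ha', Algebra.smul_def]; simp
    rw [h1, TensorProduct.smul_tmul, Nat.cast_smul_eq_nsmul]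
    have : (ℓ : ℕ) • b i = 0 := by
      rw [nsmul_eq_mul, CharP.cast_eq_zero, zero_mul]
    rw [this, TensorProduct.tmul_zero]
  exact hinj.isDomain Θ

end Fermat.Agent.S28
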