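import Fermat.Agent.S28.Rl

set_option autoImplicit false
noncomputable section
open Polynomial

namespace Fermat.Agent.S28

namespace UFD

/-- The minimal polynomial of a nonzero scalar multiple. -/
theorem minpoly_algebraMap_mul {K L : Type*} [Field K] [Field L] [Algebra K L] (c : K) (hc : c ≠ 0)
    (z : L) (hz : IsIntegral K z) :
    minpoly K (algebraMap K L c * z) = scaleRoots (minpoly K z) c := by
  symm
  refine minpoly.unique K _ ((monic_scaleRoots_iff c).2 (minpoly.monic hz))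
    (scaleRoots_aeval_eq_zero (minpoly.aeval K z)) ?_
  intro q hq hq0
  rw [degree_scaleRoots]
  have h1 : aeval z (scaleRoots q c⁻¹) = 0 := by
    have := scaleRoots_aeval_eq_zero (r := c⁻¹) hq0
    rwa [← mul_assoc, ← map_mul, inv_mul_cancel₀ hc, map_one, one_mul] at this
  have h2 := minpoly.min K z ((monic_scaleRoots_iff c⁻¹).2 hq) h1
  rwa [degree_scaleRoots] at h2

/-- Over a normal domain: if `π z` and `g z` are integral, `π` prime, `π ∤ g`, then `z` is
integral. -/
theorem isIntegral_of_mul_of_mul {R L : Type*} [CommRing R] [IsDomain R] [IsIntegrallyClosed R]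
    [Field L] [Algebra R L] [FaithfulSMul R L] (π g : R) (hπ : Prime π) (hg : ¬ π ∣ g) (z : L)
    (h1 : IsIntegral R (algebraMap R L π * z)) (h2 : IsIntegral R (algebraMap R L g * z)) :
    IsIntegral R z := by
  let _ : Algebra (FractionRing R) L := FractionRing.liftAlgebra R L
  have : IsScalarTower R (FractionRing R) L := FractionRing.isScalarTower_liftAlgebra R L
  set K := FractionRing R with hK
  have hinj : Function.Injective (algebraMap R K) := IsFractionRing.injective R K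
  have hπ0 : algebraMap R K π ≠ 0 := by
    rw [Ne, map_eq_zero_iff _ hinj]; exact hπ.ne_zero
  have hg0' : g ≠ 0 := by rintro rfl; exact hg (dvd_zero _)
  have hg0 : algebraMap R K g ≠ 0 := by
    rw [Ne, map_eq_zero_iff _ hinj]; exact hg0'
  have e1 : algebraMap R L π = algebraMap K L (algebraMap R K π) :=
    IsScalarTower.algebraMap_apply R K L π
  have e2 : algebraMap R L g = algebraMap K L (algebraMap R K g) :=
    IsScalarTower.algebraMap_apply R K L g
  have hz : IsIntegral K z := by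
    have h3 : IsIntegral K (algebraMap K L (algebraMap R K π) * z) := by
      rw [← e1]; exact h1.tower_top
    have h4 : IsIntegral K (algebraMap K L (algebraMap R K π)⁻¹) := isIntegral_algebraMap
    have h5 := h4.mul h3
    rwa [← mul_assoc, ← map_mul, inv_mul_cancel₀ hπ0, map_one, one_mul] at h5
  set μ := minpoly K z with hμ
  have m1 : scaleRoots μ (algebraMap R K π) = (minpoly R (algebraMap R L π * z)).map
      (algebraMap R K) := by
    rw [← minpoly.isIntegrallyClosed_eq_field_fractions' K h1, e1,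
      minpoly_algebraMap_mul _ hπ0 z hz]
  have m2 : scaleRoots μ (algebraMap R K g) = (minpoly R (algebraMap R L g * z)).map
      (algebraMap R K) := by
    rw [← minpoly.isIntegrallyClosed_eq_field_fractions' K h2, e2,
      minpoly_algebraMap_mul _ hg0 z hz]
  have hlift : μ ∈ lifts (algebraMap R K) := by
    rw [lifts_iff_coeff_lifts]
    intro i
    have c1 := congrArg (fun p => coeff p i) m1
    have c2 := congrArg (fun p => coeff p i) m2
    simp only [coeff_scaleRoots, coeff_map] at c1 c2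
    set k := μ.natDegree - i
    set a := (minpoly R (algebraMap R L π * z)).coeff i
    set b := (minpoly R (algebraMap R L g * z)).coeff i
    have h6 : a * g ^ k = b * π ^ k := by
      apply hinj
      rw [map_mul, map_mul, map_pow, map_pow, ← c1, ← c2]; ring
    have h7 : π ^ k ∣ a := by
      refine hπ.pow_dvd_of_dvd_mul_right (b := g ^ k) k (fun h => hg (hπ.dvd_of_dvd_pow h)) ?_
      exact ⟨b, by rw [h6]; ring⟩
    obtain ⟨c, hc⟩ := h7
    refine ⟨c, ?_⟩
    have h8 : algebraMap R K π ^ k ≠ 0 := pow_ne_zero _ hπ0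
    apply mul_right_cancel₀ h8
    rw [c1, hc, map_mul, map_pow]; ring
  obtain ⟨q, hq1, -, hq2⟩ := lifts_and_natDegree_eq_and_monic hlift (minpoly.monic hz)
  refine ⟨q, hq2, ?_⟩
  have : aeval z (q.map (algebraMap R K)) = 0 := by rw [hq1]; exact minpoly.aeval K z
  rwa [aeval_map_algebraMap, aeval_def] at this

variable (ℓ : ℕ) [Fact ℓ.Prime]

/-- `ℤ_(ℓ)` as a valuation subring of `ℚ`. -/
def RlVal : ValuationSubring ℚ where
  toSubring := GaloisRep.ratLocalizedAt ℓ
  mem_or_inv_mem' := by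
    intro x
    by_cases hx : x = 0
    · left; subst hx; exact (GaloisRep.ratLocalizedAt ℓ).zero_mem
    by_cases h : x.den.Coprime ℓ
    · left; exact h
    · right
      show (x⁻¹).den.Coprime ℓ
      have hℓ : ℓ.Prime := Fact.out
      have h1 : ℓ ∣ x.den := by
        by_contra h2
        exact h ((Nat.Prime.coprime_iff_not_dvd hℓ).2 h2).symm
      rw [Rat.den_inv_of_ne_zero hx]
      refine ((Nat.Prime.coprime_iff_not_dvd hℓ).2 fun h2 => ?_).symm
      have h3 := Nat.dvd_gcd h2 h1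
      rw [x.reduced.gcd_eq_one] at h3
      exact hℓ.one_lt.ne' (Nat.dvd_one.1 h3)

theorem isIntegrallyClosed_Rl : IsIntegrallyClosed (Rl ℓ) :=
  inferInstanceAs (IsIntegrallyClosed (RlVal ℓ).toSubring)

theorem red_natCast_self : red ℓ (ℓ : Rl ℓ) = 0 := by
  rw [map_natCast]; exact ZMod.natCast_self ℓ

theorem dvd_of_red_eq_zero (x : Rl ℓ) (hx : red ℓ x = 0) : (ℓ : Rl ℓ) ∣ x := by
  have hℓ : ℓ.Prime := Fact.out
  rw [red_apply, Rat.cast_def, div_eq_zero_iff] at hx
  have h1 : ((x : ℚ).num : ZMod ℓ) = 0 := hx.resolve_right (Rl.den_ne_zero ℓ x)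
  rw [ZMod.intCast_zmod_eq_zero_iff_dvd] at h1
  obtain ⟨m, hm⟩ := h1
  have hmem : (m : ℚ) / ((x : ℚ).den : ℚ) ∈ GaloisRep.ratLocalizedAt ℓ := by
    show ((m : ℚ) / ((x : ℚ).den : ℚ)).den.Coprime ℓ
    have h2 : ((m : ℚ) / ((x : ℚ).den : ℚ)).den ∣ (x : ℚ).den := by
      have h5 := Rat.den_dvd m ((x : ℚ).den : ℤ)
      rw [Rat.divInt_eq_div] at h5
      exact_mod_cast h5
    exact Nat.Coprime.coprime_dvd_left h2 x.2
  refine ⟨⟨_, hmem⟩, ?_⟩
  apply Subtype.ext
  have h3 : ((x : ℚ).den : ℚ) ≠ 0 := by exact_mod_cast (x : ℚ).den_nz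
  have h4 : (x : ℚ) = ((x : ℚ).num : ℚ) / ((x : ℚ).den : ℚ) := (Rat.num_div_den _).symm
  have h5 : ((x : ℚ).num : ℚ) = (ℓ : ℚ) * (m : ℚ) := by exact_mod_cast hm
  show (x : ℚ) = (ℓ : ℚ) * ((m : ℚ) / ((x : ℚ).den : ℚ))
  rw [← mul_div_assoc, ← h5]
  exact h4

theorem prime_natCast_Rl : Prime (ℓ : Rl ℓ) := by
  have hℓ : ℓ.Prime := Fact.out
  refine ⟨?_, ?_, ?_⟩
  · exact_mod_cast hℓ.ne_zero
  · intro h
    have := h.map (red ℓ)
    rw [red_natCast_self] at this
    exact not_isUnit_zero this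
  · intro a b hab
    obtain ⟨c, hc⟩ := hab
    have h1 : red ℓ a * red ℓ b = 0 := by
      rw [← map_mul, hc, map_mul, red_natCast_self, zero_mul]
    rcases mul_eq_zero.1 h1 with h | h
    · exact Or.inl (dvd_of_red_eq_zero ℓ a h)
    · exact Or.inr (dvd_of_red_eq_zero ℓ b h)

end UFD

theorem intOver_of_mul (ℓ : ℕ) [Fact ℓ.Prime] (t z : LaurentSeries ℚ)
    (ht : Transcendental (Rl ℓ) t)
    (g : (Rl ℓ)[X]) (hg : g.map (red ℓ) ≠ 0)
    (h1 : IntOver ℓ t ((ℓ : LaurentSeries ℚ) * z)) (h2 : IntOver ℓ t (aeval t g * z)) :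
    IntOver ℓ t z := by
  have := UFD.isIntegrallyClosed_Rl ℓ
  let φ : (Rl ℓ)[X] →+* LaurentSeries ℚ :=
    ((aeval t : (Rl ℓ)[X] →ₐ[Rl ℓ] LaurentSeries ℚ) : (Rl ℓ)[X] →+* LaurentSeries ℚ)
  let _ : Algebra (Rl ℓ)[X] (LaurentSeries ℚ) := φ.toAlgebra
  have hinj : Function.Injective (algebraMap (Rl ℓ)[X] (LaurentSeries ℚ)) :=
    transcendental_iff_injective.1 ht
  have : FaithfulSMul (Rl ℓ)[X] (LaurentSeries ℚ) :=
    (faithfulSMul_iff_algebraMap_injective _ _).2 hinj
  have hπ : Prime (C (ℓ : Rl ℓ)) := prime_C_iff.2 (UFD.prime_natCast_Rl ℓ)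
  have hg' : ¬ C (ℓ : Rl ℓ) ∣ g := by
    rintro ⟨h, rfl⟩
    apply hg
    rw [Polynomial.map_mul, map_C, UFD.red_natCast_self, C_0, zero_mul]
  have e : algebraMap (Rl ℓ)[X] (LaurentSeries ℚ) (C (ℓ : Rl ℓ)) = (ℓ : LaurentSeries ℚ) := by
    show aeval t (C (ℓ : Rl ℓ)) = _
    rw [aeval_C, map_natCast]
  refine UFD.isIntegral_of_mul_of_mul (R := (Rl ℓ)[X]) (L := LaurentSeries ℚ) (C (ℓ : Rl ℓ)) g hπ
    hg' z ?_ ?_
  · rw [e]; exact h1
  · exact h2

end Fermat.Agent.S28
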